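/-
CAR (F-bc), brick 1: discrete valuation subrings with a chosen uniformiser and their `ℤ`-valued
order function.

`IsUnif A π` : `π` is a non-unit of the valuation subring `A` and every nonzero element of the
field is `π ^ n * (unit of A)`.  `IsUnif.ord` is the resulting order function `F → ℤ`
(junk value `0` at `0`).
-/
import Mathlib

set_option autoImplicit false

namespace Fermat.Agent.CAR.Formal

variable {F : Type*} [Field F]

/-- `A` is a discrete valuation subring of `F` with uniformiser `π`: `π` is a non-unit of `A`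
and every nonzero element of `F` is `π ^ n` times a unit of `A`. -/
structure IsUnif (A : ValuationSubring F) (π : F) : Prop where
  mem : π ∈ A
  inv_notMem : π⁻¹ ∉ A
  exists_zpow : ∀ x : F, x ≠ 0 → ∃ (n : ℤ) (u : F), u ∈ A ∧ u⁻¹ ∈ A ∧ x = π ^ n * u

namespace IsUnif

variable {A : ValuationSubring F} {π : F}

theorem ne_zero (h : IsUnif A π) : π ≠ 0 := by
  rintro rfl
  exact h.inv_notMem (by simp [A.zero_mem])

theorem mem_nonunits (h : IsUnif A π) : π ∈ A.nonunits := by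
  rw [ValuationSubring.mem_nonunits_iff_or]
  exact Or.inr h.inv_notMem

theorem zpow_mem_of_nonneg (h : IsUnif A π) {n : ℤ} (hn : 0 ≤ n) : π ^ n ∈ A := by
  obtain ⟨k, rfl⟩ := Int.eq_ofNat_of_zero_le hn
  rw [zpow_natCast]
  exact pow_mem h.mem k

theorem zpow_notMem_of_neg (h : IsUnif A π) {n : ℤ} (hn : n < 0) : π ^ n ∉ A := by
  intro hmem
  obtain ⟨k, hk⟩ := Int.eq_ofNat_of_zero_le (show 0 ≤ -n - 1 by omega)
  have h1 : π⁻¹ = π ^ n * π ^ (k : ℤ) := by
    rw [← zpow_add₀ h.ne_zero, ← hk]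
    have : n + (-n - 1) = -1 := by ring
    rw [this, zpow_neg_one]
  apply h.inv_notMem
  rw [h1]
  exact A.mul_mem _ _ hmem (h.zpow_mem_of_nonneg (by positivity))

/-- uniqueness of the exponent -/
theorem zpow_unit_unique (h : IsUnif A π) {n n' : ℤ} {u u' : F} (hu : u ∈ A) (hu' : u⁻¹ ∈ A)
    (hv : u' ∈ A) (hv' : u'⁻¹ ∈ A) (hu0 : u ≠ 0) (hv0 : u' ≠ 0)
    (he : π ^ n * u = π ^ n' * u') : n = n' := by
  by_contra hne
  have key : ∀ {a b : ℤ} {s t : F}, s ∈ A → s⁻¹ ∈ A → t ∈ A → t⁻¹ ∈ A → s ≠ 0 → t ≠ 0 →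
      π ^ a * s = π ^ b * t → a < b → False := by
    intro a b s t hs hs' ht ht' hs0 ht0 hst hab
    have h1 : π ^ (a - b) = t * s⁻¹ := by
      rw [zpow_sub₀ h.ne_zero, div_eq_iff (zpow_ne_zero _ h.ne_zero), eq_comm]
      calc t * s⁻¹ * π ^ b = (π ^ b * t) * s⁻¹ := by ring
        _ = π ^ a * s * s⁻¹ := by rw [hst]
        _ = π ^ a := by field_simp
    exact h.zpow_notMem_of_neg (show a - b < 0 by omega) (h1 ▸ A.mul_mem _ _ ht hs')
  rcases lt_or_gt_of_ne hne with hlt | hgt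
  · exact key hu hu' hv hv' hu0 hv0 he hlt
  · exact key hv hv' hu hu' hv0 hu0 he.symm hgt

open Classical in
/-- The order function of a discrete valuation subring with uniformiser (value `0` at `0`). -/
noncomputable def ord (h : IsUnif A π) (x : F) : ℤ :=
  if hx : x = 0 then 0 else (h.exists_zpow x hx).choose

@[simp] theorem ord_zero (h : IsUnif A π) : h.ord 0 = 0 := by
  simp [ord]

theorem exists_unit_eq (h : IsUnif A π) {x : F} (hx : x ≠ 0) :
    ∃ u : F, u ∈ A ∧ u⁻¹ ∈ A ∧ u ≠ 0 ∧ x = π ^ h.ord x * u := by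
  have h1 := (h.exists_zpow x hx).choose_spec
  obtain ⟨u, hu, hu', he⟩ := h1
  refine ⟨u, hu, hu', ?_, ?_⟩
  · rintro rfl
    exact hx (by simpa using he)
  · rw [ord, dif_neg hx]
    exact he

theorem ord_eq (h : IsUnif A π) {x : F} {n : ℤ} {u : F} (hu : u ∈ A) (hu' : u⁻¹ ∈ A)
    (hu0 : u ≠ 0) (hx : x = π ^ n * u) : h.ord x = n := by
  have hx0 : x ≠ 0 := by
    rw [hx]
    exact mul_ne_zero (zpow_ne_zero _ h.ne_zero) hu0
  obtain ⟨v, hv, hv', hv0, he⟩ := h.exists_unit_eq hx0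
  exact h.zpow_unit_unique hv hv' hu hu' hv0 hu0 (he.symm.trans hx)

theorem ord_mul (h : IsUnif A π) {x y : F} (hx : x ≠ 0) (hy : y ≠ 0) :
    h.ord (x * y) = h.ord x + h.ord y := by
  obtain ⟨u, hu, hu', hu0, hxe⟩ := h.exists_unit_eq hx
  obtain ⟨v, hv, hv', hv0, hye⟩ := h.exists_unit_eq hy
  refine h.ord_eq (A.mul_mem _ _ hu hv) ?_ (mul_ne_zero hu0 hv0) ?_
  · rw [mul_inv]
    exact A.mul_mem _ _ hu' hv'
  · rw [zpow_add₀ h.ne_zero]
    calc x * y = (π ^ h.ord x * u) * (π ^ h.ord y * v) := by rw [← hxe, ← hye]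
      _ = π ^ h.ord x * π ^ h.ord y * (u * v) := by ring

@[simp] theorem ord_one (h : IsUnif A π) : h.ord 1 = 0 :=
  h.ord_eq (u := 1) A.one_mem (by simp [A.one_mem]) one_ne_zero (by simp)

@[simp] theorem ord_self (h : IsUnif A π) : h.ord π = 1 :=
  h.ord_eq (u := 1) A.one_mem (by simp [A.one_mem]) one_ne_zero (by simp)

theorem ord_inv (h : IsUnif A π) (x : F) : h.ord x⁻¹ = -h.ord x := by
  by_cases hx : x = 0
  · simp [hx]
  · have h1 := h.ord_mul hx (inv_ne_zero hx)
    rw [mul_inv_cancel₀ hx, ord_one] at h1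
    omega

theorem ord_div (h : IsUnif A π) {x y : F} (hx : x ≠ 0) (hy : y ≠ 0) :
    h.ord (x / y) = h.ord x - h.ord y := by
  rw [div_eq_mul_inv, h.ord_mul hx (inv_ne_zero hy), h.ord_inv]
  ring

theorem ord_pow (h : IsUnif A π) (x : F) (n : ℕ) : h.ord (x ^ n) = n * h.ord x := by
  by_cases hx : x = 0
  · rcases Nat.eq_zero_or_pos n with rfl | hn
    · simp
    · simp [hx, zero_pow hn.ne']
  · induction n with
    | zero => simp
    | succ k ih =>
      rw [pow_succ, h.ord_mul (pow_ne_zero _ hx) hx, ih]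
      push_cast
      ring

theorem ord_zpow (h : IsUnif A π) (x : F) (n : ℤ) : h.ord (x ^ n) = n * h.ord x := by
  obtain ⟨k, rfl | rfl⟩ := Int.eq_nat_or_neg n
  · rw [zpow_natCast, h.ord_pow]
  · rw [zpow_neg, zpow_natCast, h.ord_inv, h.ord_pow]
    ring

theorem ord_unit (h : IsUnif A π) {u : F} (hu : u ∈ A) (hu' : u⁻¹ ∈ A) (hu0 : u ≠ 0) :
    h.ord u = 0 :=
  h.ord_eq hu hu' hu0 (by simp)

theorem ord_nonneg_iff (h : IsUnif A π) {x : F} (hx : x ≠ 0) : 0 ≤ h.ord x ↔ x ∈ A := by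
  obtain ⟨u, hu, hu', hu0, he⟩ := h.exists_unit_eq hx
  constructor
  · intro hn
    rw [he]
    exact A.mul_mem _ _ (h.zpow_mem_of_nonneg hn) hu
  · intro hxA
    by_contra hn
    push Not at hn
    apply h.zpow_notMem_of_neg hn
    have : π ^ h.ord x = x * u⁻¹ := by
      rw [eq_mul_inv_iff_mul_eq₀ hu0]
      exact he.symm
    rw [this]
    exact A.mul_mem _ _ hxA hu'

theorem ord_eq_zero_iff (h : IsUnif A π) {x : F} (hx : x ≠ 0) :
    h.ord x = 0 ↔ x ∈ A ∧ x⁻¹ ∈ A := by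
  rw [← h.ord_nonneg_iff hx, ← h.ord_nonneg_iff (inv_ne_zero hx), h.ord_inv]
  omega

theorem ord_pos_iff (h : IsUnif A π) {x : F} (hx : x ≠ 0) : 0 < h.ord x ↔ x ∈ A.nonunits := by
  rw [ValuationSubring.mem_nonunits_iff_or, ← h.ord_nonneg_iff (inv_ne_zero hx), h.ord_inv]
  constructor
  · intro hpos
    right
    omega
  · rintro (h0 | h1)
    · exact absurd h0 hx
    · omega

theorem mem_iff (h : IsUnif A π) {x : F} : x ∈ A ↔ x = 0 ∨ 0 ≤ h.ord x := by
  by_cases hx : x = 0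
  · simp [hx, A.zero_mem]
  · rw [h.ord_nonneg_iff hx]
    simp [hx]

/-- `A` is not the whole field -/
theorem ne_top (h : IsUnif A π) : A ≠ ⊤ := by
  intro ht
  exact h.inv_notMem (ht ▸ ValuationSubring.mem_top _)

theorem ord_add_eq_of_lt (h : IsUnif A π) {x y : F} (hx : x ≠ 0) (hy : y ≠ 0)
    (hlt : h.ord x < h.ord y) : h.ord (x + y) = h.ord x := by
  have hyx : y / x ≠ 0 := div_ne_zero hy hx
  have h1 : 0 < h.ord (y / x) := by
    rw [h.ord_div hy hx]
    omega
  have h2 : y / x ∈ A.nonunits := (h.ord_pos_iff hyx).mp h1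
  have h3 : (1 + y / x) ∈ A := A.add_mem _ _ A.one_mem (A.nonunits_subset h2)
  have h4 : (1 + y / x)⁻¹ ∈ A := by
    by_contra hc
    have h5 : 1 + y / x ∈ A.nonunits := by
      rw [ValuationSubring.mem_nonunits_iff_or]
      exact Or.inr hc
    have h6 : (1 : F) ∈ A.nonunits := by
      have := A.nonunits.sub_mem h5 h2
      simpa using this
    rw [ValuationSubring.mem_nonunits_iff_or] at h6
    rcases h6 with h6 | h6
    · exact one_ne_zero h6
    · exact h6 (by simp [A.one_mem])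
  have h7 : (1 + y / x) ≠ 0 := by
    intro h0
    rw [h0] at h4
    simp only [inv_zero] at h4
    have h5 : y / x = -1 := by linear_combination h0
    have h6 : (-1 : F) ∈ A.nonunits := h5 ▸ h2
    rw [ValuationSubring.mem_nonunits_iff_or] at h6
    rcases h6 with h6 | h6
    · exact one_ne_zero (neg_eq_zero.mp h6)
    · exact h6 (by rw [inv_neg, inv_one]; exact A.neg_mem _ A.one_mem)
  have h8 : x + y = x * (1 + y / x) := by field_simp
  rw [h8, h.ord_mul hx h7, h.ord_unit h3 h4 h7, add_zero]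

theorem add_ne_zero_of_lt (h : IsUnif A π) {x y : F} (hx : x ≠ 0) (_hy : y ≠ 0)
    (hlt : h.ord x < h.ord y) : x + y ≠ 0 := by
  intro h0
  have h1 : y = -x := by linear_combination h0
  have h2 : h.ord y = h.ord x := by
    rw [h1]
    have : -x = x * (-1) := by ring
    rw [this, h.ord_mul hx (by simp)]
    have : h.ord (-1) = 0 := h.ord_unit (A.neg_mem _ A.one_mem)
      (by rw [inv_neg, inv_one]; exact A.neg_mem _ A.one_mem) (by simp)
    rw [this, add_zero]
  omega

/-- the valuation of an element in terms of its order -/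
theorem valuation_eq (h : IsUnif A π) {x : F} (hx : x ≠ 0) :
    A.valuation x = A.valuation π ^ h.ord x := by
  obtain ⟨u, hu, hu', hu0, he⟩ := h.exists_unit_eq hx
  have h1 : A.valuation u = 1 := by
    apply le_antisymm ((A.valuation_le_one_iff u).mpr hu)
    have h2 := (A.valuation_le_one_iff u⁻¹).mpr hu'
    rw [map_inv₀] at h2
    have h3 : A.valuation u ≠ 0 := (Valuation.ne_zero_iff _).mpr hu0
    exact (inv_le_one₀ (zero_lt_iff.mpr h3)).mp h2
  conv_lhs => rw [he]
  rw [map_mul, map_zpow₀, h1, mul_one]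

end IsUnif

end Fermat.Agent.CAR.Formal
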