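/-
CAR (F-bc), brick 2: the norm of a finite separable extension against the discrete valuations
above a discrete valuation ("conjugates calculus").

`K ⊆ E` finite separable, `v` a discrete valuation subring of `K` (uniformiser `t`),
`w i` (`i : ι`, finite) ALL the valuation subrings of `E` above `v`, discrete with uniformisers
`π i`, ramification indices `e i := ord_{w i}(t)`.  Then there are multiplicities `b i ≥ 1`
("residue degrees") with `∑ b i * e i = [E : K]` and

* `ord_v (N y) = ∑ b i * ord_{w i} y`,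
* if `y ^ Q ≡ c i` at `w i` with `c i ∈ v`, then `(N y) ^ Q ≡ ∏ (c i) ^ (b i * e i)` at `v`.

If `∑ e i = [E : K]` then all `b i = 1`; if there is only one `w` then `b * e = [E : K]`.
No Dedekind theory: only `Algebra.norm_eq_prod_embeddings` and Chevalley's extension theorem.
-/
import Mathlib
import Fermat.Agent.CAR.Formal.DiscVal

set_option autoImplicit false

namespace Fermat.Agent.CAR.Formal

open Module

section General

variable {K L : Type*} [Field K] [Field L]

theorem mem_nonunits_comap_iff (A : ValuationSubring L) (f : K →+* L) (x : K) :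
    x ∈ (A.comap f).nonunits ↔ f x ∈ A.nonunits := by
  rw [ValuationSubring.mem_nonunits_iff_or, ValuationSubring.mem_nonunits_iff_or,
    ValuationSubring.mem_comap, map_inv₀, map_eq_zero]

theorem mul_mem_nonunits (A : ValuationSubring L) {x y : L} (hx : x ∈ A)
    (hy : y ∈ A.nonunits) : x * y ∈ A.nonunits := by
  rw [ValuationSubring.mem_nonunits_iff] at hy ⊢
  rw [map_mul]
  calc A.valuation x * A.valuation y ≤ 1 * A.valuation y :=
        mul_le_mul_left ((A.valuation_le_one_iff x).mpr hx) _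
    _ = A.valuation y := one_mul _
    _ < 1 := hy

theorem valuation_eq_one_of_unit (A : ValuationSubring L) {u : L} (hu : u ∈ A) (hu' : u⁻¹ ∈ A)
    (hu0 : u ≠ 0) : A.valuation u = 1 := by
  apply le_antisymm ((A.valuation_le_one_iff u).mpr hu)
  have h2 := (A.valuation_le_one_iff u⁻¹).mpr hu'
  rw [map_inv₀] at h2
  have h3 : A.valuation u ≠ 0 := (Valuation.ne_zero_iff _).mpr hu0
  exact (inv_le_one₀ (zero_lt_iff.mpr h3)).mp h2

theorem prod_sub_prod_mem_nonunits (A : ValuationSubring L) {ι : Type*} (s : Finset ι)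
    (a b : ι → L) (hb : ∀ i ∈ s, b i ∈ A) (hab : ∀ i ∈ s, a i - b i ∈ A.nonunits) :
    ∏ i ∈ s, a i - ∏ i ∈ s, b i ∈ A.nonunits := by
  classical
  induction s using Finset.induction_on with
  | empty => simp [A.nonunits.zero_mem]
  | insert i s hi ih =>
    rw [Finset.prod_insert hi, Finset.prod_insert hi]
    have h1 : ∏ j ∈ s, a j - ∏ j ∈ s, b j ∈ A.nonunits :=
      ih (fun j hj => hb j (Finset.mem_insert_of_mem hj))
        (fun j hj => hab j (Finset.mem_insert_of_mem hj))
    have h2 : a i - b i ∈ A.nonunits := hab i (Finset.mem_insert_self i s)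
    have h3 : b i ∈ A := hb i (Finset.mem_insert_self i s)
    have h4 : a i ∈ A := by
      have : a i = b i + (a i - b i) := by ring
      rw [this]
      exact A.add_mem _ _ h3 (A.nonunits_subset h2)
    have h5 : ∏ j ∈ s, b j ∈ A :=
      Subring.prod_mem A.toSubring (fun j hj => hb j (Finset.mem_insert_of_mem hj))
    have h6 : a i * ∏ j ∈ s, a j - b i * ∏ j ∈ s, b j =
        a i * (∏ j ∈ s, a j - ∏ j ∈ s, b j) + (∏ j ∈ s, b j) * (a i - b i) := by ring
    rw [h6]
    exact A.nonunits.add_mem (mul_mem_nonunits A h4 h1) (mul_mem_nonunits A h5 h2)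

/-- **Chevalley**: a valuation subring extends along any field extension. -/
theorem exists_valuationSubring_comap_eq [Algebra K L] (v : ValuationSubring K) :
    ∃ V : ValuationSubring L, V.comap (algebraMap K L) = v := by
  let f : v →+* L := (algebraMap K L).comp v.subtype
  have hf : Function.Injective f :=
    (algebraMap K L).injective.comp v.subtype_injective
  let e : v ≃+* f.range := RingEquiv.ofBijective f.rangeRestrict
    ⟨fun a b hab => hf (by simpa using congrArg Subtype.val hab), f.rangeRestrict_surjective⟩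
  let I : Ideal f.range := Ideal.comap (e.symm : f.range →+* v) (IsLocalRing.maximalIdeal v)
  have hI : I ≠ ⊤ := (Ideal.comap_isPrime (e.symm : f.range →+* v) _).ne_top
  obtain ⟨V, hV1, hV2⟩ := Ideal.image_subset_nonunits_valuationSubring I hI
  refine ⟨V, ?_⟩
  ext x
  rw [ValuationSubring.mem_comap]
  constructor
  · intro hx
    by_contra hxv
    have hx0 : x ≠ 0 := fun h0 => hxv (h0 ▸ v.zero_mem)
    have h1 : x⁻¹ ∈ v := (v.mem_or_inv_mem x).resolve_left hxv
    have h2 : x⁻¹ ∈ v.nonunits := by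
      rw [ValuationSubring.mem_nonunits_iff_or, inv_inv]
      exact Or.inr hxv
    have h3 : (⟨x⁻¹, h1⟩ : v) ∈ IsLocalRing.maximalIdeal v :=
      ValuationSubring.coe_mem_nonunits_iff.mp h2
    have h4 : algebraMap K L x⁻¹ ∈ V.nonunits := by
      refine hV2 ⟨e ⟨x⁻¹, h1⟩, ?_, rfl⟩
      show (e.symm : f.range →+* v) (e ⟨x⁻¹, h1⟩) ∈ IsLocalRing.maximalIdeal v
      simpa using h3
    rw [ValuationSubring.mem_nonunits_iff_or, map_inv₀, inv_inv] at h4
    rcases h4 with h4 | h4
    · exact hx0 (by simpa using h4)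
    · exact h4 hx
  · intro hx
    exact hV1 ⟨⟨x, hx⟩, rfl⟩

end General

section Setting

variable {K E : Type*} [Field K] [Field E] [Algebra K E] {ι : Type*}

/-- The hypotheses of the norm calculus: `v` is a discrete valuation subring of `K` with
uniformiser `t`, and the `w i` are ALL the valuation subrings of `E` above `v`, discrete with
uniformisers `π i`, and pairwise separated. -/
structure NormSetting (v : ValuationSubring K) (t : K) (w : ι → ValuationSubring E)
    (π : ι → E) : Prop where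
  hv : IsUnif v t
  hw : ∀ i, IsUnif (w i) (π i)
  comap_eq : ∀ i, (w i).comap (algebraMap K E) = v
  exists_eq : ∀ w' : ValuationSubring E, w'.comap (algebraMap K E) = v → ∃ i, w' = w i
  sep : ∀ i, ∃ y : E, y ≠ 0 ∧ y ∈ (w i).nonunits ∧ ∀ j, j ≠ i → y ∈ w j ∧ y⁻¹ ∈ w j

variable {v : ValuationSubring K} {t : K} {w : ι → ValuationSubring E} {π : ι → E}

namespace NormSetting

/-- the ramification index of `w i` over `v` -/
noncomputable def e (S : NormSetting v t w π) (i : ι) : ℕ :=
  ((S.hw i).ord (algebraMap K E t)).toNat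

theorem algebraMap_t_ne_zero (S : NormSetting v t w π) : algebraMap K E t ≠ 0 := by
  rw [Ne, map_eq_zero]
  exact S.hv.ne_zero

theorem ord_t_pos (S : NormSetting v t w π) (i : ι) :
    0 < (S.hw i).ord (algebraMap K E t) := by
  rw [(S.hw i).ord_pos_iff S.algebraMap_t_ne_zero, ← mem_nonunits_comap_iff, S.comap_eq i]
  exact S.hv.mem_nonunits

theorem e_pos (S : NormSetting v t w π) (i : ι) : 0 < S.e i := by
  have := S.ord_t_pos i
  unfold e
  omega

theorem coe_e (S : NormSetting v t w π) (i : ι) :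
    (S.e i : ℤ) = (S.hw i).ord (algebraMap K E t) := by
  have := S.ord_t_pos i
  unfold e
  omega

/-- an element of order `1` at `w i` and order `0` at the other `w j` -/
theorem exists_ord_single [Fintype ι] [DecidableEq ι] (S : NormSetting v t w π) (i : ι) :
    ∃ y : E, y ≠ 0 ∧ y ∈ (w i).nonunits ∧ (∀ j, y ∈ w j) ∧ (S.hw i).ord y = 1 ∧
      ∀ j, j ≠ i → (S.hw j).ord y = 0 := by
  choose s hs0 hsi hsj using S.sep
  -- `z` : unit at `i`, nonunit elsewhere
  set z : E := ∏ j ∈ Finset.univ.erase i, s j with hz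
  have hz0 : z ≠ 0 := Finset.prod_ne_zero_iff.mpr fun j _ => hs0 j
  have hordprod : ∀ (l : ι) (T : Finset ι), (S.hw l).ord (∏ j ∈ T, s j) =
      ∑ j ∈ T, (S.hw l).ord (s j) := by
    intro l T
    induction T using Finset.induction_on with
    | empty => simp
    | insert a T ha ih =>
      rw [Finset.prod_insert ha, Finset.sum_insert ha,
        (S.hw l).ord_mul (hs0 a) (Finset.prod_ne_zero_iff.mpr fun j _ => hs0 j), ih]
  have hunit : ∀ l j : ι, l ≠ j → (S.hw l).ord (s j) = 0 := by
    intro l j hlj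
    exact ((S.hw l).ord_eq_zero_iff (hs0 j)).mpr (hsj j l hlj)
  have hzi : (S.hw i).ord z = 0 := by
    rw [hz, hordprod]
    apply Finset.sum_eq_zero
    intro j hj
    exact hunit i j (Finset.ne_of_mem_erase hj).symm
  have hzj : ∀ j, j ≠ i → 1 ≤ (S.hw j).ord z := by
    intro j hj
    rw [hz, hordprod, Finset.sum_eq_single j]
    · have := ((S.hw j).ord_pos_iff (hs0 j)).mpr (hsi j)
      omega
    · intro l _ hlj
      exact hunit j l hlj.symm
    · intro hnot
      exact absurd (Finset.mem_erase.mpr ⟨hj, Finset.mem_univ j⟩) hnot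
  set N : ℕ := ∑ j, (1 - (S.hw j).ord (π i)).toNat with hN
  have hNj : ∀ j, 1 - (S.hw j).ord (π i) ≤ (N : ℤ) := by
    intro j
    have h1 : (1 - (S.hw j).ord (π i)).toNat ≤ N :=
      Finset.single_le_sum (f := fun j => (1 - (S.hw j).ord (π i)).toNat)
        (fun _ _ => Nat.zero_le _) (Finset.mem_univ j)
    omega
  have hπ0 : π i ≠ 0 := (S.hw i).ne_zero
  set x₁ : E := π i * z ^ N with hx₁
  set x₂ : E := s i ^ 2 with hx₂
  have hx₁0 : x₁ ≠ 0 := mul_ne_zero hπ0 (pow_ne_zero _ hz0)
  have hx₂0 : x₂ ≠ 0 := pow_ne_zero _ (hs0 i)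
  have h1i : (S.hw i).ord x₁ = 1 := by
    rw [hx₁, (S.hw i).ord_mul hπ0 (pow_ne_zero _ hz0), (S.hw i).ord_pow, hzi]
    simp
  have h2i : 2 ≤ (S.hw i).ord x₂ := by
    rw [hx₂, (S.hw i).ord_pow]
    have := ((S.hw i).ord_pos_iff (hs0 i)).mpr (hsi i)
    push_cast
    omega
  have h1j : ∀ j, j ≠ i → 1 ≤ (S.hw j).ord x₁ := by
    intro j hj
    rw [hx₁, (S.hw j).ord_mul hπ0 (pow_ne_zero _ hz0), (S.hw j).ord_pow]
    have h3 := hzj j hj
    have h4 := hNj j
    have h5 : (N : ℤ) ≤ (N : ℤ) * (S.hw j).ord z := by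
      nlinarith [Int.natCast_nonneg N]
    omega
  have h2j : ∀ j, j ≠ i → (S.hw j).ord x₂ = 0 := by
    intro j hj
    rw [hx₂, (S.hw j).ord_pow, hunit j i hj]
    simp
  have hyi : (S.hw i).ord (x₁ + x₂) = 1 := by
    rw [(S.hw i).ord_add_eq_of_lt hx₁0 hx₂0 (by omega), h1i]
  have hy0 : x₁ + x₂ ≠ 0 := (S.hw i).add_ne_zero_of_lt hx₁0 hx₂0 (by omega)
  have hyj : ∀ j, j ≠ i → (S.hw j).ord (x₁ + x₂) = 0 := by
    intro j hj
    rw [add_comm, (S.hw j).ord_add_eq_of_lt hx₂0 hx₁0 (by have := h1j j hj; have := h2j j hj; omega),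
      h2j j hj]
  refine ⟨x₁ + x₂, hy0, ?_, ?_, hyi, hyj⟩
  · rw [← (S.hw i).ord_pos_iff hy0, hyi]
    exact one_pos
  · intro j
    rw [← (S.hw j).ord_nonneg_iff hy0]
    by_cases hj : j = i
    · subst hj
      rw [hyi]
      exact zero_le_one
    · rw [hyj j hj]

variable [FiniteDimensional K E] [Algebra.IsSeparable K E]

/-- an element of all the `w j` which is a non-unit of one of them has non-unit norm -/
theorem norm_mem_nonunits (S : NormSetting v t w π) {y : E} (hy : ∀ j, y ∈ w j) (i : ι)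
    (hyi : y ∈ (w i).nonunits) : Algebra.norm K y ∈ v.nonunits := by
  classical
  obtain ⟨V, hV⟩ := exists_valuationSubring_comap_eq (L := AlgebraicClosure E) (w i)
  have hVK : V.comap (algebraMap K (AlgebraicClosure E)) = v := by
    rw [IsScalarTower.algebraMap_eq K E (AlgebraicClosure E), ← ValuationSubring.comap_comap, hV,
      S.comap_eq i]
  have hmem : ∀ σ : E →ₐ[K] AlgebraicClosure E, σ y ∈ V := by
    intro σ
    have h1 : (V.comap σ.toRingHom).comap (algebraMap K E) = v := by
      rw [ValuationSubring.comap_comap, ← hVK]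
      congr 1
      ext x
      simp
    obtain ⟨j, hj⟩ := S.exists_eq _ h1
    have h2 : y ∈ V.comap σ.toRingHom := hj ▸ hy j
    exact h2
  set σ₀ : E →ₐ[K] AlgebraicClosure E := IsScalarTower.toAlgHom K E (AlgebraicClosure E)
  have h0 : σ₀ y ∈ V.nonunits := by
    have : algebraMap E (AlgebraicClosure E) y ∈ V.nonunits := by
      rw [← mem_nonunits_comap_iff, hV]
      exact hyi
    exact this
  have hprod : algebraMap K (AlgebraicClosure E) (Algebra.norm K y) ∈ V.nonunits := by
    rw [Algebra.norm_eq_prod_embeddings K (AlgebraicClosure E) y,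
      ← Finset.mul_prod_erase Finset.univ _ (Finset.mem_univ σ₀), mul_comm]
    exact mul_mem_nonunits V (Subring.prod_mem V.toSubring fun σ _ => hmem σ) h0
  rw [← hVK, mem_nonunits_comap_iff]
  exact hprod

/-- **Norm calculus, general form**: multiplicities `b i ≥ 1` with `∑ b i * e i = [E : K]`,
the order formula and the residue formula. -/
theorem exists_mult [Fintype ι] (S : NormSetting v t w π) :
    ∃ b : ι → ℕ, (∀ i, 0 < b i) ∧ (∑ i, b i * S.e i = finrank K E) ∧
      (∀ y : E, y ≠ 0 →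
        S.hv.ord (Algebra.norm K y) = ∑ i, (b i : ℤ) * (S.hw i).ord y) ∧
      (∀ (Q : ℕ) (y : E) (c : ι → K), (∀ i, c i ∈ v) →
        (∀ i, y ^ Q - algebraMap K E (c i) ∈ (w i).nonunits) →
        Algebra.norm K y ^ Q - ∏ i, c i ^ (b i * S.e i) ∈ v.nonunits) := by
  classical
  set Ω := AlgebraicClosure E with hΩ
  obtain ⟨V, hV⟩ := exists_valuationSubring_comap_eq (L := Ω) v
  -- the type of an embedding
  have hσ : ∀ σ : E →ₐ[K] Ω, (V.comap σ.toRingHom).comap (algebraMap K E) = v := by
    intro σ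
    rw [ValuationSubring.comap_comap, ← hV]
    congr 1
    ext x
    simp
  choose typ htyp using fun σ : E →ₐ[K] Ω => S.exists_eq _ (hσ σ)
  set n : ι → ℕ := fun i => (Finset.univ.filter fun σ : E →ₐ[K] Ω => typ σ = i).card with hn
  have hnsum : ∑ i, n i = finrank K E := by
    rw [← AlgHom.card K E Ω, ← Finset.card_univ]
    exact (Finset.card_eq_sum_card_fiberwise (f := typ) (s := Finset.univ) (t := Finset.univ)
      (fun σ _ => Finset.mem_univ _)).symm
  -- valuations
  set γ : V.ValueGroup := V.valuation (algebraMap K Ω t) with hγ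
  have ht0 : algebraMap K Ω t ≠ 0 := by
    rw [Ne, map_eq_zero]
    exact S.hv.ne_zero
  have hγ0 : γ ≠ 0 := (Valuation.ne_zero_iff _).mpr ht0
  have hγ1 : γ < 1 := by
    rw [hγ, ← ValuationSubring.mem_nonunits_iff, ← mem_nonunits_comap_iff, hV]
    exact S.hv.mem_nonunits
  have hγpos : 0 < γ := zero_lt_iff.mpr hγ0
  have hinj : Function.Injective fun k : ℤ => γ ^ k := zpow_right_injective₀ hγpos hγ1.ne
  -- units of `w (typ σ)` map to units of `V`
  have hunit : ∀ (σ : E →ₐ[K] Ω) (u : E), u ∈ w (typ σ) → u⁻¹ ∈ w (typ σ) → u ≠ 0 →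
      V.valuation (σ u) = 1 := by
    intro σ u hu hu' hu0
    rw [← htyp σ] at hu hu'
    refine valuation_eq_one_of_unit V hu ?_ ((map_ne_zero σ).mpr hu0)
    have h1 : σ.toRingHom u⁻¹ ∈ V := hu'
    rw [map_inv₀] at h1
    exact h1
  -- the value of `σ x` in terms of the order
  have hval : ∀ (σ : E →ₐ[K] Ω) (x : E), x ≠ 0 →
      V.valuation (σ x) ^ S.e (typ σ) = γ ^ (S.hw (typ σ)).ord x := by
    intro σ x hx
    obtain ⟨u, hu, hu', hu0, he⟩ := (S.hw (typ σ)).exists_unit_eq hx
    obtain ⟨u', hv1, hv2, hv0, he'⟩ := (S.hw (typ σ)).exists_unit_eq S.algebraMap_t_ne_zero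
    have h1 : V.valuation (σ x) = V.valuation (σ (π (typ σ))) ^ (S.hw (typ σ)).ord x := by
      conv_lhs => rw [he]
      rw [map_mul, map_zpow₀, map_mul, map_zpow₀, hunit σ u hu hu' hu0, mul_one]
    have h2 : γ = V.valuation (σ (π (typ σ))) ^ (S.e (typ σ) : ℤ) := by
      have h3 : algebraMap K Ω t = σ (algebraMap K E t) := (σ.commutes t).symm
      rw [hγ, h3]
      conv_lhs => rw [he']
      rw [map_mul, map_zpow₀, map_mul, map_zpow₀, hunit σ u' hv1 hv2 hv0, mul_one, S.coe_e]
    rw [h1, h2, ← zpow_natCast, ← zpow_mul, ← zpow_mul, mul_comm]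
  -- the main identity, up to the factor `etot`
  set etot : ℕ := ∏ i, S.e i with hetot
  have hetot_pos : 0 < etot := Finset.prod_pos fun i _ => S.e_pos i
  have hdvd : ∀ i, S.e i * (etot / S.e i) = etot := fun i =>
    Nat.mul_div_cancel' (Finset.dvd_prod_of_mem _ (Finset.mem_univ i))
  have hstar : ∀ y : E, y ≠ 0 → S.hv.ord (Algebra.norm K y) * etot =
      ∑ i, (n i : ℤ) * ((S.hw i).ord y * ((etot / S.e i : ℕ) : ℤ)) := by
    intro y hy
    have hN0 : Algebra.norm K y ≠ 0 := by
      rw [Ne, Algebra.norm_eq_zero_iff]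
      exact hy
    apply hinj
    show γ ^ (S.hv.ord (Algebra.norm K y) * etot) = γ ^ _
    -- left-hand side
    obtain ⟨u, hu, hu', hu0, he⟩ := S.hv.exists_unit_eq hN0
    have hL : V.valuation (algebraMap K Ω (Algebra.norm K y)) =
        γ ^ S.hv.ord (Algebra.norm K y) := by
      conv_lhs => rw [he]
      rw [map_mul, map_zpow₀, map_mul, map_zpow₀]
      have h1 : V.valuation (algebraMap K Ω u) = 1 := by
        refine valuation_eq_one_of_unit V ?_ ?_ ((map_ne_zero _).mpr hu0)
        · have : u ∈ V.comap (algebraMap K Ω) := hV ▸ hu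
          exact this
        · have : u⁻¹ ∈ V.comap (algebraMap K Ω) := hV ▸ hu'
          rw [ValuationSubring.mem_comap, map_inv₀] at this
          exact this
      rw [h1, mul_one]
    have hR : V.valuation (algebraMap K Ω (Algebra.norm K y)) ^ etot =
        γ ^ (∑ σ : E →ₐ[K] Ω, (S.hw (typ σ)).ord y * ((etot / S.e (typ σ) : ℕ) : ℤ)) := by
      rw [Algebra.norm_eq_prod_embeddings K Ω y, map_prod, ← Finset.prod_pow]
      have h2 : ∀ σ : E →ₐ[K] Ω, V.valuation (σ y) ^ etot =
          γ ^ ((S.hw (typ σ)).ord y * ((etot / S.e (typ σ) : ℕ) : ℤ)) := by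
        intro σ
        conv_lhs => rw [← hdvd (typ σ)]
        rw [pow_mul, hval σ y hy, ← zpow_natCast, ← zpow_mul]
      rw [Finset.prod_congr rfl fun σ _ => h2 σ]
      -- product of powers
      have h3 : ∀ (T : Finset (E →ₐ[K] Ω)) (g : (E →ₐ[K] Ω) → ℤ),
          ∏ σ ∈ T, γ ^ g σ = γ ^ ∑ σ ∈ T, g σ := by
        intro T g
        induction T using Finset.induction_on with
        | empty => simp
        | insert a T ha ih => rw [Finset.prod_insert ha, Finset.sum_insert ha, ih, zpow_add₀ hγ0]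
      exact h3 _ _
    rw [zpow_mul, ← hL, zpow_natCast, hR]
    congr 1
    rw [← Finset.sum_fiberwise_of_maps_to (g := typ) (s := Finset.univ) (t := Finset.univ)
      (fun σ _ => Finset.mem_univ _)]
    apply Finset.sum_congr rfl
    intro i _
    rw [Finset.sum_congr rfl (g := fun _ => (S.hw i).ord y * ((etot / S.e i : ℕ) : ℤ))]
    · rw [Finset.sum_const, nsmul_eq_mul]
    · intro σ hσ'
      rw [(Finset.mem_filter.mp hσ').2]
  -- the multiplicities
  choose ys hys0 hysnon hysmem hysi hysj using S.exists_ord_single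
  set b : ι → ℕ := fun i => (S.hv.ord (Algebra.norm K (ys i))).toNat with hb
  have hbpos' : ∀ i, 0 < S.hv.ord (Algebra.norm K (ys i)) := by
    intro i
    have hN0 : Algebra.norm K (ys i) ≠ 0 := by
      rw [Ne, Algebra.norm_eq_zero_iff]
      exact hys0 i
    rw [S.hv.ord_pos_iff hN0]
    exact S.norm_mem_nonunits (hysmem i) i (hysnon i)
  have hbcoe : ∀ i, (b i : ℤ) = S.hv.ord (Algebra.norm K (ys i)) := by
    intro i
    have := hbpos' i
    simp only [hb]
    omega
  have hnb : ∀ i, n i = b i * S.e i := by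
    intro i
    have h1 := hstar (ys i) (hys0 i)
    rw [Finset.sum_eq_single i] at h1
    · rw [hysi i, one_mul, ← hbcoe] at h1
      have h2 : (b i : ℤ) * ((S.e i * (etot / S.e i) : ℕ) : ℤ) =
          (n i : ℤ) * ((etot / S.e i : ℕ) : ℤ) := by
        rw [hdvd i]
        exact h1
      have h3 : 0 < etot / S.e i := by
        rcases Nat.eq_zero_or_pos (etot / S.e i) with h0 | h0
        · have := hdvd i
          rw [h0, mul_zero] at this
          omega
        · exact h0
      have h4 : ((b i * S.e i : ℕ) : ℤ) * ((etot / S.e i : ℕ) : ℤ) =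
          (n i : ℤ) * ((etot / S.e i : ℕ) : ℤ) := by
        rw [← h2]
        push_cast
        ring
      have h5 := mul_right_cancel₀ (by exact_mod_cast h3.ne') h4
      exact_mod_cast h5.symm
    · intro j _ hj
      rw [hysj i j hj]
      simp
    · intro hnot
      exact absurd (Finset.mem_univ i) hnot
  refine ⟨b, fun i => ?_, ?_, ?_, ?_⟩
  · have h1 := hbpos' i
    have h2 := hbcoe i
    omega
  · rw [← hnsum]
    exact Finset.sum_congr rfl fun i _ => (hnb i).symm
  · intro y hy
    have h1 := hstar y hy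
    have h2 : ∑ i, (n i : ℤ) * ((S.hw i).ord y * ((etot / S.e i : ℕ) : ℤ)) =
        (∑ i, (b i : ℤ) * (S.hw i).ord y) * etot := by
      rw [Finset.sum_mul]
      apply Finset.sum_congr rfl
      intro i _
      rw [hnb i]
      have h3 : ((etot : ℕ) : ℤ) = (S.e i : ℤ) * ((etot / S.e i : ℕ) : ℤ) := by
        exact_mod_cast (hdvd i).symm
      rw [h3]
      push_cast
      ring
    rw [h2] at h1
    exact mul_right_cancel₀ (by exact_mod_cast hetot_pos.ne') h1
  · intro Q y c hc hy
    suffices hsuff : algebraMap K Ω (Algebra.norm K y ^ Q - ∏ i, c i ^ (b i * S.e i)) ∈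
        V.nonunits by
      have h9 := (mem_nonunits_comap_iff V (algebraMap K Ω) _).mpr hsuff
      rw [hV] at h9
      exact h9
    rw [map_sub, map_pow, map_prod,
      Algebra.norm_eq_prod_embeddings K Ω y, ← Finset.prod_pow]
    have h1 : ∏ i, algebraMap K Ω (c i ^ (b i * S.e i)) =
        ∏ σ : E →ₐ[K] Ω, algebraMap K Ω (c (typ σ)) := by
      rw [← Finset.prod_fiberwise_of_maps_to (g := typ) (s := Finset.univ) (t := Finset.univ)
        (fun σ _ => Finset.mem_univ _)]
      apply Finset.prod_congr rfl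
      intro i _
      rw [Finset.prod_congr rfl (g := fun _ => algebraMap K Ω (c i))]
      · rw [Finset.prod_const, map_pow, ← hnb i]
      · intro σ hσ'
        rw [(Finset.mem_filter.mp hσ').2]
    rw [h1]
    apply prod_sub_prod_mem_nonunits
    · intro σ _
      have : c (typ σ) ∈ V.comap (algebraMap K Ω) := hV ▸ hc _
      exact this
    · intro σ _
      have h2 : σ.toRingHom (y ^ Q - algebraMap K E (c (typ σ))) ∈ V.nonunits := by
        rw [← mem_nonunits_comap_iff, htyp σ]
        exact hy _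
      have h3 : σ.toRingHom (y ^ Q - algebraMap K E (c (typ σ))) =
          σ y ^ Q - algebraMap K Ω (c (typ σ)) := by
        simp
      rw [← h3]
      exact h2

/-- units have unit norm -/
theorem norm_unit [Fintype ι] (S : NormSetting v t w π) {y : E} (hy0 : y ≠ 0)
    (hy : ∀ i, y ∈ w i ∧ y⁻¹ ∈ w i) :
    Algebra.norm K y ∈ v ∧ (Algebra.norm K y)⁻¹ ∈ v := by
  obtain ⟨b, -, -, hord, -⟩ := S.exists_mult
  have hN0 : Algebra.norm K y ≠ 0 := by
    rw [Ne, Algebra.norm_eq_zero_iff]
    exact hy0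
  rw [← S.hv.ord_eq_zero_iff hN0, hord y hy0]
  apply Finset.sum_eq_zero
  intro i _
  rw [((S.hw i).ord_eq_zero_iff hy0).mpr (hy i), mul_zero]

/-- **Norm calculus, totally ramified-or-split case** (`∑ e i = [E : K]`): all multiplicities
are `1`. -/
theorem exists_mult_of_sum_e [Fintype ι] (S : NormSetting v t w π)
    (hsum : ∑ i, S.e i = finrank K E) :
    (∀ y : E, y ≠ 0 → S.hv.ord (Algebra.norm K y) = ∑ i, (S.hw i).ord y) ∧
      (∀ (Q : ℕ) (y : E) (c : ι → K), (∀ i, c i ∈ v) →
        (∀ i, y ^ Q - algebraMap K E (c i) ∈ (w i).nonunits) →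
        Algebra.norm K y ^ Q - ∏ i, c i ^ S.e i ∈ v.nonunits) := by
  obtain ⟨b, hbpos, hbsum, hord, hres⟩ := S.exists_mult
  have hb1 : ∀ i, b i = 1 := by
    by_contra hcon
    push Not at hcon
    obtain ⟨i, hi⟩ := hcon
    have h1 : ∑ j, S.e j < ∑ j, b j * S.e j := by
      apply Finset.sum_lt_sum
      · intro j _
        exact Nat.le_mul_of_pos_left _ (hbpos j)
      · refine ⟨i, Finset.mem_univ i, ?_⟩
        have h2 : 2 ≤ b i := by
          have := hbpos i
          omega
        have h3 := S.e_pos i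
        nlinarith
    omega
  refine ⟨fun y hy => ?_, fun Q y c hc hy => ?_⟩
  · rw [hord y hy]
    apply Finset.sum_congr rfl
    intro i _
    rw [hb1 i]
    simp
  · have h1 := hres Q y c hc hy
    have h2 : ∏ i, c i ^ (b i * S.e i) = ∏ i, c i ^ S.e i := by
      apply Finset.prod_congr rfl
      intro i _
      rw [hb1 i, one_mul]
    rw [h2] at h1
    exact h1

/-- **Norm calculus, one valuation above**: the multiplicity is `[E : K] / e`. -/
theorem exists_mult_of_unique [Unique ι] (S : NormSetting v t w π) :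
    (∀ y : E, y ≠ 0 → (S.e default : ℤ) * S.hv.ord (Algebra.norm K y) =
        (finrank K E : ℤ) * (S.hw default).ord y) ∧
      (∀ (Q : ℕ) (y : E) (c : K), c ∈ v →
        y ^ Q - algebraMap K E c ∈ (w default).nonunits →
        Algebra.norm K y ^ Q - c ^ finrank K E ∈ v.nonunits) := by
  obtain ⟨b, hbpos, hbsum, hord, hres⟩ := S.exists_mult
  rw [Fintype.sum_unique] at hbsum
  refine ⟨fun y hy => ?_, fun Q y c hc hy => ?_⟩
  · rw [hord y hy, Fintype.sum_unique, ← hbsum]
    push_cast
    ring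
  · have h1 := hres Q y (fun _ => c) (fun _ => hc) (fun i => by
      rw [Unique.eq_default i]
      exact hy)
    rw [Fintype.prod_unique, hbsum] at h1
    exact h1

end NormSetting

end Setting

section Pair

variable {K E : Type*} [Field K] [Field E] [Algebra K E]

/-- a discrete valuation subring is maximal among proper valuation subrings -/
theorem IsUnif.eq_of_le {A B : ValuationSubring E} {π ϖ : E} (hA : IsUnif A π)
    (hB : IsUnif B ϖ) (hle : A ≤ B) : A = B := by
  apply le_antisymm hle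
  intro x hxB
  by_contra hxA
  have hx0 : x ≠ 0 := fun h0 => hxA (h0 ▸ A.zero_mem)
  have hneg : hA.ord x < 0 := by
    by_contra hc
    push Not at hc
    exact hxA ((hA.ord_nonneg_iff hx0).mp hc)
  obtain ⟨u, hu, hu', hu0, he⟩ := hA.exists_unit_eq hx0
  have h1 : π ^ hA.ord x ∈ B := by
    have : π ^ hA.ord x = x * u⁻¹ := by
      rw [eq_mul_inv_iff_mul_eq₀ hu0]
      exact he.symm
    rw [this]
    exact B.mul_mem _ _ hxB (hle hu')
  have h2 : π⁻¹ ∈ B := by
    obtain ⟨k, hk⟩ := Int.eq_ofNat_of_zero_le (show 0 ≤ -hA.ord x - 1 by omega)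
    have h3 : π⁻¹ = π ^ hA.ord x * π ^ (k : ℤ) := by
      rw [← zpow_add₀ hA.ne_zero, ← hk]
      have : hA.ord x + (-hA.ord x - 1) = -1 := by ring
      rw [this, zpow_neg_one]
    rw [h3]
    exact B.mul_mem _ _ h1 (hle (hA.zpow_mem_of_nonneg (by positivity)))
  apply hB.ne_top
  rw [eq_top_iff]
  intro y _
  by_cases hy0 : y = 0
  · rw [hy0]
    exact B.zero_mem
  obtain ⟨u', hv1, -, -, he'⟩ := hA.exists_unit_eq hy0
  rw [he']
  refine B.mul_mem _ _ ?_ (hle hv1)
  obtain ⟨k, hk | hk⟩ := Int.eq_nat_or_neg (hA.ord y)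
  · rw [hk, zpow_natCast]
    exact pow_mem (hle hA.mem) k
  · rw [hk, zpow_neg, zpow_natCast, ← inv_pow]
    exact pow_mem h2 k

/-- separation of two distinct discrete valuation subrings -/
theorem exists_sep_pair {w₁ w₂ : ValuationSubring E} {π₁ π₂ : E} (h₁ : IsUnif w₁ π₁)
    (h₂ : IsUnif w₂ π₂) (hne : w₁ ≠ w₂) :
    ∃ y : E, y ≠ 0 ∧ y ∈ w₁.nonunits ∧ y ∈ w₂ ∧ y⁻¹ ∈ w₂ := by
  have hnle : ¬ w₂ ≤ w₁ := fun hle => hne (IsUnif.eq_of_le h₂ h₁ hle).symm
  obtain ⟨a, ha2, ha1⟩ := SetLike.not_le_iff_exists.mp hnle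
  have ha0 : a ≠ 0 := fun h0 => ha1 (h0 ▸ w₁.zero_mem)
  by_cases hinv : a⁻¹ ∈ w₂
  · refine ⟨a⁻¹, inv_ne_zero ha0, ?_, hinv, by rwa [inv_inv]⟩
    rw [ValuationSubring.inv_mem_nonunits_iff]
    exact Or.inr ha1
  · have han : a ∈ w₂.nonunits := by
      rw [ValuationSubring.mem_nonunits_iff_or]
      exact Or.inr hinv
    have h1 : 1 + a ∉ w₁ := by
      intro h
      apply ha1
      have : a = (1 + a) - 1 := by ring
      rw [this]
      exact sub_mem h w₁.one_mem
    have h2 : 1 + a ∉ w₂.nonunits := by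
      intro h
      have h3 : (1 : E) ∈ w₂.nonunits := by
        have := w₂.nonunits.sub_mem h han
        simpa using this
      rw [ValuationSubring.mem_nonunits_iff_or] at h3
      rcases h3 with h3 | h3
      · exact one_ne_zero h3
      · exact h3 (by simp [w₂.one_mem])
    rw [ValuationSubring.mem_nonunits_iff_or] at h2
    push Not at h2
    refine ⟨(1 + a)⁻¹, inv_ne_zero h2.1, ?_, h2.2, ?_⟩
    · rw [ValuationSubring.inv_mem_nonunits_iff]
      exact Or.inr h1
    · rw [inv_inv]
      exact w₂.add_mem _ _ w₂.one_mem ha2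

variable {v : ValuationSubring K} {t : K}

/-- the norm setting for two valuations above -/
theorem NormSetting.of_pair (hv : IsUnif v t) {w₁ w₂ : ValuationSubring E} {π₁ π₂ : E}
    (h₁ : IsUnif w₁ π₁) (h₂ : IsUnif w₂ π₂) (hne : w₁ ≠ w₂)
    (ho₁ : w₁.comap (algebraMap K E) = v) (ho₂ : w₂.comap (algebraMap K E) = v)
    (hall : ∀ w' : ValuationSubring E, w'.comap (algebraMap K E) = v → w' = w₁ ∨ w' = w₂) :
    NormSetting v t (fun b : Bool => bif b then w₁ else w₂)
      (fun b : Bool => bif b then π₁ else π₂) where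
  hv := hv
  hw := by
    intro b
    cases b
    · exact h₂
    · exact h₁
  comap_eq := by
    intro b
    cases b
    · exact ho₂
    · exact ho₁
  exists_eq := by
    intro w' hw'
    rcases hall w' hw' with h | h
    · exact ⟨true, h⟩
    · exact ⟨false, h⟩
  sep := by
    intro b
    cases b
    · obtain ⟨y, hy0, hy1, hy2, hy3⟩ := exists_sep_pair h₂ h₁ hne.symm
      refine ⟨y, hy0, hy1, ?_⟩
      intro j hj
      cases j
      · exact absurd rfl hj
      · exact ⟨hy2, hy3⟩
    · obtain ⟨y, hy0, hy1, hy2, hy3⟩ := exists_sep_pair h₁ h₂ hne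
      refine ⟨y, hy0, hy1, ?_⟩
      intro j hj
      cases j
      · exact ⟨hy2, hy3⟩
      · exact absurd rfl hj

/-- the norm setting for one valuation above -/
theorem NormSetting.of_single (hv : IsUnif v t) {w₁ : ValuationSubring E} {π₁ : E}
    (h₁ : IsUnif w₁ π₁) (ho₁ : w₁.comap (algebraMap K E) = v)
    (hall : ∀ w' : ValuationSubring E, w'.comap (algebraMap K E) = v → w' = w₁) :
    NormSetting v t (fun _ : Unit => w₁) (fun _ : Unit => π₁) where
  hv := hv
  hw := fun _ => h₁
  comap_eq := fun _ => ho₁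
  exists_eq := fun w' hw' => ⟨(), hall w' hw'⟩
  sep := fun _ => ⟨π₁, h₁.ne_zero, h₁.mem_nonunits, fun j hj => absurd (Subsingleton.elim j _) hj⟩

variable [FiniteDimensional K E] [Algebra.IsSeparable K E]

/-- **(N-1)/(N-2), two valuations above with `e₁ + e₂ = [E : K]`.** -/
theorem norm_pair (hv : IsUnif v t) {w₁ w₂ : ValuationSubring E} {π₁ π₂ : E}
    (h₁ : IsUnif w₁ π₁) (h₂ : IsUnif w₂ π₂) (hne : w₁ ≠ w₂)
    (ho₁ : w₁.comap (algebraMap K E) = v) (ho₂ : w₂.comap (algebraMap K E) = v)
    (hall : ∀ w' : ValuationSubring E, w'.comap (algebraMap K E) = v → w' = w₁ ∨ w' = w₂)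
    (e₁ e₂ : ℕ) (he₁ : h₁.ord (algebraMap K E t) = e₁) (he₂ : h₂.ord (algebraMap K E t) = e₂)
    (hsum : e₁ + e₂ = finrank K E) :
    (∀ y : E, y ≠ 0 → hv.ord (Algebra.norm K y) = h₁.ord y + h₂.ord y) ∧
      (∀ (Q : ℕ) (y : E) (c₁ c₂ : K), c₁ ∈ v → c₂ ∈ v →
        y ^ Q - algebraMap K E c₁ ∈ w₁.nonunits → y ^ Q - algebraMap K E c₂ ∈ w₂.nonunits →
        Algebra.norm K y ^ Q - c₁ ^ e₁ * c₂ ^ e₂ ∈ v.nonunits) := by
  have S := NormSetting.of_pair hv h₁ h₂ hne ho₁ ho₂ hall
  have hS1 : S.e true = e₁ := by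
    have h := S.coe_e true
    have h' : (S.hw true).ord (algebraMap K E t) = h₁.ord (algebraMap K E t) := rfl
    rw [h', he₁] at h
    exact_mod_cast h
  have hS2 : S.e false = e₂ := by
    have h := S.coe_e false
    have h' : (S.hw false).ord (algebraMap K E t) = h₂.ord (algebraMap K E t) := rfl
    rw [h', he₂] at h
    exact_mod_cast h
  have hsum' : ∑ i, S.e i = finrank K E := by
    rw [Fintype.sum_bool, hS1, hS2, hsum]
  obtain ⟨hord, hres⟩ := S.exists_mult_of_sum_e hsum'
  refine ⟨fun y hy => ?_, fun Q y c₁ c₂ hc₁ hc₂ hy₁ hy₂ => ?_⟩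
  · have h := hord y hy
    rw [Fintype.sum_bool] at h
    exact h
  · have h := hres Q y (fun b : Bool => bif b then c₁ else c₂) (by
      intro b
      cases b
      · exact hc₂
      · exact hc₁) (by
      intro b
      cases b
      · exact hy₂
      · exact hy₁)
    rw [Fintype.prod_bool, hS1, hS2] at h
    exact h

/-- **(N-1)/(N-2), one valuation above.** -/
theorem norm_single (hv : IsUnif v t) {w₁ : ValuationSubring E} {π₁ : E}
    (h₁ : IsUnif w₁ π₁) (ho₁ : w₁.comap (algebraMap K E) = v)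
    (hall : ∀ w' : ValuationSubring E, w'.comap (algebraMap K E) = v → w' = w₁)
    (e₁ : ℕ) (he₁ : h₁.ord (algebraMap K E t) = e₁) :
    (∀ y : E, y ≠ 0 → (e₁ : ℤ) * hv.ord (Algebra.norm K y) = (finrank K E : ℤ) * h₁.ord y) ∧
      (∀ (Q : ℕ) (y : E) (c : K), c ∈ v → y ^ Q - algebraMap K E c ∈ w₁.nonunits →
        Algebra.norm K y ^ Q - c ^ finrank K E ∈ v.nonunits) := by
  have S := NormSetting.of_single hv h₁ ho₁ hall
  have hS1 : S.e default = e₁ := by
    have h := S.coe_e default
    have h' : (S.hw default).ord (algebraMap K E t) = h₁.ord (algebraMap K E t) := rfl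
    rw [h', he₁] at h
    exact_mod_cast h
  obtain ⟨hord, hres⟩ := S.exists_mult_of_unique
  refine ⟨fun y hy => ?_, fun Q y c hc hy => hres Q y c hc hy⟩
  have h := hord y hy
  rw [hS1] at h
  exact h

end Pair

end Fermat.Agent.CAR.Formal
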