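/-
CAR (F-bc), brick 4: the NORMAL FORM, abstract additive form with CONGRUENCE SUBGROUPS
(no residue fields, no reductions; pure `ℤ`-linear algebra).

`G` = (additively written) multiplicative group of the level-`M` field with its three order
functions `a, b, c` (`inf`, `mid`, `0`) and the three groups of principal units
`Ua, Ub, Uc` (`1 + 𝔪`); `GN` the same at level `N` with `A, C`, `UA, UC`;
`Nα, Nβ : G →+ GN` the two norms, `ια, ιβ : GN →+ G` the two pull-backs.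

From the norm–valuation relations, the norm–congruence relations, weak approximation and
`gcd(m, q) = 1` (`q = e + 1`):

  `Nα f, Nβ f ∈ ϖN^ℤ · GN^m · (UA ∩ UC)  ⟹  (e (e+2)) • f = j • ϖ + m • Gm + f₃`,
  `f₃ ∈ Ua ∩ Ub ∩ Uc`.
-/
import Mathlib

set_option autoImplicit false

namespace Fermat.Agent.CAR.Formal

theorem normalForm_cong {G GN : Type*} [AddCommGroup G] [AddCommGroup GN]
    (m e : ℕ) (hm : m ≠ 0) (hcop : Nat.Coprime m (e + 1))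
    (a b c : G →+ ℤ) (A C : GN →+ ℤ)
    (Ua Ub Uc : AddSubgroup G) (UA UC : AddSubgroup GN)
    (Nα Nβ : G →+ GN) (ια ιβ : GN →+ G)
    (hUc : ∀ x ∈ Uc, c x = 0) (hUA : ∀ x ∈ UA, A x = 0) (hUC : ∀ x ∈ UC, C x = 0)
    (ϖ : G) (ϖN : GN) (hϖ : a ϖ = 1 ∧ b ϖ = e ∧ c ϖ = 1) (hϖN : A ϖN = 1 ∧ C ϖN = 1)
    (hNϖ : Nα ϖ = (e + 1) • ϖN ∧ Nβ ϖ = (e + 1) • ϖN)
    (tb tc : G) (htb : a tb = 0 ∧ b tb = 1 ∧ c tb = 0) (htc : a tc = 0 ∧ b tc = 0 ∧ c tc = 1)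
    (hN1α : ∀ f, A (Nα f) = a f + b f ∧ C (Nα f) = (e + 1) * c f)
    (hN1β : ∀ f, A (Nβ f) = (e + 1) * a f ∧ C (Nβ f) = b f + c f)
    (hSβ : ∀ g, a g = 0 → ∀ s, Nβ g - s ∈ UA → (e + 1) • g - ιβ s ∈ Ua)
    (hSα : ∀ g, c g = 0 → ∀ s, Nα g - s ∈ UC → (e + 1) • g - ια s ∈ Uc)
    (hPβ : ∀ g, b g = 0 → c g = 0 → ∃ c₁ c₂ : GN, g - ιβ c₁ ∈ Ub ∧ g - ιβ c₂ ∈ Uc ∧
      Nβ g - (e • c₁ + c₂) ∈ UC)
    (hlift : ∀ z, c z = 0 → ∃ z' : GN, z - ιβ z' ∈ Uc)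
    (hcomap : ∀ x : GN, ιβ x ∈ Uc → x ∈ UC)
    (hmapb : ∀ x ∈ UC, ιβ x ∈ Ub)
    (hWA : ∀ x y z : G, ∃ H, H - x ∈ Ua ∧ H - y ∈ Ub ∧ H - z ∈ Uc)
    (f : G)
    (hfα : ∃ (n : ℤ) (g ε : GN), Nα f = n • ϖN + m • g + ε ∧ ε ∈ UA ∧ ε ∈ UC)
    (hfβ : ∃ (n : ℤ) (g ε : GN), Nβ f = n • ϖN + m • g + ε ∧ ε ∈ UA ∧ ε ∈ UC) :
    ∃ (j : ℤ) (Gm f₃ : G), (e * (e + 2)) • f = j • ϖ + m • Gm + f₃ ∧
      f₃ ∈ Ua ∧ f₃ ∈ Ub ∧ f₃ ∈ Uc := by
  obtain ⟨n, g, ε, hα, hεA, hεC⟩ := hfα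
  obtain ⟨n', g', ε', hβ, hε'A, hε'C⟩ := hfβ
  have hmZ : (m : ℤ) ≠ 0 := by exact_mod_cast hm
  set a₀ := a f with ha₀
  set b₀ := b f with hb₀
  set c₀ := c f with hc₀
  -- the two congruences
  have hP : (a₀ + b₀) - (e + 1) * c₀ = m * (A g - C g) := by
    have h1 := (hN1α f).1
    have h2 := (hN1α f).2
    rw [hα] at h1 h2
    simp only [map_add, map_zsmul, map_nsmul, hϖN.1, hϖN.2, hUA ε hεA, hUC ε hεC, smul_eq_mul,
      nsmul_eq_mul, add_zero, mul_one] at h1 h2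
    linear_combination h2 - h1
  have hR : (e + 1) * a₀ - (b₀ + c₀) = m * (A g' - C g') := by
    have h1 := (hN1β f).1
    have h2 := (hN1β f).2
    rw [hβ] at h1 h2
    simp only [map_add, map_zsmul, map_nsmul, hϖN.1, hϖN.2, hUA ε' hε'A, hUC ε' hε'C,
      smul_eq_mul, nsmul_eq_mul, add_zero, mul_one] at h1 h2
    linear_combination h2 - h1
  set Z' : ℤ := (A g - C g) - (e + 1) * (A g' - C g') with hZ'
  set Y' : ℤ := -((A g - C g) + (A g' - C g')) with hY'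
  have hZ : ((e : ℤ) + 2) * (b₀ - e * a₀) = m * Z' := by
    rw [hZ']
    linear_combination hP - (e + 1) * hR
  have hY : ((e : ℤ) + 2) * (c₀ - a₀) = m * Y' := by
    rw [hY']
    linear_combination -hP - hR
  -- the tri-unit `g₂`
  set T : G := Z' • tb + Y' • tc with hT
  set g₂ : G := ((e : ℤ) + 2) • f - (a₀ * (e + 2)) • ϖ - (m : ℤ) • T with hg₂
  have hg₂a : a g₂ = 0 := by
    rw [hg₂, hT]
    simp only [map_sub, map_add, map_zsmul, smul_eq_mul, hϖ.1, htb.1, htc.1, ← ha₀]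
    ring
  have hg₂b : b g₂ = 0 := by
    rw [hg₂, hT]
    simp only [map_sub, map_add, map_zsmul, smul_eq_mul, hϖ.2.1, htb.2.1, htc.2.1, ← hb₀]
    linear_combination hZ
  have hg₂c : c g₂ = 0 := by
    rw [hg₂, hT]
    simp only [map_sub, map_add, map_zsmul, smul_eq_mul, hϖ.2.2, htb.2.2, htc.2.2, ← hc₀]
    linear_combination hY
  -- the norms of `g₂` are `m`-th powers modulo principal units
  have key : ∀ (N : G →+ GN) (n : ℤ) (g ε : GN), N f = n • ϖN + m • g + ε → ε ∈ UA → ε ∈ UC →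
      N ϖ = (e + 1) • ϖN → A (N g₂) = 0 → C (N g₂) = 0 →
      ∃ s : GN, N g₂ - m • s ∈ UA ∧ N g₂ - m • s ∈ UC := by
    intro N n g ε hN hεA hεC hNϖ hA0 hC0
    set S : GN := ((e : ℤ) + 2) • g - N T with hS
    set n₁ : ℤ := (e + 2) * n - a₀ * (e + 2) * (e + 1) with hn₁
    have hNg₂ : N g₂ = n₁ • ϖN + (m : ℤ) • S + ((e : ℤ) + 2) • ε := by
      rw [hg₂, map_sub, map_sub, map_zsmul, map_zsmul, map_zsmul, hN, hNϖ, hS, hn₁,
        ← natCast_zsmul g m, ← natCast_zsmul ϖN (e + 1)]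
      push_cast
      module
    have hεA' : ((e : ℤ) + 2) • ε ∈ UA := UA.zsmul_mem hεA _
    have hεC' : ((e : ℤ) + 2) • ε ∈ UC := UC.zsmul_mem hεC _
    have h1 : n₁ + m * A S = 0 := by
      have := hA0
      rw [hNg₂] at this
      simpa only [map_add, map_zsmul, hϖN.1, hUA _ hεA', smul_eq_mul, add_zero, mul_one] using this
    have h2 : n₁ + m * C S = 0 := by
      have := hC0
      rw [hNg₂] at this
      simpa only [map_add, map_zsmul, hϖN.2, hUC _ hεC', smul_eq_mul, add_zero, mul_one] using this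
    have h3 : A S = C S := by
      have : (m : ℤ) * (A S - C S) = 0 := by linear_combination h1 - h2
      rcases mul_eq_zero.mp this with h | h
      · exact absurd h hmZ
      · linarith
    refine ⟨(-A S) • ϖN + S, ?_, ?_⟩
    · have e1 : N g₂ - m • ((-A S) • ϖN + S) = ((e : ℤ) + 2) • ε := by
        rw [hNg₂, ← natCast_zsmul _ m]
        have : n₁ = -(m * A S) := by linarith
        rw [this]
        module
      rw [e1]
      exact hεA'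
    · have e1 : N g₂ - m • ((-A S) • ϖN + S) = ((e : ℤ) + 2) • ε := by
        rw [hNg₂, ← natCast_zsmul _ m]
        have : n₁ = -(m * A S) := by linarith
        rw [this]
        module
      rw [e1]
      exact hεC'
  have hαA : A (Nα g₂) = 0 := by rw [(hN1α g₂).1, hg₂a, hg₂b, add_zero]
  have hαC : C (Nα g₂) = 0 := by rw [(hN1α g₂).2, hg₂c, mul_zero]
  have hβA : A (Nβ g₂) = 0 := by rw [(hN1β g₂).1, hg₂a, mul_zero]
  have hβC : C (Nβ g₂) = 0 := by rw [(hN1β g₂).2, hg₂b, hg₂c, add_zero]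
  obtain ⟨sα, -, hsαC⟩ := key Nα n g ε hα hεA hεC hNϖ.1 hαA hαC
  obtain ⟨sβ, hsβA, hsβC⟩ := key Nβ n' g' ε' hβ hε'A hε'C hNϖ.2 hβA hβC
  -- Bezout
  obtain ⟨u, v, huv⟩ : ∃ u v : ℤ, u * m + v * (e + 1) = 1 := by
    have h1 : IsCoprime (m : ℤ) ((e + 1 : ℕ) : ℤ) := Nat.isCoprime_iff_coprime.mpr hcop
    obtain ⟨u, v, h⟩ := h1
    exact ⟨u, v, by push_cast at h; exact h⟩
  have hroot : ∀ (U : AddSubgroup G) (t : G), (e + 1) • g₂ - m • t ∈ U →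
      g₂ - m • (u • g₂ + v • t) ∈ U := by
    intro U t ht
    have e1 : g₂ - m • (u • g₂ + v • t) = v • ((e + 1) • g₂ - m • t) := by
      rw [← natCast_zsmul _ m, ← natCast_zsmul t m, ← natCast_zsmul g₂ (e + 1)]
      push_cast
      have : g₂ = (u * m + v * (e + 1)) • g₂ := by rw [huv, one_smul]
      nth_rewrite 1 [this]
      module
    rw [e1]
    exact U.zsmul_mem ht _
  -- `inf`
  have hx := hSβ g₂ hg₂a (m • sβ) hsβA
  rw [map_nsmul] at hx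
  have hx₁ := hroot Ua _ hx
  set x₁ : G := u • g₂ + v • ιβ sβ with hx₁def
  -- `0`
  have hz := hSα g₂ hg₂c (m • sα) hsαC
  rw [map_nsmul] at hz
  have hz₁ := hroot Uc _ hz
  set z₁ : G := u • g₂ + v • ια sα with hz₁def
  have hcz₁ : c z₁ = 0 := by
    have h1 := hUc _ hz₁
    rw [map_sub, map_nsmul, hg₂c, zero_sub, neg_eq_zero, nsmul_eq_mul] at h1
    rcases mul_eq_zero.mp h1 with h | h
    · exact absurd h hmZ
    · exact h
  -- `mid`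
  obtain ⟨c₁, c₂, hc₁, hc₂, hc₁₂⟩ := hPβ g₂ hg₂b hg₂c
  obtain ⟨z₁', hz₁'⟩ := hlift z₁ hcz₁
  have hc₂' : c₂ - m • z₁' ∈ UC := by
    apply hcomap
    have e1 : ιβ (c₂ - m • z₁') = -(g₂ - ιβ c₂) + (g₂ - m • z₁) + m • (z₁ - ιβ z₁') := by
      rw [map_sub, map_nsmul]
      module
    rw [e1]
    exact Uc.add_mem (Uc.add_mem (Uc.neg_mem hc₂) hz₁) (Uc.nsmul_mem hz₁' _)
  have hc₁' : e • c₁ - m • (sβ - z₁') ∈ UC := by
    have e1 : e • c₁ - m • (sβ - z₁') =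
        -(Nβ g₂ - (e • c₁ + c₂)) + (Nβ g₂ - m • sβ) - (c₂ - m • z₁') := by
      module
    rw [e1]
    exact UC.sub_mem (UC.add_mem (UC.neg_mem hc₁₂) hsβC) hc₂'
  set y₁ : G := ιβ (sβ - z₁') with hy₁def
  have hy₁ : e • g₂ - m • y₁ ∈ Ub := by
    have h1 := hmapb _ hc₁'
    rw [map_sub, map_nsmul, map_nsmul] at h1
    have e1 : e • g₂ - m • y₁ = e • (g₂ - ιβ c₁) + (e • ιβ c₁ - m • ιβ (sβ - z₁')) := by
      rw [hy₁def]
      module
    rw [e1]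
    exact Ub.add_mem (Ub.nsmul_mem hc₁ _) h1
  -- weak approximation
  obtain ⟨H, hHa, hHb, hHc⟩ := hWA (e • x₁) y₁ (e • z₁)
  refine ⟨a₀ * (e + 2) * e, e • T + H, e • g₂ - m • H, ?_, ?_, ?_, ?_⟩
  · rw [hg₂]
    module
  · have e1 : e • g₂ - m • H = e • (g₂ - m • x₁) - m • (H - e • x₁) := by module
    rw [e1]
    exact Ua.sub_mem (Ua.nsmul_mem hx₁ _) (Ua.nsmul_mem hHa _)
  · have e1 : e • g₂ - m • H = (e • g₂ - m • y₁) - m • (H - y₁) := by module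
    rw [e1]
    exact Ub.sub_mem hy₁ (Ub.nsmul_mem hHb _)
  · have e1 : e • g₂ - m • H = e • (g₂ - m • z₁) - m • (H - e • z₁) := by module
    rw [e1]
    exact Uc.sub_mem (Uc.nsmul_mem hz₁ _) (Uc.nsmul_mem hHc _)

end Fermat.Agent.CAR.Formal
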