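/-
CAR (F-bc), brick 5: the NORMAL FORM at field level (task CAR-10, (N-1), (N-2), (N-3)).

`FN` = level-`N` field, `F` = level-`M` field (`M = q N`), `α β : FN →+* F` the two degeneracy
maps (both of degree `q`), `PA, PC` the two discrete valuation subrings of `FN` (`inf_N`, `0_N`),
`Oa, Ob, Oc` the three of `F` (`inf`, `mid`, `0`).  NO residue fields and NO reduction maps
appear: "reduction `= 1`" is `x - 1 ∈ O.nonunits`, "reductions agree" is `x - y ∈ O.nonunits`.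

* `NF.Data α β q PA PC Oa Ob Oc ϖN ϖ d` : the hypotheses (what the V3 layer supplies);
* `NF.pair_step`, `NF.single_step` : (N-1) and (N-2) in congruence form for one map;
* `NF.Data.normalForm` : (N-3)
    `Nα f, Nβ f ∈ ϖN^ℤ · (FN^×)^m · (principal units at PA and PC)`, `gcd(m, q) = 1`
    `⟹ f ^ ((q-1)(q+1)) = ϖ^j · G^m · f₃`, `f₃ ≡ 1` at `Oa`, `Ob`, `Oc`.
  Weak approximation (`Lib/Valuation/WeakApproxN`) supplies the elements of prescribed orders and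
  the joint surjectivity, so no explicit units `u₁, u₂` are needed.
-/
import Mathlib
import Fermat.Agent.CAR.Formal.NormConj
import Fermat.Agent.CAR.Formal.NormalFormCong
import Fermat.Agent.Lib.Valuation.WeakApproxN

set_option autoImplicit false

namespace Fermat.Agent.CAR.Formal.NF

open Module Fermat.Agent.CAR.Formal Fermat.Agent.Lib.Valuation

/-! ### The maximal ideal and principal units of a valuation subring -/

section PU

variable {F : Type*} [Field F]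

theorem nonunits_zero (A : ValuationSubring F) : (0 : F) ∈ A.nonunits := by
  rw [ValuationSubring.mem_nonunits_iff, map_zero]
  exact zero_lt_one

theorem nonunits_add (A : ValuationSubring F) {x y : F} (hx : x ∈ A.nonunits)
    (hy : y ∈ A.nonunits) : x + y ∈ A.nonunits := by
  rw [ValuationSubring.mem_nonunits_iff] at hx hy ⊢
  exact lt_of_le_of_lt (A.valuation.map_add x y) (max_lt hx hy)

theorem nonunits_neg (A : ValuationSubring F) {x : F} (hx : x ∈ A.nonunits) :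
    -x ∈ A.nonunits := by
  rw [ValuationSubring.mem_nonunits_iff] at hx ⊢
  rwa [Valuation.map_neg]

theorem nonunits_sub (A : ValuationSubring F) {x y : F} (hx : x ∈ A.nonunits)
    (hy : y ∈ A.nonunits) : x - y ∈ A.nonunits := by
  rw [sub_eq_add_neg]
  exact nonunits_add A hx (nonunits_neg A hy)

/-- a principal unit is a unit -/
theorem pu_unit (A : ValuationSubring F) {x : F} (hx : x - 1 ∈ A.nonunits) :
    x ≠ 0 ∧ x ∈ A ∧ x⁻¹ ∈ A := by
  have hval : A.valuation x = 1 := by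
    have h1 : A.valuation (x - 1) < 1 := (ValuationSubring.mem_nonunits_iff A).mp hx
    have h2 := A.valuation.map_one_add_of_lt h1
    rwa [add_sub_cancel] at h2
  have hx0 : x ≠ 0 := by
    rintro rfl
    rw [map_zero] at hval
    exact zero_ne_one hval
  refine ⟨hx0, (A.valuation_le_one_iff x).mp hval.le, (A.valuation_le_one_iff x⁻¹).mp ?_⟩
  rw [map_inv₀, hval, inv_one]

theorem pu_mul (A : ValuationSubring F) {x y : F} (hx : x - 1 ∈ A.nonunits)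
    (hy : y - 1 ∈ A.nonunits) : x * y - 1 ∈ A.nonunits := by
  have e : x * y - 1 = y * (x - 1) + (y - 1) := by ring
  rw [e]
  exact nonunits_add A (mul_mem_nonunits A (pu_unit A hy).2.1 hx) hy

theorem pu_inv (A : ValuationSubring F) {x : F} (hx : x - 1 ∈ A.nonunits) :
    x⁻¹ - 1 ∈ A.nonunits := by
  obtain ⟨hx0, -, hxi⟩ := pu_unit A hx
  have e : x⁻¹ - 1 = x⁻¹ * (-(x - 1)) := by
    field_simp
    ring
  rw [e]
  exact mul_mem_nonunits A hxi (nonunits_neg A hx)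

theorem pu_div (A : ValuationSubring F) {x y : F} (hx : x - 1 ∈ A.nonunits)
    (hy : y - 1 ∈ A.nonunits) : x / y - 1 ∈ A.nonunits := by
  rw [div_eq_mul_inv]
  exact pu_mul A hx (pu_inv A hy)

theorem pu_pow (A : ValuationSubring F) {x : F} (hx : x - 1 ∈ A.nonunits) (n : ℕ) :
    x ^ n - 1 ∈ A.nonunits := by
  induction n with
  | zero =>
    rw [pow_zero, sub_self]
    exact nonunits_zero A
  | succ n ih =>
    rw [pow_succ]
    exact pu_mul A ih hx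

/-- a unit stays a unit when changed by an element of the maximal ideal -/
theorem unit_of_sub_mem_nonunits (A : ValuationSubring F) {x y : F} (hx : x ∈ A)
    (hx' : x⁻¹ ∈ A) (hx0 : x ≠ 0) (h : x - y ∈ A.nonunits) : y ≠ 0 ∧ y ∈ A ∧ y⁻¹ ∈ A := by
  have hvx : A.valuation x = 1 := valuation_eq_one_of_unit A hx hx' hx0
  have hvy : A.valuation y = 1 := by
    have h1 : A.valuation (x - y) < A.valuation x := by
      rw [hvx]
      exact (ValuationSubring.mem_nonunits_iff A).mp h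
    have h2 := A.valuation.map_sub_eq_of_lt_left h1
    rwa [sub_sub_cancel, hvx] at h2
  have hy0 : y ≠ 0 := by
    rintro rfl
    rw [map_zero] at hvy
    exact zero_ne_one hvy
  refine ⟨hy0, (A.valuation_le_one_iff y).mp hvy.le, (A.valuation_le_one_iff y⁻¹).mp ?_⟩
  rw [map_inv₀, hvy, inv_one]

/-- additive congruence to multiplicative congruence -/
theorem pu_of_sub (A : ValuationSubring F) {x y : F} (hy' : y⁻¹ ∈ A) (hy0 : y ≠ 0)
    (h : x - y ∈ A.nonunits) : x / y - 1 ∈ A.nonunits := by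
  have e : x / y - 1 = y⁻¹ * (x - y) := by
    field_simp
  rw [e]
  exact mul_mem_nonunits A hy' h

/-- multiplicative congruence to additive congruence -/
theorem sub_of_pu (A : ValuationSubring F) {x y : F} (hy : y ∈ A) (hy0 : y ≠ 0)
    (h : x / y - 1 ∈ A.nonunits) : x - y ∈ A.nonunits := by
  have e : x - y = y * (x / y - 1) := by
    field_simp
  rw [e]
  exact mul_mem_nonunits A hy h

theorem cong_mul (A : ValuationSubring F) {x x' y y' : F} (hx' : x' ∈ A) (hy : y ∈ A)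
    (hx : x - x' ∈ A.nonunits) (hy' : y - y' ∈ A.nonunits) : x * y - x' * y' ∈ A.nonunits := by
  have e : x * y - x' * y' = y * (x - x') + x' * (y - y') := by ring
  rw [e]
  exact nonunits_add A (mul_mem_nonunits A hy hx) (mul_mem_nonunits A hx' hy')

theorem cong_pow (A : ValuationSubring F) {x x' : F} (hx : x ∈ A) (hx' : x' ∈ A)
    (h : x - x' ∈ A.nonunits) (n : ℕ) : x ^ n - x' ^ n ∈ A.nonunits := by
  induction n with
  | zero =>
    rw [pow_zero, pow_zero, sub_self]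
    exact nonunits_zero A
  | succ n ih =>
    rw [pow_succ, pow_succ]
    exact cong_mul A (pow_mem hx' n) hx ih h

/-- injectivity of Frobenius on the residue field, in terms of the valuation subring -/
theorem pu_of_pow_prime (A : ValuationSubring F) {q : ℕ} (hq : q.Prime)
    (hqA : (q : F) ∈ A.nonunits) {u : F} (hu : u ∈ A) (h : u ^ q - 1 ∈ A.nonunits) :
    u - 1 ∈ A.nonunits := by
  obtain ⟨r, hr⟩ := exists_add_pow_prime_eq hq ((⟨u, hu⟩ : A) - 1) 1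
  have hr' : u ^ q = (u - 1) ^ q + 1 + q * (u - 1) * 1 * (r : F) := by
    have h1 := congrArg (fun z : A => (z : F)) hr
    simpa using h1
  have hmem : u - 1 ∈ A := A.sub_mem hu A.one_mem
  have h1 : (u - 1) ^ q ∈ A.nonunits := by
    have e : (u - 1) ^ q = (u ^ q - 1) - ((u - 1) * r) * (q : F) := by
      rw [hr']
      ring
    rw [e]
    exact nonunits_sub A h (mul_mem_nonunits A (A.mul_mem _ _ hmem r.2) hqA)
  rw [ValuationSubring.mem_nonunits_iff, map_pow] at h1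
  rw [ValuationSubring.mem_nonunits_iff]
  by_contra h2
  push Not at h2
  exact absurd h1 (not_lt.mpr (one_le_pow₀ h2))

theorem ord_eq_of_valuation_eq {A : ValuationSubring F} {π : F} (h : IsUnif A π) {x y : F}
    (hx : x ≠ 0) (hy : y ≠ 0) (hval : A.valuation y = A.valuation x) : h.ord y = h.ord x := by
  have h1 : A.valuation (y / x) = 1 := by
    rw [map_div₀, hval, div_self ((Valuation.ne_zero_iff _).mpr hx)]
  have h2 : h.ord (y / x) = 0 := by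
    rw [h.ord_eq_zero_iff (div_ne_zero hy hx)]
    refine ⟨(A.valuation_le_one_iff _).mp h1.le, (A.valuation_le_one_iff _).mp ?_⟩
    rw [map_inv₀, h1, inv_one]
  rw [h.ord_div hy hx] at h2
  omega

theorem isArch_of_isUnif {A : ValuationSubring F} {π : F} (h : IsUnif A π) :
    WeakApproxN.IsArch A := by
  intro a d ha hd
  have hd' : 0 < A.valuation d := zero_lt_iff.mpr ((Valuation.ne_zero_iff _).mpr hd)
  by_cases ha0 : a = 0
  · refine ⟨1, ?_⟩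
    rw [ha0, pow_one, map_zero]
    exact hd'
  · have hpos : 0 < h.ord a := (h.ord_pos_iff ha0).mpr ((ValuationSubring.mem_nonunits_iff A).mpr ha)
    refine ⟨(max (h.ord d) 0 + 1).toNat, ?_⟩
    set n := (max (h.ord d) 0 + 1).toNat with hn
    have hn' : (n : ℤ) = max (h.ord d) 0 + 1 :=
      Int.toNat_of_nonneg (by have := le_max_right (h.ord d) 0; omega)
    have hx0 : a ^ n / d ≠ 0 := div_ne_zero (pow_ne_zero _ ha0) hd
    have hmem : a ^ n / d ∈ A.nonunits := by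
      rw [← h.ord_pos_iff hx0, h.ord_div (pow_ne_zero _ ha0) hd, h.ord_pow]
      have h1 : h.ord d ≤ max (h.ord d) 0 := le_max_left _ _
      have h2 : (n : ℤ) ≤ n * h.ord a := by nlinarith
      omega
    rw [ValuationSubring.mem_nonunits_iff, map_div₀] at hmem
    exact (div_lt_one₀ hd').mp hmem

/-! ### Weak approximation for three discrete valuation subrings -/

section three

variable {Oa Ob Oc : ValuationSubring F} {πa πb πc : F}

theorem triple_setup (ha : IsUnif Oa πa) (hb : IsUnif Ob πb) (hc : IsUnif Oc πc)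
    (hab : Oa ≠ Ob) (hbc : Ob ≠ Oc) (hac : Oa ≠ Oc) :
    (∀ i j : Fin 3, i ≠ j →
      ¬ (![Oa, Ob, Oc] : Fin 3 → ValuationSubring F) i ≤ ![Oa, Ob, Oc] j) ∧
    (∀ i : Fin 3, WeakApproxN.IsArch ((![Oa, Ob, Oc] : Fin 3 → ValuationSubring F) i)) := by
  have hU : ∀ i : Fin 3, ∃ π : F,
      IsUnif ((![Oa, Ob, Oc] : Fin 3 → ValuationSubring F) i) π := by
    intro i
    fin_cases i
    · exact ⟨πa, ha⟩
    · exact ⟨πb, hb⟩
    · exact ⟨πc, hc⟩
  have hne : ∀ i j : Fin 3, i ≠ j →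
      (![Oa, Ob, Oc] : Fin 3 → ValuationSubring F) i ≠ ![Oa, Ob, Oc] j := by
    intro i j hij
    fin_cases i <;> fin_cases j <;>
      first
        | exact absurd rfl hij
        | exact hab
        | exact hab.symm
        | exact hbc
        | exact hbc.symm
        | exact hac
        | exact hac.symm
  refine ⟨fun i j hij hle => ?_, fun i => ?_⟩
  · obtain ⟨π, hπ⟩ := hU i
    obtain ⟨π', hπ'⟩ := hU j
    exact hne i j hij (IsUnif.eq_of_le hπ hπ' hle)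
  · obtain ⟨π, hπ⟩ := hU i
    exact isArch_of_isUnif hπ

/-- joint surjectivity on units, multiplicative form -/
theorem exists_approx3 (ha : IsUnif Oa πa) (hb : IsUnif Ob πb) (hc : IsUnif Oc πc)
    (hab : Oa ≠ Ob) (hbc : Ob ≠ Oc) (hac : Oa ≠ Oc) (x y z : F) (hx : x ≠ 0) (hy : y ≠ 0)
    (hz : z ≠ 0) :
    ∃ H : F, H ≠ 0 ∧ H / x - 1 ∈ Oa.nonunits ∧ H / y - 1 ∈ Ob.nonunits ∧
      H / z - 1 ∈ Oc.nonunits := by
  obtain ⟨hV, harch⟩ := triple_setup ha hb hc hab hbc hac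
  have hxyz : ∀ i : Fin 3, (![x, y, z] : Fin 3 → F) i ≠ 0 := by
    intro i
    fin_cases i
    · exact hx
    · exact hy
    · exact hz
  obtain ⟨H, hH⟩ := WeakApproxN.exists_unit_approx ![Oa, Ob, Oc] hV harch ![x, y, z]
    (fun _ => 1) hxyz (fun _ => one_ne_zero)
  have h0 : Oa.valuation (H / x - 1) < Oa.valuation 1 := hH 0
  have h1 : Ob.valuation (H / y - 1) < Ob.valuation 1 := hH 1
  have h2 : Oc.valuation (H / z - 1) < Oc.valuation 1 := hH 2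
  rw [map_one] at h0 h1 h2
  refine ⟨H, ?_, (ValuationSubring.mem_nonunits_iff Oa).mpr h0,
    (ValuationSubring.mem_nonunits_iff Ob).mpr h1, (ValuationSubring.mem_nonunits_iff Oc).mpr h2⟩
  rintro rfl
  rw [zero_div, zero_sub, Valuation.map_neg, map_one] at h0
  exact lt_irrefl _ h0

/-- an element with prescribed orders at the three valuations -/
theorem exists_ord3 (ha : IsUnif Oa πa) (hb : IsUnif Ob πb) (hc : IsUnif Oc πc)
    (hab : Oa ≠ Ob) (hbc : Ob ≠ Oc) (hac : Oa ≠ Oc) (x y z : F) (hx : x ≠ 0) (hy : y ≠ 0)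
    (hz : z ≠ 0) :
    ∃ t : F, t ≠ 0 ∧ ha.ord t = ha.ord x ∧ hb.ord t = hb.ord y ∧ hc.ord t = hc.ord z := by
  obtain ⟨hV, harch⟩ := triple_setup ha hb hc hab hbc hac
  have hxyz : ∀ i : Fin 3, (![x, y, z] : Fin 3 → F) i ≠ 0 := by
    intro i
    fin_cases i
    · exact hx
    · exact hy
    · exact hz
  obtain ⟨t, ht0, ht⟩ := WeakApproxN.exists_valuation_eq ![Oa, Ob, Oc] hV harch ![x, y, z] hxyz
  have h0 : Oa.valuation t = Oa.valuation x := ht 0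
  have h1 : Ob.valuation t = Ob.valuation y := ht 1
  have h2 : Oc.valuation t = Oc.valuation z := ht 2
  exact ⟨t, ht0, ord_eq_of_valuation_eq ha hx ht0 h0, ord_eq_of_valuation_eq hb hy ht0 h1,
    ord_eq_of_valuation_eq hc hz ht0 h2⟩

end three

/-! ### The additive model `Additive Fˣ` -/

/-- the underlying field element -/
def toF (x : Additive Fˣ) : F := ((Additive.toMul x : Fˣ) : F)

theorem toF_ne_zero (x : Additive Fˣ) : toF x ≠ 0 := Units.ne_zero _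

theorem toF_add (x y : Additive Fˣ) : toF (x + y) = toF x * toF y := rfl

theorem toF_neg (x : Additive Fˣ) : toF (-x) = (toF x)⁻¹ := by
  simp [toF]

theorem toF_sub (x y : Additive Fˣ) : toF (x - y) = toF x / toF y := by
  simp [toF, Units.val_div_eq_div_val]

theorem toF_nsmul (n : ℕ) (x : Additive Fˣ) : toF (n • x) = toF x ^ n := by
  simp [toF]

theorem toF_zsmul (n : ℤ) (x : Additive Fˣ) : toF (n • x) = toF x ^ n := by
  simp [toF]

theorem toF_injective : Function.Injective (toF : Additive Fˣ → F) := fun _ _ h =>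
  Additive.toMul.injective (Units.ext h)

/-- the element of `Additive Fˣ` attached to a nonzero field element -/
def mkG (x : F) (hx : x ≠ 0) : Additive Fˣ := Additive.ofMul (Units.mk0 x hx)

theorem toF_mkG (x : F) (hx : x ≠ 0) : toF (mkG x hx) = x := rfl

/-- the group of principal units of `A` -/
def puSub (A : ValuationSubring F) : AddSubgroup (Additive Fˣ) where
  carrier := {x | toF x - 1 ∈ A.nonunits}
  zero_mem' := by
    show (1 : F) - 1 ∈ A.nonunits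
    rw [sub_self]
    exact nonunits_zero A
  add_mem' := fun {x y} hx hy => by
    show toF x * toF y - 1 ∈ A.nonunits
    exact pu_mul A hx hy
  neg_mem' := fun {x} hx => by
    show toF (-x) - 1 ∈ A.nonunits
    rw [toF_neg]
    exact pu_inv A hx

theorem mem_puSub (A : ValuationSubring F) (x : Additive Fˣ) :
    x ∈ puSub A ↔ toF x - 1 ∈ A.nonunits := Iff.rfl

/-- the order function as a homomorphism -/
noncomputable def ordHom {A : ValuationSubring F} {π : F} (h : IsUnif A π) :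
    Additive Fˣ →+ ℤ :=
  AddMonoidHom.mk' (fun x => h.ord (toF x)) fun x y =>
    h.ord_mul (toF_ne_zero x) (toF_ne_zero y)

theorem ordHom_apply {A : ValuationSubring F} {π : F} (h : IsUnif A π) (x : Additive Fˣ) :
    ordHom h x = h.ord (toF x) := rfl

theorem ordHom_eq_zero_of_mem {A : ValuationSubring F} {π : F} (h : IsUnif A π)
    {x : Additive Fˣ} (hx : x ∈ puSub A) : ordHom h x = 0 := by
  obtain ⟨h0, h1, h2⟩ := pu_unit A hx
  exact h.ord_unit h1 h2 h0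

end PU

/-! ### One degeneracy map: (N-1) and (N-2) in congruence form -/

section steps

variable {K E : Type*} [Field K] [Field E]

/-- the field norm along a ring homomorphism of fields -/
noncomputable def normOf (φ : K →+* E) : E →* K :=
  letI := φ.toAlgebra
  Algebra.norm K

theorem normOf_ne_zero (φ : K →+* E) (hfin : letI := φ.toAlgebra; FiniteDimensional K E)
    {y : E} (hy : y ≠ 0) : normOf φ y ≠ 0 := by
  let _ := φ.toAlgebra
  have : FiniteDimensional K E := hfin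
  show Algebra.norm K y ≠ 0
  rw [Ne, Algebra.norm_eq_zero_iff]
  exact hy

theorem normOf_map (φ : K →+* E) {q : ℕ} (hdeg : (letI := φ.toAlgebra; finrank K E) = q)
    (x : K) : normOf φ (φ x) = x ^ q := by
  let _ := φ.toAlgebra
  have h : finrank K E = q := hdeg
  rw [← h]
  exact Algebra.norm_algebraMap x

/-- the norm on `Additive Eˣ` -/
noncomputable def normAdd (φ : K →+* E) : Additive Eˣ →+ Additive Kˣ :=
  MonoidHom.toAdditive (Units.map (normOf φ))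

theorem toF_normAdd (φ : K →+* E) (x : Additive Eˣ) : toF (normAdd φ x) = normOf φ (toF x) :=
  rfl

/-- the pull-back on `Additive Kˣ` -/
noncomputable def mapAdd (φ : K →+* E) : Additive Kˣ →+ Additive Eˣ :=
  MonoidHom.toAdditive (Units.map (φ : K →* E))

theorem toF_mapAdd (φ : K →+* E) (x : Additive Kˣ) : toF (mapAdd φ x) = φ (toF x) := rfl

variable (φ : K →+* E) (hfin : letI := φ.toAlgebra; FiniteDimensional K E)
  (hsep : letI := φ.toAlgebra; Algebra.IsSeparable K E)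
  {v : ValuationSubring K} {t : K}

include hfin hsep in
/-- **One valuation above, totally inseparable residue extension of degree `q = [E : K]`.**
`ord_v (N y) = q · ord_w y`, and `N y ≡ s` at `v` implies `y ^ q ≡ φ s` at `w`. -/
theorem single_step {q : ℕ} (hq : q.Prime) (hdeg : (letI := φ.toAlgebra; finrank K E) = q)
    (hv : IsUnif v t) {w : ValuationSubring E} {π₁ : E} (h₁ : IsUnif w π₁)
    (ho : w.comap φ = v) (hall : ∀ w' : ValuationSubring E, w'.comap φ = v → w' = w)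
    (he : h₁.ord (φ t) = 1) (hqv : (q : K) ∈ v.nonunits)
    (hres : ∀ g ∈ w, ∃ c ∈ v, g ^ q - φ c ∈ w.nonunits) :
    (∀ y : E, y ≠ 0 → hv.ord (normOf φ y) = q * h₁.ord y) ∧
    (∀ y : E, y ≠ 0 → y ∈ w → y⁻¹ ∈ w → ∀ s : K, s ≠ 0 →
      normOf φ y / s - 1 ∈ v.nonunits → y ^ q / φ s - 1 ∈ w.nonunits) := by
  let _ := φ.toAlgebra
  have : FiniteDimensional K E := hfin
  have : Algebra.IsSeparable K E := hsep
  have hdeg' : finrank K E = q := hdeg
  have he' : h₁.ord (algebraMap K E t) = ((1 : ℕ) : ℤ) := by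
    rw [Nat.cast_one]
    exact he
  obtain ⟨h1, h2⟩ := norm_single hv h₁ ho hall 1 he'
  have hord : ∀ y : E, y ≠ 0 → hv.ord (normOf φ y) = q * h₁.ord y := by
    intro y hy
    have h3 := h1 y hy
    rw [hdeg', Nat.cast_one, one_mul] at h3
    exact h3
  refine ⟨hord, fun y hy0 hy hy' s hs0 hs => ?_⟩
  obtain ⟨c, hc, hyc⟩ := hres y hy
  have hN : normOf φ y ^ q - c ^ q ∈ v.nonunits := by
    have h3 := h2 q y c hc hyc
    rw [hdeg'] at h3
    exact h3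
  -- `φ c` is a unit of `w`, `c` is a unit of `v`
  have hyq : (y ^ q)⁻¹ ∈ w := by
    rw [← inv_pow]
    exact pow_mem hy' q
  obtain ⟨hφc0, -, hφc'⟩ := unit_of_sub_mem_nonunits w (pow_mem hy q) hyq (pow_ne_zero q hy0) hyc
  have hc0 : c ≠ 0 := fun h => hφc0 (by rw [h, map_zero])
  have hc' : c⁻¹ ∈ v := by
    rw [← ho, ValuationSubring.mem_comap, map_inv₀]
    exact hφc'
  -- `N y ≡ c`
  have hNy0 : normOf φ y ≠ 0 := normOf_ne_zero φ hfin hy0
  have hNy : normOf φ y ∈ v ∧ (normOf φ y)⁻¹ ∈ v := by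
    rw [← hv.ord_eq_zero_iff hNy0, hord y hy0, (h₁.ord_eq_zero_iff hy0).mpr ⟨hy, hy'⟩, mul_zero]
  have h4 : (normOf φ y / c) ^ q - 1 ∈ v.nonunits := by
    rw [div_pow]
    refine pu_of_sub v ?_ (pow_ne_zero q hc0) hN
    rw [← inv_pow]
    exact pow_mem hc' q
  have h5 : normOf φ y / c - 1 ∈ v.nonunits :=
    pu_of_pow_prime v hq hqv (by rw [div_eq_mul_inv]; exact v.mul_mem _ _ hNy.1 hc') h4
  have h6 : c / s - 1 ∈ v.nonunits := by
    have e : c / s = (normOf φ y / s) / (normOf φ y / c) := by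
      field_simp
    rw [e]
    exact pu_div v hs h5
  have h7 : φ c / φ s - 1 ∈ w.nonunits := by
    rw [← ho, mem_nonunits_comap_iff, map_sub, map_one, map_div₀] at h6
    exact h6
  have h8 : y ^ q / φ c - 1 ∈ w.nonunits := pu_of_sub w hφc' hφc0 hyc
  have e : y ^ q / φ s = (y ^ q / φ c) * (φ c / φ s) := by
    field_simp
  rw [e]
  exact pu_mul w h8 h7

include hfin hsep in
/-- **Two valuations above with `e₁ + e₂ = [E : K]` and trivial residue extensions.**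
`ord_v (N y) = ord₁ y + ord₂ y`, and `N y ≡ c₁ ^ e₁ · c₂ ^ e₂` for lifts `y ≡ φ cᵢ` at `wᵢ`. -/
theorem pair_step (hv : IsUnif v t) {w₁ w₂ : ValuationSubring E} {π₁ π₂ : E}
    (h₁ : IsUnif w₁ π₁) (h₂ : IsUnif w₂ π₂) (hne : w₁ ≠ w₂)
    (ho₁ : w₁.comap φ = v) (ho₂ : w₂.comap φ = v)
    (hall : ∀ w' : ValuationSubring E, w'.comap φ = v → w' = w₁ ∨ w' = w₂)
    (e₁ e₂ : ℕ) (he₁ : h₁.ord (φ t) = e₁) (he₂ : h₂.ord (φ t) = e₂)
    (hsum : e₁ + e₂ = (letI := φ.toAlgebra; finrank K E))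
    (hres₁ : ∀ g ∈ w₁, ∃ c ∈ v, g - φ c ∈ w₁.nonunits)
    (hres₂ : ∀ g ∈ w₂, ∃ c ∈ v, g - φ c ∈ w₂.nonunits) :
    (∀ y : E, y ≠ 0 → hv.ord (normOf φ y) = h₁.ord y + h₂.ord y) ∧
    (∀ y : E, y ≠ 0 → y ∈ w₁ → y⁻¹ ∈ w₁ → y ∈ w₂ → y⁻¹ ∈ w₂ →
      ∃ c₁ c₂ : K, c₁ ≠ 0 ∧ c₂ ≠ 0 ∧ y / φ c₁ - 1 ∈ w₁.nonunits ∧
        y / φ c₂ - 1 ∈ w₂.nonunits ∧ normOf φ y / (c₁ ^ e₁ * c₂ ^ e₂) - 1 ∈ v.nonunits) := by
  let _ := φ.toAlgebra
  have : FiniteDimensional K E := hfin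
  have : Algebra.IsSeparable K E := hsep
  obtain ⟨h1, h2⟩ := norm_pair hv h₁ h₂ hne ho₁ ho₂ hall e₁ e₂ he₁ he₂ hsum
  refine ⟨h1, fun y hy0 hy1 hy1' hy2 hy2' => ?_⟩
  obtain ⟨c₁, hc₁, hyc₁⟩ := hres₁ y hy1
  obtain ⟨c₂, hc₂, hyc₂⟩ := hres₂ y hy2
  obtain ⟨hφ10, -, hφ1'⟩ := unit_of_sub_mem_nonunits w₁ hy1 hy1' hy0 hyc₁
  obtain ⟨hφ20, -, hφ2'⟩ := unit_of_sub_mem_nonunits w₂ hy2 hy2' hy0 hyc₂
  have hc₁0 : c₁ ≠ 0 := fun h => hφ10 (by rw [h, map_zero])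
  have hc₂0 : c₂ ≠ 0 := fun h => hφ20 (by rw [h, map_zero])
  have hc₁' : c₁⁻¹ ∈ v := by
    rw [← ho₁, ValuationSubring.mem_comap, map_inv₀]
    exact hφ1'
  have hc₂' : c₂⁻¹ ∈ v := by
    rw [← ho₂, ValuationSubring.mem_comap, map_inv₀]
    exact hφ2'
  have hN := h2 1 y c₁ c₂ hc₁ hc₂ (by rw [pow_one]; exact hyc₁) (by rw [pow_one]; exact hyc₂)
  rw [pow_one] at hN
  refine ⟨c₁, c₂, hc₁0, hc₂0, pu_of_sub w₁ hφ1' hφ10 hyc₁, pu_of_sub w₂ hφ2' hφ20 hyc₂, ?_⟩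
  refine pu_of_sub v ?_ (mul_ne_zero (pow_ne_zero _ hc₁0) (pow_ne_zero _ hc₂0)) hN
  rw [mul_inv, ← inv_pow, ← inv_pow]
  exact v.mul_mem _ _ (pow_mem hc₁' _) (pow_mem hc₂' _)

include hfin hsep in
/-- **(N-4), inseparable case, at a point.** `W₁ ≤ w` any valuation subring ("a point of the
component `w`"), `W = W₁ ∩ K`: if `y ^ q ≡ φ c` at `W₁` then `N y ≡ c` at `W`. -/
theorem single_point {q : ℕ} (hq : q.Prime) (hdeg : (letI := φ.toAlgebra; finrank K E) = q)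
    (hv : IsUnif v t) {w : ValuationSubring E} {π₁ : E} (h₁ : IsUnif w π₁)
    (ho : w.comap φ = v) (hall : ∀ w' : ValuationSubring E, w'.comap φ = v → w' = w)
    (he : h₁.ord (φ t) = 1) (hqv : (q : K) ∈ v.nonunits)
    (hres : ∀ g ∈ w, ∃ c ∈ v, g ^ q - φ c ∈ w.nonunits)
    {W : ValuationSubring K} {W₁ : ValuationSubring E} (hW₁ : W₁ ≤ w) (hcW : W₁.comap φ = W)
    {y : E} (hy0 : y ≠ 0) (hy1 : y ∈ W₁) (hy1' : y⁻¹ ∈ W₁) {c : K}
    (hyc : y ^ q - φ c ∈ W₁.nonunits) : normOf φ y - c ∈ W.nonunits := by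
  obtain ⟨-, h2⟩ := single_step φ hfin hsep hq hdeg hv h₁ ho hall he hqv hres
  have hN0 : normOf φ y ≠ 0 := normOf_ne_zero φ hfin hy0
  have h3 : y ^ q / φ (normOf φ y) - 1 ∈ w.nonunits := by
    refine h2 y hy0 (hW₁ hy1) (hW₁ hy1') (normOf φ y) hN0 ?_
    rw [div_self hN0, sub_self]
    exact nonunits_zero v
  have hle : w.nonunits ≤ W₁.nonunits := ValuationSubring.nonunits_le_nonunits.mpr hW₁
  have h4 : y ^ q / φ (normOf φ y) - 1 ∈ W₁.nonunits := hle h3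
  have hφN0 : φ (normOf φ y) ≠ 0 := by
    rw [Ne, map_eq_zero]
    exact hN0
  have hφN : φ (normOf φ y) ∈ W₁ := by
    have e : φ (normOf φ y) = y ^ q * (y ^ q / φ (normOf φ y))⁻¹ := by
      have := pow_ne_zero q hy0
      field_simp
    rw [e]
    exact W₁.mul_mem _ _ (pow_mem hy1 q) (pu_unit W₁ h4).2.2
  have h5 : y ^ q - φ (normOf φ y) ∈ W₁.nonunits := sub_of_pu W₁ hφN hφN0 h4
  rw [← hcW, mem_nonunits_comap_iff, map_sub]
  have e : φ (normOf φ y) - φ c = (y ^ q - φ c) - (y ^ q - φ (normOf φ y)) := by ring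
  rw [e]
  exact nonunits_sub W₁ hyc h5

include hfin hsep in
/-- **(N-4), two valuations above, at a point.** `W₁ ≤ w₁`, `W₂ ≤ w₂` valuation subrings with the
same restriction `W` to `K` ("the two points above a node"): if `y ≡ φ c₁` at `W₁` and
`y ≡ φ c₂` at `W₂` then `N y ≡ c₁ ^ e₁ · c₂ ^ e₂` at `W`. -/
theorem pair_point (hv : IsUnif v t) {w₁ w₂ : ValuationSubring E} {π₁ π₂ : E}
    (h₁ : IsUnif w₁ π₁) (h₂ : IsUnif w₂ π₂) (hne : w₁ ≠ w₂)
    (ho₁ : w₁.comap φ = v) (ho₂ : w₂.comap φ = v)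
    (hall : ∀ w' : ValuationSubring E, w'.comap φ = v → w' = w₁ ∨ w' = w₂)
    (e₁ e₂ : ℕ) (he₁ : h₁.ord (φ t) = e₁) (he₂ : h₂.ord (φ t) = e₂)
    (hsum : e₁ + e₂ = (letI := φ.toAlgebra; finrank K E))
    (hres₁ : ∀ g ∈ w₁, ∃ c ∈ v, g - φ c ∈ w₁.nonunits)
    (hres₂ : ∀ g ∈ w₂, ∃ c ∈ v, g - φ c ∈ w₂.nonunits)
    {W : ValuationSubring K} {W₁ W₂ : ValuationSubring E} (hW₁ : W₁ ≤ w₁) (hW₂ : W₂ ≤ w₂)
    (hcW₁ : W₁.comap φ = W) (hcW₂ : W₂.comap φ = W)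
    {y : E} (hy0 : y ≠ 0) (hy1 : y ∈ W₁) (hy1' : y⁻¹ ∈ W₁) (hy2 : y ∈ W₂) (hy2' : y⁻¹ ∈ W₂)
    {c₁ c₂ : K} (hc₁ : c₁ ∈ W) (hc₂ : c₂ ∈ W)
    (hyc₁ : y - φ c₁ ∈ W₁.nonunits) (hyc₂ : y - φ c₂ ∈ W₂.nonunits) :
    normOf φ y - c₁ ^ e₁ * c₂ ^ e₂ ∈ W.nonunits := by
  obtain ⟨-, h2⟩ := pair_step φ hfin hsep hv h₁ h₂ hne ho₁ ho₂ hall e₁ e₂ he₁ he₂ hsum hres₁ hres₂
  obtain ⟨d₁, d₂, hd₁0, hd₂0, hp1, hp2, hp3⟩ :=
    h2 y hy0 (hW₁ hy1) (hW₁ hy1') (hW₂ hy2) (hW₂ hy2')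
  have hWv : W ≤ v := by
    rw [← hcW₁, ← ho₁]
    exact fun x hx => hW₁ hx
  have hlev : v.nonunits ≤ W.nonunits := ValuationSubring.nonunits_le_nonunits.mpr hWv
  -- a lift at one point is determined modulo the maximal ideal of `W`
  have key : ∀ (w' W' : ValuationSubring E), W' ≤ w' → W'.comap φ = W → y ∈ W' →
      ∀ c d₀ : K, d₀ ≠ 0 → y / φ d₀ - 1 ∈ w'.nonunits → y - φ c ∈ W'.nonunits →
      d₀ - c ∈ W.nonunits := by
    intro w' W' hW' hcW' hyW' c d₀ hd0 hp hyc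
    have hle : w'.nonunits ≤ W'.nonunits := ValuationSubring.nonunits_le_nonunits.mpr hW'
    have h3 : y / φ d₀ - 1 ∈ W'.nonunits := hle hp
    have hφd0 : φ d₀ ≠ 0 := by
      rw [Ne, map_eq_zero]
      exact hd0
    have hφd : φ d₀ ∈ W' := by
      have e : φ d₀ = y * (y / φ d₀)⁻¹ := by
        field_simp
      rw [e]
      exact W'.mul_mem _ _ hyW' (pu_unit W' h3).2.2
    have h4 : y - φ d₀ ∈ W'.nonunits := sub_of_pu W' hφd hφd0 h3
    rw [← hcW', mem_nonunits_comap_iff, map_sub]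
    have e : φ d₀ - φ c = (y - φ c) - (y - φ d₀) := by ring
    rw [e]
    exact nonunits_sub W' hyc h4
  have k1 := key w₁ W₁ hW₁ hcW₁ hy1 c₁ d₁ hd₁0 hp1 hyc₁
  have k2 := key w₂ W₂ hW₂ hcW₂ hy2 c₂ d₂ hd₂0 hp2 hyc₂
  have hd₁W : d₁ ∈ W := by
    have := W.add_mem _ _ (W.nonunits_subset k1) hc₁
    rwa [sub_add_cancel] at this
  have hd₂W : d₂ ∈ W := by
    have := W.add_mem _ _ (W.nonunits_subset k2) hc₂
    rwa [sub_add_cancel] at this
  have h6 : normOf φ y - d₁ ^ e₁ * d₂ ^ e₂ ∈ W.nonunits :=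
    sub_of_pu W (W.mul_mem _ _ (pow_mem hd₁W _) (pow_mem hd₂W _))
      (mul_ne_zero (pow_ne_zero _ hd₁0) (pow_ne_zero _ hd₂0)) (hlev hp3)
  have h7 : d₁ ^ e₁ * d₂ ^ e₂ - c₁ ^ e₁ * c₂ ^ e₂ ∈ W.nonunits :=
    cong_mul W (pow_mem hc₁ _) (pow_mem hd₂W _) (cong_pow W hd₁W hc₁ k1 _)
      (cong_pow W hd₂W hc₂ k2 _)
  have e : normOf φ y - c₁ ^ e₁ * c₂ ^ e₂ =
      (normOf φ y - d₁ ^ e₁ * d₂ ^ e₂) + (d₁ ^ e₁ * d₂ ^ e₂ - c₁ ^ e₁ * c₂ ^ e₂) := by ring
  rw [e]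
  exact nonunits_add W h6 h7

end steps

/-! ### The data and the normal form -/

/-- **The hypotheses of the norm calculus at level `M = q N`** (to be supplied by the V3 layer).
`PA, PC` = the valuation subrings `inf_N, 0_N` of `FN` (uniformiser `ϖN`); `Oa, Ob, Oc` =
`O_inf, O_mid, O_0` of `F` (uniformisers `ϖ, d, ϖ`, `ord_mid ϖ = q - 1`);
`α`: `Oa, Ob ↦ PA` (`e = 1, q - 1`, trivial residue extensions), `Oc ↦ PC` (residue extension
purely inseparable of degree `q`); `β`: `Oa ↦ PA` (inseparable), `Ob, Oc ↦ PC`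
(`e = q - 1, 1`). -/
structure Data {FN F : Type*} [Field FN] [Field F] (α β : FN →+* F) (q : ℕ)
    (PA PC : ValuationSubring FN) (Oa Ob Oc : ValuationSubring F) (ϖN : FN) (ϖ d : F) :
    Prop where
  hq : q.Prime
  finα : letI := α.toAlgebra; FiniteDimensional FN F
  sepα : letI := α.toAlgebra; Algebra.IsSeparable FN F
  degα : (letI := α.toAlgebra; finrank FN F) = q
  finβ : letI := β.toAlgebra; FiniteDimensional FN F
  sepβ : letI := β.toAlgebra; Algebra.IsSeparable FN F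
  degβ : (letI := β.toAlgebra; finrank FN F) = q
  hA : IsUnif PA ϖN
  hC : IsUnif PC ϖN
  ha : IsUnif Oa ϖ
  hb : IsUnif Ob d
  hc : IsUnif Oc ϖ
  ordb : hb.ord ϖ = (q : ℤ) - 1
  αϖ : α ϖN = ϖ
  βϖ : β ϖN = ϖ
  qA : (q : FN) ∈ PA.nonunits
  qC : (q : FN) ∈ PC.nonunits
  hAC : PA ≠ PC
  αa : Oa.comap α = PA
  αb : Ob.comap α = PA
  αc : Oc.comap α = PC
  βa : Oa.comap β = PA
  βb : Ob.comap β = PC
  βc : Oc.comap β = PC
  allαA : ∀ w : ValuationSubring F, w.comap α = PA → w = Oa ∨ w = Ob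
  allαC : ∀ w : ValuationSubring F, w.comap α = PC → w = Oc
  allβA : ∀ w : ValuationSubring F, w.comap β = PA → w = Oa
  allβC : ∀ w : ValuationSubring F, w.comap β = PC → w = Ob ∨ w = Oc
  resαa : ∀ g ∈ Oa, ∃ c ∈ PA, g - α c ∈ Oa.nonunits
  resαb : ∀ g ∈ Ob, ∃ c ∈ PA, g - α c ∈ Ob.nonunits
  resαc : ∀ g ∈ Oc, ∃ c ∈ PC, g ^ q - α c ∈ Oc.nonunits
  resβa : ∀ g ∈ Oa, ∃ c ∈ PA, g ^ q - β c ∈ Oa.nonunits
  resβb : ∀ g ∈ Ob, ∃ c ∈ PC, g - β c ∈ Ob.nonunits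
  resβc : ∀ g ∈ Oc, ∃ c ∈ PC, g - β c ∈ Oc.nonunits

namespace Data

variable {FN F : Type*} [Field FN] [Field F] {α β : FN →+* F} {q : ℕ}
  {PA PC : ValuationSubring FN} {Oa Ob Oc : ValuationSubring F} {ϖN : FN} {ϖ d : F}

theorem ne_ab (D : Data α β q PA PC Oa Ob Oc ϖN ϖ d) : Oa ≠ Ob :=
  fun h => D.hAC (by rw [← D.βa, ← D.βb, h])

theorem ne_bc (D : Data α β q PA PC Oa Ob Oc ϖN ϖ d) : Ob ≠ Oc :=
  fun h => D.hAC (by rw [← D.αb, ← D.αc, h])

theorem ne_ac (D : Data α β q PA PC Oa Ob Oc ϖN ϖ d) : Oa ≠ Oc :=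
  fun h => D.hAC (by rw [← D.αa, ← D.αc, h])

/-- **(N-1), (N-2) for `α` over `inf_N`.** -/
theorem pair_α (D : Data α β q PA PC Oa Ob Oc ϖN ϖ d) :
    (∀ y : F, y ≠ 0 → D.hA.ord (normOf α y) = D.ha.ord y + D.hb.ord y) ∧
    (∀ y : F, y ≠ 0 → y ∈ Oa → y⁻¹ ∈ Oa → y ∈ Ob → y⁻¹ ∈ Ob →
      ∃ c₁ c₂ : FN, c₁ ≠ 0 ∧ c₂ ≠ 0 ∧ y / α c₁ - 1 ∈ Oa.nonunits ∧
        y / α c₂ - 1 ∈ Ob.nonunits ∧
        normOf α y / (c₁ ^ 1 * c₂ ^ (q - 1)) - 1 ∈ PA.nonunits) := by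
  have hq1 := D.hq.one_lt
  refine pair_step α D.finα D.sepα D.hA D.ha D.hb D.ne_ab D.αa D.αb D.allαA 1 (q - 1) ?_ ?_ ?_
    D.resαa D.resαb
  · rw [D.αϖ, D.ha.ord_self, Nat.cast_one]
  · rw [D.αϖ, D.ordb, Nat.cast_sub hq1.le, Nat.cast_one]
  · rw [D.degα]
    omega

/-- **(N-1), (N-2) for `β` over `0_N`.** -/
theorem pair_β (D : Data α β q PA PC Oa Ob Oc ϖN ϖ d) :
    (∀ y : F, y ≠ 0 → D.hC.ord (normOf β y) = D.hb.ord y + D.hc.ord y) ∧
    (∀ y : F, y ≠ 0 → y ∈ Ob → y⁻¹ ∈ Ob → y ∈ Oc → y⁻¹ ∈ Oc →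
      ∃ c₁ c₂ : FN, c₁ ≠ 0 ∧ c₂ ≠ 0 ∧ y / β c₁ - 1 ∈ Ob.nonunits ∧
        y / β c₂ - 1 ∈ Oc.nonunits ∧
        normOf β y / (c₁ ^ (q - 1) * c₂ ^ 1) - 1 ∈ PC.nonunits) := by
  have hq1 := D.hq.one_lt
  refine pair_step β D.finβ D.sepβ D.hC D.hb D.hc D.ne_bc D.βb D.βc D.allβC (q - 1) 1 ?_ ?_ ?_
    D.resβb D.resβc
  · rw [D.βϖ, D.ordb, Nat.cast_sub hq1.le, Nat.cast_one]
  · rw [D.βϖ, D.hc.ord_self, Nat.cast_one]
  · rw [D.degβ]
    omega

/-- **(N-1), (N-2) for `α` over `0_N`.** -/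
theorem single_α (D : Data α β q PA PC Oa Ob Oc ϖN ϖ d) :
    (∀ y : F, y ≠ 0 → D.hC.ord (normOf α y) = q * D.hc.ord y) ∧
    (∀ y : F, y ≠ 0 → y ∈ Oc → y⁻¹ ∈ Oc → ∀ s : FN, s ≠ 0 →
      normOf α y / s - 1 ∈ PC.nonunits → y ^ q / α s - 1 ∈ Oc.nonunits) :=
  single_step α D.finα D.sepα D.hq D.degα D.hC D.hc D.αc D.allαC
    (by rw [D.αϖ, D.hc.ord_self]) D.qC D.resαc

/-- **(N-1), (N-2) for `β` over `inf_N`.** -/
theorem single_β (D : Data α β q PA PC Oa Ob Oc ϖN ϖ d) :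
    (∀ y : F, y ≠ 0 → D.hA.ord (normOf β y) = q * D.ha.ord y) ∧
    (∀ y : F, y ≠ 0 → y ∈ Oa → y⁻¹ ∈ Oa → ∀ s : FN, s ≠ 0 →
      normOf β y / s - 1 ∈ PA.nonunits → y ^ q / β s - 1 ∈ Oa.nonunits) :=
  single_step β D.finβ D.sepβ D.hq D.degβ D.hA D.ha D.βa D.allβA
    (by rw [D.βϖ, D.ha.ord_self]) D.qA D.resβa

/-- **(N-3) THE NORMAL FORM.** If both norms of `f` are of the form
`ϖN ^ n · g ^ m · (principal unit at inf_N and 0_N)` with `gcd(m, q) = 1`, then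
`f ^ ((q-1)(q+1)) = ϖ ^ j · G ^ m · f₃` with `f₃ ≡ 1` at all three valuations of `F`. -/
theorem normalForm (D : Data α β q PA PC Oa Ob Oc ϖN ϖ d) (m : ℕ) (hcop : Nat.Coprime m q)
    (f : F) (hf : f ≠ 0)
    (hfα : ∃ (n : ℤ) (g ε : FN), normOf α f = ϖN ^ n * g ^ m * ε ∧
      ε - 1 ∈ PA.nonunits ∧ ε - 1 ∈ PC.nonunits)
    (hfβ : ∃ (n : ℤ) (g ε : FN), normOf β f = ϖN ^ n * g ^ m * ε ∧
      ε - 1 ∈ PA.nonunits ∧ ε - 1 ∈ PC.nonunits) :
    ∃ (j : ℤ) (G f₃ : F), G ≠ 0 ∧ f ^ ((q - 1) * (q + 1)) = ϖ ^ j * G ^ m * f₃ ∧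
      f₃ - 1 ∈ Oa.nonunits ∧ f₃ - 1 ∈ Ob.nonunits ∧ f₃ - 1 ∈ Oc.nonunits := by
  have hq1 := D.hq.one_lt
  have hm : m ≠ 0 := by
    rintro rfl
    rw [Nat.coprime_zero_left] at hcop
    exact hq1.ne' hcop
  obtain ⟨Pα1, -⟩ := D.pair_α
  obtain ⟨Sα1, Sα2⟩ := D.single_α
  obtain ⟨Sβ1, Sβ2⟩ := D.single_β
  obtain ⟨Pβ1, Pβ2⟩ := D.pair_β
  obtain ⟨e, rfl⟩ : ∃ e, q = e + 1 := ⟨q - 1, by omega⟩
  rw [Nat.add_sub_cancel] at Pβ2
  -- elements of prescribed orders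
  obtain ⟨tb, htb0, htba, htbb, htbc⟩ := exists_ord3 D.ha D.hb D.hc D.ne_ab D.ne_bc D.ne_ac
    1 d 1 one_ne_zero D.hb.ne_zero one_ne_zero
  obtain ⟨tc, htc0, htca, htcb, htcc⟩ := exists_ord3 D.ha D.hb D.hc D.ne_ab D.ne_bc D.ne_ac
    1 1 ϖ one_ne_zero one_ne_zero D.hc.ne_zero
  -- the norm hypotheses in the additive model
  have hadd : ∀ (φ : FN →+* F), (letI := φ.toAlgebra; FiniteDimensional FN F) →
      (∃ (n : ℤ) (g ε : FN), normOf φ f = ϖN ^ n * g ^ m * ε ∧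
        ε - 1 ∈ PA.nonunits ∧ ε - 1 ∈ PC.nonunits) →
      ∃ (n : ℤ) (g ε : Additive FNˣ), normAdd φ (mkG f hf) =
        n • mkG ϖN D.hA.ne_zero + m • g + ε ∧ ε ∈ puSub PA ∧ ε ∈ puSub PC := by
    rintro φ hfin ⟨n, g, ε, hN, hεA, hεC⟩
    have hε0 : ε ≠ 0 := (pu_unit PA hεA).1
    have hg0 : g ≠ 0 := by
      rintro rfl
      rw [zero_pow hm, mul_zero, zero_mul] at hN
      exact normOf_ne_zero φ hfin hf hN
    refine ⟨n, mkG g hg0, mkG ε hε0, ?_, hεA, hεC⟩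
    apply toF_injective
    rw [toF_normAdd, toF_add, toF_add, toF_zsmul, toF_nsmul, toF_mkG, toF_mkG, toF_mkG, toF_mkG]
    exact hN
  have key := normalForm_cong (G := Additive Fˣ) (GN := Additive FNˣ) m e hm hcop
    (ordHom D.ha) (ordHom D.hb) (ordHom D.hc) (ordHom D.hA) (ordHom D.hC)
    (puSub Oa) (puSub Ob) (puSub Oc) (puSub PA) (puSub PC)
    (normAdd α) (normAdd β) (mapAdd α) (mapAdd β)
    (fun x hx => ordHom_eq_zero_of_mem D.hc hx) (fun x hx => ordHom_eq_zero_of_mem D.hA hx)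
    (fun x hx => ordHom_eq_zero_of_mem D.hC hx)
    (mkG ϖ D.ha.ne_zero) (mkG ϖN D.hA.ne_zero)
    ⟨D.ha.ord_self, by
      show D.hb.ord ϖ = e
      rw [D.ordb]
      push_cast
      ring, D.hc.ord_self⟩
    ⟨D.hA.ord_self, D.hC.ord_self⟩
    ⟨by
      apply toF_injective
      rw [toF_normAdd, toF_nsmul, toF_mkG, toF_mkG, ← D.αϖ]
      exact normOf_map α D.degα ϖN, by
      apply toF_injective
      rw [toF_normAdd, toF_nsmul, toF_mkG, toF_mkG, ← D.βϖ]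
      exact normOf_map β D.degβ ϖN⟩
    (mkG tb htb0) (mkG tc htc0)
    ⟨by
      show D.ha.ord tb = 0
      rw [htba, D.ha.ord_one], by
      show D.hb.ord tb = 1
      rw [htbb, D.hb.ord_self], by
      show D.hc.ord tb = 0
      rw [htbc, D.hc.ord_one]⟩
    ⟨by
      show D.ha.ord tc = 0
      rw [htca, D.ha.ord_one], by
      show D.hb.ord tc = 0
      rw [htcb, D.hb.ord_one], by
      show D.hc.ord tc = 1
      rw [htcc, D.hc.ord_self]⟩
    (fun x => ⟨Pα1 _ (toF_ne_zero x), by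
      have h := Sα1 _ (toF_ne_zero x)
      push_cast at h
      exact h⟩)
    (fun x => ⟨by
      have h := Sβ1 _ (toF_ne_zero x)
      push_cast at h
      exact h, Pβ1 _ (toF_ne_zero x)⟩)
    (fun g hg s hs => by
      have hu := (D.ha.ord_eq_zero_iff (toF_ne_zero g)).mp hg
      rw [mem_puSub, toF_sub, toF_normAdd] at hs
      rw [mem_puSub, toF_sub, toF_nsmul, toF_mapAdd]
      exact Sβ2 (toF g) (toF_ne_zero g) hu.1 hu.2 (toF s) (toF_ne_zero s) hs)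
    (fun g hg s hs => by
      have hu := (D.hc.ord_eq_zero_iff (toF_ne_zero g)).mp hg
      rw [mem_puSub, toF_sub, toF_normAdd] at hs
      rw [mem_puSub, toF_sub, toF_nsmul, toF_mapAdd]
      exact Sα2 (toF g) (toF_ne_zero g) hu.1 hu.2 (toF s) (toF_ne_zero s) hs)
    (fun g hgb hgc => by
      have ub := (D.hb.ord_eq_zero_iff (toF_ne_zero g)).mp hgb
      have uc := (D.hc.ord_eq_zero_iff (toF_ne_zero g)).mp hgc
      obtain ⟨c₁, c₂, h10, h20, h1, h2, h3⟩ := Pβ2 (toF g) (toF_ne_zero g) ub.1 ub.2 uc.1 uc.2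
      refine ⟨mkG c₁ h10, mkG c₂ h20, ?_, ?_, ?_⟩
      · rw [mem_puSub, toF_sub, toF_mapAdd, toF_mkG]
        exact h1
      · rw [mem_puSub, toF_sub, toF_mapAdd, toF_mkG]
        exact h2
      · rw [mem_puSub, toF_sub, toF_normAdd, toF_add, toF_nsmul, toF_mkG, toF_mkG]
        rw [pow_one] at h3
        exact h3)
    (fun z hz => by
      have uc := (D.hc.ord_eq_zero_iff (toF_ne_zero z)).mp hz
      obtain ⟨c, -, hzc⟩ := D.resβc (toF z) uc.1
      obtain ⟨h0, -, h2⟩ := unit_of_sub_mem_nonunits Oc uc.1 uc.2 (toF_ne_zero z) hzc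
      have hc0 : c ≠ 0 := fun h => h0 (by rw [h, map_zero])
      refine ⟨mkG c hc0, ?_⟩
      rw [mem_puSub, toF_sub, toF_mapAdd, toF_mkG]
      exact pu_of_sub Oc h2 h0 hzc)
    (fun x hx => by
      rw [mem_puSub, toF_mapAdd] at hx
      rw [mem_puSub, ← D.βc, mem_nonunits_comap_iff, map_sub, map_one]
      exact hx)
    (fun x hx => by
      rw [mem_puSub, ← D.βb, mem_nonunits_comap_iff, map_sub, map_one] at hx
      rw [mem_puSub, toF_mapAdd]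
      exact hx)
    (fun x y z => by
      obtain ⟨H, hH0, h1, h2, h3⟩ := exists_approx3 D.ha D.hb D.hc D.ne_ab D.ne_bc D.ne_ac
        (toF x) (toF y) (toF z) (toF_ne_zero x) (toF_ne_zero y) (toF_ne_zero z)
      refine ⟨mkG H hH0, ?_, ?_, ?_⟩
      · rw [mem_puSub, toF_sub, toF_mkG]
        exact h1
      · rw [mem_puSub, toF_sub, toF_mkG]
        exact h2
      · rw [mem_puSub, toF_sub, toF_mkG]
        exact h3)
    (mkG f hf) (hadd α D.finα hfα) (hadd β D.finβ hfβ)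
  obtain ⟨j, Gm, f₃, hE, h1, h2, h3⟩ := key
  refine ⟨j, toF Gm, toF f₃, toF_ne_zero _, ?_, h1, h2, h3⟩
  have h4 := congrArg toF hE
  rw [toF_nsmul, toF_add, toF_add, toF_zsmul, toF_nsmul, toF_mkG, toF_mkG] at h4
  rw [Nat.add_sub_cancel]
  exact h4

/-- **(N-4) for `α`, branch `inf_N`**: values at a point of `C_inf ∩ C_mid` above a point `W`
of `inf_N`. -/
theorem point_αA (D : Data α β q PA PC Oa Ob Oc ϖN ϖ d) {W : ValuationSubring FN}
    {Wa Wb : ValuationSubring F} (hWa : Wa ≤ Oa) (hWb : Wb ≤ Ob) (hca : Wa.comap α = W)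
    (hcb : Wb.comap α = W) {y : F} (hy0 : y ≠ 0) (hya : y ∈ Wa) (hya' : y⁻¹ ∈ Wa)
    (hyb : y ∈ Wb) (hyb' : y⁻¹ ∈ Wb) {c₁ c₂ : FN} (hc₁ : c₁ ∈ W) (hc₂ : c₂ ∈ W)
    (h₁ : y - α c₁ ∈ Wa.nonunits) (h₂ : y - α c₂ ∈ Wb.nonunits) :
    normOf α y - c₁ * c₂ ^ (q - 1) ∈ W.nonunits := by
  have hq1 := D.hq.one_lt
  have h := pair_point α D.finα D.sepα D.hA D.ha D.hb D.ne_ab D.αa D.αb D.allαA 1 (q - 1)
    (by rw [D.αϖ, D.ha.ord_self, Nat.cast_one])
    (by rw [D.αϖ, D.ordb, Nat.cast_sub hq1.le, Nat.cast_one])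
    (by rw [D.degα]; omega) D.resαa D.resαb hWa hWb hca hcb hy0 hya hya' hyb hyb' hc₁ hc₂ h₁ h₂
  rwa [pow_one] at h

/-- **(N-4) for `β`, branch `0_N`**: values at a point of `C_mid ∩ C_0` above a point `W` of
`0_N`. -/
theorem point_βC (D : Data α β q PA PC Oa Ob Oc ϖN ϖ d) {W : ValuationSubring FN}
    {Wb Wc : ValuationSubring F} (hWb : Wb ≤ Ob) (hWc : Wc ≤ Oc) (hcb : Wb.comap β = W)
    (hcc : Wc.comap β = W) {y : F} (hy0 : y ≠ 0) (hyb : y ∈ Wb) (hyb' : y⁻¹ ∈ Wb)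
    (hyc : y ∈ Wc) (hyc' : y⁻¹ ∈ Wc) {c₁ c₂ : FN} (hc₁ : c₁ ∈ W) (hc₂ : c₂ ∈ W)
    (h₁ : y - β c₁ ∈ Wb.nonunits) (h₂ : y - β c₂ ∈ Wc.nonunits) :
    normOf β y - c₁ ^ (q - 1) * c₂ ∈ W.nonunits := by
  have hq1 := D.hq.one_lt
  have h := pair_point β D.finβ D.sepβ D.hC D.hb D.hc D.ne_bc D.βb D.βc D.allβC (q - 1) 1
    (by rw [D.βϖ, D.ordb, Nat.cast_sub hq1.le, Nat.cast_one])
    (by rw [D.βϖ, D.hc.ord_self, Nat.cast_one])
    (by rw [D.degβ]; omega) D.resβb D.resβc hWb hWc hcb hcc hy0 hyb hyb' hyc hyc' hc₁ hc₂ h₁ h₂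
  rwa [pow_one] at h

/-- **(N-4) for `α`, branch `0_N`**: `y ^ q ≡ α c` at a point of `C_0` gives `Nα y ≡ c` below. -/
theorem point_αC (D : Data α β q PA PC Oa Ob Oc ϖN ϖ d) {W : ValuationSubring FN}
    {Wc : ValuationSubring F} (hWc : Wc ≤ Oc) (hcc : Wc.comap α = W) {y : F} (hy0 : y ≠ 0)
    (hyc : y ∈ Wc) (hyc' : y⁻¹ ∈ Wc) {c : FN} (h : y ^ q - α c ∈ Wc.nonunits) :
    normOf α y - c ∈ W.nonunits :=
  single_point α D.finα D.sepα D.hq D.degα D.hC D.hc D.αc D.allαC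
    (by rw [D.αϖ, D.hc.ord_self]) D.qC D.resαc hWc hcc hy0 hyc hyc' h

/-- **(N-4) for `β`, branch `inf_N`**: `y ^ q ≡ β c` at a point of `C_inf` gives `Nβ y ≡ c`
below. -/
theorem point_βA (D : Data α β q PA PC Oa Ob Oc ϖN ϖ d) {W : ValuationSubring FN}
    {Wa : ValuationSubring F} (hWa : Wa ≤ Oa) (hca : Wa.comap β = W) {y : F} (hy0 : y ≠ 0)
    (hya : y ∈ Wa) (hya' : y⁻¹ ∈ Wa) {c : FN} (h : y ^ q - β c ∈ Wa.nonunits) :
    normOf β y - c ∈ W.nonunits :=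
  single_point β D.finβ D.sepβ D.hq D.degβ D.hA D.ha D.βa D.allβA
    (by rw [D.βϖ, D.ha.ord_self]) D.qA D.resβa hWa hca hy0 hya hya' h

/-- The normal form with the norm hypotheses in the shape "constant times an `m`-th power",
for any set `Cst` of "constants" each of which is `ϖN ^ n · c' ^ m · (principal unit)`. -/
theorem normalForm_of_const (D : Data α β q PA PC Oa Ob Oc ϖN ϖ d) (m : ℕ)
    (hcop : Nat.Coprime m q) (Cst : Set FN)
    (hCst : ∀ c ∈ Cst, c ≠ 0 → ∃ (n : ℤ) (c' ε : FN), c = ϖN ^ n * c' ^ m * ε ∧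
      ε - 1 ∈ PA.nonunits ∧ ε - 1 ∈ PC.nonunits)
    (f : F) (hf : f ≠ 0)
    (hfα : ∃ c ∈ Cst, ∃ g : FN, normOf α f = c * g ^ m)
    (hfβ : ∃ c ∈ Cst, ∃ g : FN, normOf β f = c * g ^ m) :
    ∃ (j : ℤ) (G f₃ : F), G ≠ 0 ∧ f ^ ((q - 1) * (q + 1)) = ϖ ^ j * G ^ m * f₃ ∧
      f₃ - 1 ∈ Oa.nonunits ∧ f₃ - 1 ∈ Ob.nonunits ∧ f₃ - 1 ∈ Oc.nonunits := by
  have conv : ∀ (φ : FN →+* F), (letI := φ.toAlgebra; FiniteDimensional FN F) →
      (∃ c ∈ Cst, ∃ g : FN, normOf φ f = c * g ^ m) →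
      ∃ (n : ℤ) (g ε : FN), normOf φ f = ϖN ^ n * g ^ m * ε ∧
        ε - 1 ∈ PA.nonunits ∧ ε - 1 ∈ PC.nonunits := by
    rintro φ hfin ⟨c, hc, g, hN⟩
    have hc0 : c ≠ 0 := by
      rintro rfl
      rw [zero_mul] at hN
      exact normOf_ne_zero φ hfin hf hN
    obtain ⟨n, c', ε, hce, hεA, hεC⟩ := hCst c hc hc0
    refine ⟨n, c' * g, ε, ?_, hεA, hεC⟩
    rw [hN, hce]
    ring
  exact D.normalForm m hcop f hf (conv α D.finα hfα) (conv β D.finβ hfβ)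

end Data

end Fermat.Agent.CAR.Formal.NF
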