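/-
CAR-9 (F-a) — the divisor dictionary for the inertia clause of `TorsionNewInertia` and the
descent of Kummer generators to the inertia field (helper44, task 331).

* `NewInertiaAt N q p A` : the inertia clause of `CAR.TorsionNewInertia (N * q) N q p` at `A` for
  the concrete level push-forwards `levelPushAlpha N q`, `levelPushBeta N q`.
* `newInertiaAt_of_divisors` (D-1) : the clause from its divisor form.
* `exists_canonical_kummer`, `exists_invariant_kummer` (D-2) : a Kummer pair `(D, f)`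
  (`m • D = div f`) can be replaced by a linearly equivalent pair `(D', f')`, `f'` of leading
  `q`-coefficient `1`, such that EVERY automorphism `σ` with `σ D ~ D` fixes `f'` and `D'`
  (canonical representatives of `ESJ/Jac/DescentCore`; no Hilbert 90 needed).
* `exists_norm_root`, `norm_root_invariant` (D-3) : if the push-forward of `D'` is principal, the
  norm of `f'` is `c * g ^ m` with `g` of leading coefficient `1`; `g` and `c` are fixed by every
  `σ` fixing `D'` and `f'`.
* `exists_bcK_eq_of_invariant` (D-4) : an element of `ℚ̄·F_M` fixed by a set `Γ` of automorphisms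
  comes from `K0·F_M` for every intermediate field `K0` containing the `Γ`-invariants of `ℚ̄`.
* `newInertiaAt_of_rational` (D-5) : `NewInertiaAt` from a statement about `K0`-rational Kummer
  generators whose two norms are `K0`-rational `m`-th powers up to constants of `K0`.
-/
import Mathlib
import Fermat.Agent.BAD.Dict
import Fermat.Agent.ESJ.Cong.LevelPush
import Fermat.Agent.ESJ.Jac.DescentOf
import Fermat.Agent.ESJ.Jac.FinDimK
import Fermat.Agent.ESJ.Jac.Const
import Fermat.Agent.ESJ.Dict.Bc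
import Fermat.Agent.ESJ.HeckeInputs

set_option autoImplicit false
set_option linter.style.haveILetI false
set_option linter.unusedSectionVars false

noncomputable section

namespace Fermat.Agent.CAR.Formal.Descent

open AlgebraicCurve ModularCurve
open Fermat.Agent.S24 Fermat.Agent.S24.Counting
open Fermat.Agent.BAD.Dict Fermat.Agent.ESJ.Cong Fermat.Agent.ESJ.Jac
open Fermat.Agent.ESJ.Jac.DescentCore Fermat.Agent.ESJ.LevelDesc Fermat.Agent.ESJ.HeckeInputs

local notation "Qb" => AlgebraicClosure ℚ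
local notation "GQ" => (AlgebraicClosure ℚ ≃ₐ[ℚ] AlgebraicClosure ℚ)

/-! ### (D-1) the divisor dictionary -/

/-- The inertia clause of `CAR.TorsionNewInertia (N * q) N q p` at the valuation subring `A`, for
the concrete level push-forwards. -/
def NewInertiaAt (N q p : ℕ) [NeZero N] [NeZero q] (A : ValuationSubring Qb) : Prop :=
  ∃ c : ℕ, c ≠ 0 ∧ ∀ x : JZero (N * q), (∃ n : ℕ, p ^ n • x = 0) →
    levelPushAlpha N q x = 0 → levelPushBeta N q x = 0 →
    (∀ σ ∈ A.inertiaSubgroupIn ℚ, σ • x = x) → c • x = 0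

/-- The divisor form of `NewInertiaAt`. -/
def NewInertiaDivAt (N q p : ℕ) [NeZero N] [NeZero q] (A : ValuationSubring Qb) : Prop :=
  ∃ c : ℕ, c ≠ 0 ∧ ∀ (n : ℕ) (D : Divisor Qb (FNK Qb (N * q))) (f : FNK Qb (N * q)),
    Divisor.degree D = 0 → IsDiv (p ^ n • D) f →
    Divisor.pushforwardAlong (heckeAlphaBar Qb N q) (heckeAlphaBarIntegral N q) D
      ∈ Divisor.principal (K := Qb) (F := FNK Qb N) →
    Divisor.pushforwardAlong (heckeBetaBar Qb N q) (heckeBetaBarIntegral N q) D
      ∈ Divisor.principal (K := Qb) (F := FNK Qb N) →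
    (∀ σ ∈ A.inertiaSubgroupIn ℚ,
      arithmeticGalois (modularFunctionFieldFull (N * q)) σ • D - D
        ∈ Divisor.principal (K := Qb) (F := FNK Qb (N * q))) →
    c • D ∈ Divisor.principal (K := Qb) (F := FNK Qb (N * q))

/-- **(D-1)** the inertia clause from its divisor form. -/
theorem newInertiaAt_of_divisors (N q p : ℕ) [NeZero N] [NeZero q] (A : ValuationSubring Qb)
    (H : NewInertiaDivAt N q p A) : NewInertiaAt N q p A := by
  obtain ⟨c, hc, H⟩ := H
  refine ⟨c, hc, fun x hx hα hβ hσ => ?_⟩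
  obtain ⟨n, hn⟩ := hx
  obtain ⟨D, f, rfl, hD⟩ := exists_kummer (p ^ n) x hn
  rw [levelPushAlpha_mk, mk_eq_zero_iff] at hα
  rw [levelPushBeta_mk, mk_eq_zero_iff] at hβ
  have hσ' : ∀ σ ∈ A.inertiaSubgroupIn ℚ,
      arithmeticGalois (modularFunctionFieldFull (N * q)) σ • (D : Divisor Qb (FNK Qb (N * q)))
        - D ∈ Divisor.principal (K := Qb) (F := FNK Qb (N * q)) := by
    intro σ hσI
    have h1 := hσ σ hσI
    rw [galois_smul_pic0_def, smul_mk, ← sub_eq_zero, ← mk_sub, mk_eq_zero_iff] at h1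
    exact h1
  have key := H n (D : Divisor Qb (FNK Qb (N * q))) f D.2 hD hα hβ hσ'
  rw [← mk_nsmul, mk_eq_zero_iff]
  exact key

/-! ### (D-2) canonical Kummer generators -/

section Canon

variable (K : Type) [Field K] [Algebra ℚ K] [IsAlgClosed K] (N : ℕ) [NeZero N]

theorem isDiv_pow {D : Divisor K (FNK K N)} {f : FNK K N} (h : IsDiv D f) (m : ℕ) :
    IsDiv (m • D) (f ^ m) :=
  ⟨pow_ne_zero m h.1, fun v => by
    rw [Finsupp.smul_apply, h.2 v, ord_pow_nat v h.1, nsmul_eq_mul]⟩

theorem isDiv_unique {D D' : Divisor K (FNK K N)} {f : FNK K N} (h : IsDiv D f)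
    (h' : IsDiv D' f) : D = D' :=
  Finsupp.ext fun v => (h.2 v).trans (h'.2 v).symm

theorem nsmul_divisor_injective {m : ℕ} (hm : 0 < m) {D D' : Divisor K (FNK K N)}
    (h : m • D = m • D') : D = D' := by
  ext v
  have h1 := DFunLike.congr_fun h v
  rw [Finsupp.smul_apply, Finsupp.smul_apply, nsmul_eq_mul, nsmul_eq_mul] at h1
  exact mul_left_cancel₀ (Nat.cast_ne_zero.mpr hm.ne') h1

set_option maxHeartbeats 1000000 in
/-- **Canonical Kummer generator**: for a Kummer pair `(D, f)` (`m • D = div f`) there is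
`x ≠ 0` such that `x ^ m * f` has leading `q`-coefficient `1` and is fixed by every
coefficientwise automorphism `σ` with `σ D - D` principal. -/
theorem exists_canonical_kummer {m : ℕ} (hm : 0 < m) (D : Divisor K (FNK K N)) (f : FNK K N)
    (hD : IsDiv (m • D) f) :
    ∃ (x : FNK K N) (E : Divisor K (FNK K N)), IsDiv E x ∧
      ((x ^ m * f : FNK K N) : LaurentSeries K).leadingCoeff = 1 ∧
      ∀ σ : K ≃ₐ[ℚ] K,
        arithmeticGalois (modularFunctionFieldFull N) σ • D - D
          ∈ Divisor.principal (K := K) (F := FNK K N) →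
        arithmeticGalois (modularFunctionFieldFull N) σ • (x ^ m * f) = x ^ m * f := by
  classical
  haveI : CharZero K := algebraRat.charZero K
  haveI := FinDimK.hasPrincipalDivisors_FNK K N
  haveI := FinDimK.finiteDimensional_jBarK K N
  set ι : FNK K N →ₐ[K] LaurentSeries K :=
    (laurentBaseChange K (modularFunctionFieldFull N)).val with hι
  have hjord := order_jBarK_ne_zero K N
  have hj0 : jBarK K N ≠ 0 := fun h => hjord (by rw [h]; exact HahnSeries.order_zero)
  have hjc : ∀ c : K, jBarK K N - algebraMap K (FNK K N) c ≠ 0 := by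
    intro c h
    apply hjord
    rw [sub_eq_zero.mp h]
    show (algebraMap K (LaurentSeries K) c).order = 0
    rw [algebraMap_laurentSeries_eq_single]
    by_cases hc : c = 0
    · rw [hc, HahnSeries.single_eq_zero, HahnSeries.order_zero]
    · exact HahnSeries.order_single hc
  have hres := FinDimK.residueTrivial_FNK K N
  obtain ⟨m', hex⟩ := exists_adm (K := K) (j := jBarK K N) hm hD.1
    (fun v hv => exists_value_of_residueTrivial (hres v) hjc hv)
  obtain ⟨v₀, e, -, hv₀⟩ := exists_place_qorder (L := K) (modularFunctionFieldFull N)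
    (jBarK K N) hjord
  have hbdd := exists_bound (K := K) (fun v => deg_eq_one_of_residueTrivial (hres v))
    (fun f : FNK K N => (f : LaurentSeries K).order) v₀ (e : ℤ)
    (Nat.cast_nonneg e) hv₀ hj0 hD.1 hm m'
  obtain ⟨y, hy⟩ := exists_isCanon (ι := ι) hm hD.1 hex hbdd
  obtain ⟨x, hx, -, hyx, hlc⟩ := id hy
  obtain ⟨E, hE, -⟩ := HasPrincipalDivisors.exists_divisor (K := K) x hx.1
  refine ⟨x, E, ⟨hx.1, hE⟩, hyx ▸ hlc, fun σ hσ => ?_⟩
  obtain ⟨h, hh0, hh⟩ := hσ
  set g := arithmeticGalois (modularFunctionFieldFull N) σ with hg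
  have h1 : IsDiv (m • (g • D - D)) (g • f / f) := kummer_smul_sub g hD
  have hord : ∀ v : Place K (FNK K N), v.ord (g • f / f) = m * v.ord h := by
    intro v
    rw [← h1.2 v, Finsupp.smul_apply, hh v, nsmul_eq_mul]
  obtain ⟨c, hc, hcf⟩ := Const.exists_eq_const_mul_pow (jBarK K N) h1.1 hh0 hord
  obtain ⟨b, hb⟩ := IsAlgClosed.exists_pow_nat_eq c hm
  have hb0 : b ≠ 0 := by
    rintro rfl
    rw [zero_pow hm.ne'] at hb
    exact hc hb.symm
  have hgf : g • f = (algebraMap K (FNK K N) b * h) ^ m * f := by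
    rw [mul_pow, ← map_pow, hb, ← hcf, div_mul_cancel₀ _ hD.1]
  have hcan1 : IsCanon ι (jBarK K N) m m' (g • f) (g • y) := by
    refine hy.smul g (σ : K →+* K) ((σ⁻¹ : K ≃ₐ[ℚ] K) : K →+* K)
      (fun x => rfl) (fun x => ?_) (arithmeticGalois_smul_jBarK N σ)
    rw [hg, ← map_inv]
    rfl
  rw [hgf] at hcan1
  have hcan2 : IsCanon ι (jBarK K N) m m' ((algebraMap K (FNK K N) b * h) ^ m * f) y :=
    hy.mul_pow hD.1 (mul_ne_zero ((map_ne_zero _).mpr hb0) hh0)
  rw [← hyx]
  exact IsCanon.unique hcan1 hcan2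

/-- **(D-2)** a Kummer pair `(D, f)` (`m • D = div f`) is linearly equivalent to a pair
`(D', f')` with `f'` of leading `q`-coefficient `1` such that every coefficientwise automorphism
`σ` with `σ D - D` principal fixes `f'` and `D'`. -/
theorem exists_invariant_kummer {m : ℕ} (hm : 0 < m) (D : Divisor K (FNK K N)) (f : FNK K N)
    (hD : IsDiv (m • D) f) :
    ∃ (D' : Divisor K (FNK K N)) (f' : FNK K N),
      D' - D ∈ Divisor.principal (K := K) (F := FNK K N) ∧ IsDiv (m • D') f' ∧
      (f' : LaurentSeries K).leadingCoeff = 1 ∧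
      ∀ σ : K ≃ₐ[ℚ] K,
        arithmeticGalois (modularFunctionFieldFull N) σ • D - D
          ∈ Divisor.principal (K := K) (F := FNK K N) →
        arithmeticGalois (modularFunctionFieldFull N) σ • f' = f' ∧
          arithmeticGalois (modularFunctionFieldFull N) σ • D' = D' := by
  obtain ⟨x, E, hE, hlc, hfix⟩ := exists_canonical_kummer K N hm D f hD
  have hD' : IsDiv (m • (D + E)) (x ^ m * f) := by
    rw [smul_add, add_comm]
    exact isDiv_mul (isDiv_pow K N hE m) hD
  refine ⟨D + E, x ^ m * f, ?_, hD', hlc, fun σ hσ => ⟨hfix σ hσ, ?_⟩⟩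
  · rw [add_sub_cancel_left]
    exact hE.principal
  · have h1 := isDiv_smul (arithmeticGalois (modularFunctionFieldFull N) σ) hD'
    rw [hfix σ hσ] at h1
    have h2 := isDiv_unique K N h1 hD'
    rw [smul_comm] at h2
    exact nsmul_divisor_injective K N hm h2

end Canon

/-! ### (D-3) norms -/

section NormGeneral

variable {K F F' : Type*} [Field K] [Field F] [Field F'] [Algebra K F] [Algebra K F']

/-- The norm along an embedding of function fields. -/
def normAlong (φ : F →ₐ[K] F') : F' →* F :=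
  letI := algebraAlong φ
  Algebra.norm F

/-- The norm commutes with intertwined semilinear automorphisms. -/
theorem normAlong_smul (φ : F →ₐ[K] F') {g : SemilinearAut K F} {g' : SemilinearAut K F'}
    (hint : SemilinearAut.IntertwinesAlong (φ : F →+* F') g g') (x : F') :
    normAlong φ (g' • x) = g • normAlong φ x := by
  letI := algebraAlong φ
  have h := Algebra.norm_eq_of_equiv_equiv (SemilinearAut.toRingAut g)
    (SemilinearAut.toRingAut g') (RingHom.ext fun y => (hint y).symm) x
  show Algebra.norm F (g' • x) = g • Algebra.norm F x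
  rw [h]
  exact ((SemilinearAut.toRingAut g).apply_symm_apply _).symm

/-- The norm formula: the push-forward of the divisor of `f` is the divisor of the norm. -/
theorem ord_normAlong (φ : F →ₐ[K] F') (hφ : φ.toRingHom.IsIntegral) (hfin : FiniteAlong K φ)
    (hN : NormFormulaAlong K φ hfin) {f : F'} {D : Divisor K F'} (hD : IsDiv D f)
    (v : Place K F) : Divisor.pushforwardAlong φ hφ D v = v.ord (normAlong φ f) := by
  letI := algebraAlong φ
  haveI := isScalarTower_along φ
  haveI := isIntegral_along φ hφ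
  haveI : Module.Finite F F' := hfin
  exact hN f hD.1 D hD.2 v

theorem normAlong_ne_zero (φ : F →ₐ[K] F') (hfin : FiniteAlong K φ) {f : F'} (hf : f ≠ 0) :
    normAlong φ f ≠ 0 := by
  letI := algebraAlong φ
  haveI : Module.Finite F F' := hfin
  exact Algebra.norm_ne_zero_iff.mpr hf

end NormGeneral

section Norm

variable {K : Type} [Field K] [Algebra ℚ K] [IsAlgClosed K] {N M : ℕ} [NeZero N] [NeZero M]
  (φ : FNK K N →ₐ[K] FNK K M) (hφ : φ.toRingHom.IsIntegral)

/-- **(D-3)** if the push-forward of `D'` is principal (`m • D' = div f'`), the norm of `f'` is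
`c * g ^ m` for a constant `c` and the generator `g` of leading `q`-coefficient `1` of the
push-forward. -/
theorem exists_norm_root (hfin : FiniteAlong K φ) (hN : NormFormulaAlong K φ hfin) {m : ℕ}
    (D' : Divisor K (FNK K M)) (f' : FNK K M) (hD' : IsDiv (m • D') f')
    (hpush : Divisor.pushforwardAlong φ hφ D' ∈ Divisor.principal (K := K) (F := FNK K N)) :
    ∃ (g : FNK K N) (c : K), c ≠ 0 ∧ IsDiv (Divisor.pushforwardAlong φ hφ D') g ∧
      (g : LaurentSeries K).leadingCoeff = 1 ∧
      normAlong φ f' = algebraMap K (FNK K N) c * g ^ m := by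
  haveI : CharZero K := algebraRat.charZero K
  haveI := FinDimK.finiteDimensional_jBarK K N
  obtain ⟨g₀, hg₀, hdiv⟩ := hpush
  set a : K := (g₀ : LaurentSeries K).leadingCoeff with ha
  have ha0 : a ≠ 0 := HahnSeries.leadingCoeff_ne_zero.mpr (fun h => hg₀ (Subtype.ext h))
  set g : FNK K N := a⁻¹ • g₀ with hgdef
  have hg0 : g ≠ 0 := by
    rw [hgdef, Algebra.smul_def]
    exact mul_ne_zero ((map_ne_zero _).mpr (inv_ne_zero ha0)) hg₀
  have hgdiv : IsDiv (Divisor.pushforwardAlong φ hφ D') g :=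
    ⟨hg0, fun v => by rw [hdiv v, hgdef, ord_const_smul v (inv_ne_zero ha0) hg₀]⟩
  have hglc : (g : LaurentSeries K).leadingCoeff = 1 := by
    have e : (g : LaurentSeries K) = HahnSeries.single (0 : ℤ) a⁻¹ * (g₀ : LaurentSeries K) :=
      map_const_smul (laurentBaseChange K (modularFunctionFieldFull N)).val a⁻¹ g₀
    rw [e, leadingCoeff_single_mul, ← ha, inv_mul_cancel₀ ha0]
  have hNf : ∀ v : Place K (FNK K N), v.ord (normAlong φ f') = m * v.ord g := by
    intro v
    have h1 := ord_normAlong φ hφ hfin hN hD' v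
    rw [← h1, map_nsmul, Finsupp.smul_apply, hgdiv.2 v, nsmul_eq_mul]
  have hnorm0 : normAlong φ f' ≠ 0 := normAlong_ne_zero φ hfin hD'.1
  obtain ⟨c, hc, hcf⟩ := Const.exists_eq_const_mul_pow (jBarK K N) hnorm0 hg0 hNf
  exact ⟨g, c, hc, hgdiv, hglc, hcf⟩

set_option maxHeartbeats 1000000 in
/-- **(D-3), invariance**: the normalised generator `g` of the push-forward and the constant `c`
with `N f' = c * g ^ m` are fixed by every coefficientwise automorphism fixing `D'` and `f'`. -/
theorem norm_root_invariant {m : ℕ} {D' : Divisor K (FNK K M)} {f' : FNK K M} {g : FNK K N}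
    {c : K} (hg : IsDiv (Divisor.pushforwardAlong φ hφ D') g)
    (hglc : (g : LaurentSeries K).leadingCoeff = 1)
    (hc : normAlong φ f' = algebraMap K (FNK K N) c * g ^ m) (σ : K ≃ₐ[ℚ] K)
    (hint : SemilinearAut.IntertwinesAlong (φ : FNK K N →+* FNK K M)
      (arithmeticGalois (modularFunctionFieldFull N) σ)
      (arithmeticGalois (modularFunctionFieldFull M) σ))
    (hσD : arithmeticGalois (modularFunctionFieldFull M) σ • D' = D')
    (hσf : arithmeticGalois (modularFunctionFieldFull M) σ • f' = f') :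
    arithmeticGalois (modularFunctionFieldFull N) σ • g = g ∧ σ c = c := by
  haveI : CharZero K := algebraRat.charZero K
  haveI := FinDimK.finiteDimensional_jBarK K N
  set s := arithmeticGalois (modularFunctionFieldFull N) σ with hs
  have h1 : IsDiv (s • Divisor.pushforwardAlong φ hφ D') (s • g) := isDiv_smul s hg
  rw [← comm_pushforwardAlong φ hφ hint, hσD] at h1
  obtain ⟨a, ha, hag⟩ := Const.exists_eq_const_mul_pow (n := 1) (jBarK K N) h1.1 hg.1
    (fun v => by rw [← h1.2 v, hg.2 v, Nat.cast_one, one_mul])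
  rw [pow_one] at hag
  have hlc1 : ((s • g : FNK K N) : LaurentSeries K).leadingCoeff = 1 := by
    rw [hs, coe_arithmeticGalois_smul, leadingCoeff_coeffMap, hglc, map_one]
  have hlc2 : ((algebraMap K (FNK K N) a * g : FNK K N) : LaurentSeries K).leadingCoeff = a := by
    have e : ((algebraMap K (FNK K N) a * g : FNK K N) : LaurentSeries K)
        = HahnSeries.single (0 : ℤ) a * (g : LaurentSeries K) := by
      rw [← Algebra.smul_def]
      exact map_const_smul (laurentBaseChange K (modularFunctionFieldFull N)).val a g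
    rw [e, leadingCoeff_single_mul, hglc, mul_one]
  have ha1 : a = 1 := by rw [← hlc2, ← hag, hlc1]
  have hsg : s • g = g := by rw [hag, ha1, map_one, one_mul]
  refine ⟨hsg, ?_⟩
  have hnorm := normAlong_smul φ hint f'
  rw [hσf, hc, smul_mul', smul_pow', hsg, SemilinearAut.smul_algebraMap] at hnorm
  have h2 : algebraMap K (FNK K N) c = algebraMap K (FNK K N) (σ c) :=
    mul_right_cancel₀ (pow_ne_zero m hg.1) hnorm
  exact ((algebraMap K (FNK K N)).injective h2).symm

end Norm

/-! ### (D-4) descent of invariant elements to an intermediate field -/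

open Fermat.Agent.ESJ.Dict.Bc in
/-- **(D-4)** an element of `ℚ̄·F_M` fixed by a set `Γ` of automorphisms is the coefficientwise
image of an element of `K0·F_M`, for every intermediate field `K0` containing the
`Γ`-invariants of `ℚ̄`. -/
theorem exists_bcK_eq_of_invariant (K0 : IntermediateField ℚ Qb) (Γ : Set GQ)
    (hK0 : ∀ x : Qb, (∀ σ ∈ Γ, σ x = x) → x ∈ K0) (M : ℕ) (f : FNK Qb M)
    (hf : ∀ σ ∈ Γ, arithmeticGalois (modularFunctionFieldFull M) σ • f = f) :
    ∃ f₀ : FNK K0 M, bcK (algebraMap K0 Qb) (modularFunctionFieldFull M) f₀ = f := by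
  refine mem_range_bcK (algebraMap K0 Qb) _ f (fun k => ?_)
  have hk : (f : LaurentSeries Qb).coeff k ∈ K0 := by
    refine hK0 _ (fun σ hσ => ?_)
    have h1 := congrArg (fun y : FNK Qb M => (y : LaurentSeries Qb).coeff k) (hf σ hσ)
    simp only [coe_arithmeticGalois_smul, coeffMap_coeff] at h1
    exact h1
  exact ⟨⟨_, hk⟩, rfl⟩

/-! ### (D-5) the rational form of the inertia clause -/

section Rational

open Fermat.Agent.ESJ.Dict.Bc

set_option synthInstance.maxHeartbeats 400000 in
/-- The `K0`-rational form of the inertia clause: for every `K0`-rational function `f` whose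
divisor (over `ℚ̄`) is divisible by `p ^ n` and whose two norms to level `N` are `K0`-rational
`p ^ n`-th powers up to constants of `K0`, the power `f ^ c` is a `p ^ n`-th power up to a
constant (over `ℚ̄`). -/
def NewInertiaRatAt (N q p : ℕ) [NeZero N] [NeZero q] (K0 : IntermediateField ℚ Qb) : Prop :=
  ∃ c : ℕ, c ≠ 0 ∧ ∀ (n : ℕ) (f : FNK K0 (N * q)), f ≠ 0 →
    (∃ D : Divisor Qb (FNK Qb (N * q)),
      IsDiv (p ^ n • D) (bcK (algebraMap K0 Qb) (modularFunctionFieldFull (N * q)) f)) →
    (∃ (a : K0) (g : FNK K0 N), a ≠ 0 ∧ g ≠ 0 ∧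
      normAlong (heckeAlphaBar Qb N q)
          (bcK (algebraMap K0 Qb) (modularFunctionFieldFull (N * q)) f)
        = bcK (algebraMap K0 Qb) (modularFunctionFieldFull N)
            (algebraMap K0 (FNK K0 N) a * g ^ (p ^ n))) →
    (∃ (a : K0) (g : FNK K0 N), a ≠ 0 ∧ g ≠ 0 ∧
      normAlong (heckeBetaBar Qb N q)
          (bcK (algebraMap K0 Qb) (modularFunctionFieldFull (N * q)) f)
        = bcK (algebraMap K0 Qb) (modularFunctionFieldFull N)
            (algebraMap K0 (FNK K0 N) a * g ^ (p ^ n))) →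
    ∃ (b : Qb) (h : FNK Qb (N * q)), b ≠ 0 ∧ h ≠ 0 ∧
      (bcK (algebraMap K0 Qb) (modularFunctionFieldFull (N * q)) f) ^ c
        = algebraMap Qb (FNK Qb (N * q)) b * h ^ (p ^ n)

/-- A nonzero constant multiple of a power has the divisor of the power. -/
theorem isDiv_const_mul_pow {M : ℕ} [NeZero M] {E : Divisor Qb (FNK Qb M)} {h : FNK Qb M}
    (hE : IsDiv E h) {b : Qb} (hb : b ≠ 0) (m : ℕ) :
    IsDiv (m • E) (algebraMap Qb (FNK Qb M) b * h ^ m) := by
  have h1 := isDiv_pow Qb M hE m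
  refine ⟨mul_ne_zero ((map_ne_zero _).mpr hb) h1.1, fun v => ?_⟩
  rw [h1.2 v, ← Algebra.smul_def, ord_const_smul v hb h1.1]

set_option synthInstance.maxHeartbeats 400000 in
set_option maxHeartbeats 1000000 in
/-- **(D-5)** the inertia clause at `A` from its `K0`-rational form, for every intermediate
field `K0` containing the inertia invariants of `ℚ̄`. -/
theorem newInertiaAt_of_rational (N q p : ℕ) [NeZero N] [NeZero q] (hp : 0 < p)
    (A : ValuationSubring Qb) (K0 : IntermediateField ℚ Qb)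
    (hK0 : ∀ x : Qb, (∀ σ ∈ A.inertiaSubgroupIn ℚ, σ x = x) → x ∈ K0)
    (H : NewInertiaRatAt N q p K0) : NewInertiaAt N q p A := by
  apply newInertiaAt_of_divisors
  obtain ⟨c, hc, H⟩ := H
  refine ⟨c, hc, fun n D f _ hD hpα hpβ hσ => ?_⟩
  have hm : 0 < p ^ n := pow_pos hp n
  haveI := FinDimK.hasPrincipalDivisors_FNK Qb (N * q)
  -- (D-2): an invariant Kummer pair
  obtain ⟨D', f', hDD', hD', -, hinv⟩ := exists_invariant_kummer Qb (N * q) hm D f hD
  have hf'I : ∀ σ ∈ (A.inertiaSubgroupIn ℚ : Set GQ),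
      arithmeticGalois (modularFunctionFieldFull (N * q)) σ • f' = f' :=
    fun σ hσI => (hinv σ (hσ σ hσI)).1
  have hD'I : ∀ σ ∈ (A.inertiaSubgroupIn ℚ : Set GQ),
      arithmeticGalois (modularFunctionFieldFull (N * q)) σ • D' = D' :=
    fun σ hσI => (hinv σ (hσ σ hσI)).2
  have hDeq : D' = D + (D' - D) := by abel
  have hpα' : Divisor.pushforwardAlong (heckeAlphaBar Qb N q) (heckeAlphaBarIntegral N q) D'
      ∈ Divisor.principal (K := Qb) (F := FNK Qb N) := by
    rw [hDeq, map_add]
    exact add_mem hpα (Divisor.isPrincipal_pushforwardAlong _ _ (finiteAlong_heckeAlphaBar N q)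
      (LevelPush.normFormulaAlong_alpha N q) hDD')
  have hpβ' : Divisor.pushforwardAlong (heckeBetaBar Qb N q) (heckeBetaBarIntegral N q) D'
      ∈ Divisor.principal (K := Qb) (F := FNK Qb N) := by
    rw [hDeq, map_add]
    exact add_mem hpβ (Divisor.isPrincipal_pushforwardAlong _ _ (finiteAlong_heckeBetaBar N q)
      (normFormulaAlong_heckeBetaBar N q) hDD')
  -- (D-3): the norms
  obtain ⟨gα, cα, hcα, hgα, hgαlc, hnα⟩ := exists_norm_root (heckeAlphaBar Qb N q)
    (heckeAlphaBarIntegral N q) (finiteAlong_heckeAlphaBar N q) (LevelPush.normFormulaAlong_alpha N q)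
    D' f' hD' hpα'
  obtain ⟨gβ, cβ, hcβ, hgβ, hgβlc, hnβ⟩ := exists_norm_root (heckeBetaBar Qb N q)
    (heckeBetaBarIntegral N q) (finiteAlong_heckeBetaBar N q) (normFormulaAlong_heckeBetaBar N q)
    D' f' hD' hpβ'
  have hinvα := fun σ (hσI : σ ∈ (A.inertiaSubgroupIn ℚ : Set GQ)) =>
    norm_root_invariant (heckeAlphaBar Qb N q) (heckeAlphaBarIntegral N q) hgα hgαlc hnα σ
      (comm_intertwines_alpha N q σ) (hD'I σ hσI) (hf'I σ hσI)
  have hinvβ := fun σ (hσI : σ ∈ (A.inertiaSubgroupIn ℚ : Set GQ)) =>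
    norm_root_invariant (heckeBetaBar Qb N q) (heckeBetaBarIntegral N q) hgβ hgβlc hnβ σ
      (comm_intertwines_beta N q σ) (hD'I σ hσI) (hf'I σ hσI)
  -- (D-4): descent to `K0`
  obtain ⟨f₀, hf₀⟩ := exists_bcK_eq_of_invariant K0 _ hK0 (N * q) f' hf'I
  obtain ⟨gα₀, hgα₀⟩ := exists_bcK_eq_of_invariant K0 _ hK0 N gα (fun σ hσI => (hinvα σ hσI).1)
  obtain ⟨gβ₀, hgβ₀⟩ := exists_bcK_eq_of_invariant K0 _ hK0 N gβ (fun σ hσI => (hinvβ σ hσI).1)
  have hcα0 : cα ∈ K0 := hK0 cα (fun σ hσI => (hinvα σ hσI).2)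
  have hcβ0 : cβ ∈ K0 := hK0 cβ (fun σ hσI => (hinvβ σ hσI).2)
  have hne : ∀ {M : ℕ} {x : FNK K0 M},
      bcK (algebraMap K0 Qb) (modularFunctionFieldFull M) x ≠ 0 → x ≠ 0 := by
    intro M x hx h0
    exact hx (by rw [h0, map_zero])
  have hf₀0 : f₀ ≠ 0 := hne (by rw [hf₀]; exact hD'.1)
  have hgα₀0 : gα₀ ≠ 0 := hne (by rw [hgα₀]; exact hgα.1)
  have hgβ₀0 : gβ₀ ≠ 0 := hne (by rw [hgβ₀]; exact hgβ.1)
  have hK0ne : ∀ {x : Qb} (hx : x ∈ K0), x ≠ 0 → (⟨x, hx⟩ : K0) ≠ 0 := by
    intro x hx hx0 h0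
    exact hx0 (congrArg Subtype.val h0)
  obtain ⟨b, h, hb, hh, hfc⟩ := H n f₀ hf₀0 ⟨D', by rw [hf₀]; exact hD'⟩
    ⟨⟨cα, hcα0⟩, gα₀, hK0ne hcα0 hcα, hgα₀0, by
      rw [hf₀, hnα, map_mul, map_pow, hgα₀, bcK_algebraMap]
      rfl⟩
    ⟨⟨cβ, hcβ0⟩, gβ₀, hK0ne hcβ0 hcβ, hgβ₀0, by
      rw [hf₀, hnβ, map_mul, map_pow, hgβ₀, bcK_algebraMap]
      rfl⟩
  rw [hf₀] at hfc
  -- `c • D'` is the divisor of `h`
  obtain ⟨Eh, hEh, -⟩ := HasPrincipalDivisors.exists_divisor (K := Qb) h hh
  have h1 : IsDiv (c • (p ^ n • D')) (f' ^ c) := isDiv_pow Qb (N * q) hD' c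
  rw [hfc] at h1
  have h2 : IsDiv (p ^ n • Eh) (algebraMap Qb (FNK Qb (N * q)) b * h ^ (p ^ n)) :=
    isDiv_const_mul_pow ⟨hh, hEh⟩ hb (p ^ n)
  have h3 : c • (p ^ n • D') = p ^ n • Eh := isDiv_unique Qb (N * q) h1 h2
  rw [smul_comm] at h3
  have h4 : c • D' = Eh := nsmul_divisor_injective Qb (N * q) hm h3
  have h5 : c • D' ∈ Divisor.principal (K := Qb) (F := FNK Qb (N * q)) := by
    rw [h4]
    exact ⟨h, hh, hEh⟩
  have h6 : c • D = c • D' - c • (D' - D) := by
    rw [← smul_sub]
    congr 1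
    abel
  rw [h6]
  exact sub_mem h5 (nsmul_mem hDD' c)

end Rational

end Fermat.Agent.CAR.Formal.Descent
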