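/-
CAR-9 wiring: the `K0`-rational Kummer statement `Descent.NewInertiaRatAt N q p (inertiaField A)`
implies helper39's `CAR.NewInertiaAt N q p A` (the inertia clause of `TorsionNewInertia` for the
concrete degeneracy push-forwards), hence — through `CAR/LevelTransfer.lean` — the hypothesis
`hCar` of `CAR.tateCmpACarExists_of_trunk`.
-/
import Mathlib
import Fermat.Agent.CAR.Formal.Descent
import Fermat.Agent.CAR.LevelTransfer
import Fermat.Agent.CAR.K0

set_option autoImplicit false
set_option linter.style.haveILetI false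

namespace Fermat.Agent.CAR.Formal.DescentWire

open ModularCurve AlgebraicCurve

local notation "Qb" => AlgebraicClosure ℚ

/-- The two copies of the inertia clause (`CAR/NewInertiaOf.lean` and `CAR/Formal/Descent.lean`)
are the same proposition. -/
theorem newInertiaAt_iff (N q p : ℕ) [NeZero N] [NeZero q] (A : ValuationSubring Qb) :
    Fermat.Agent.CAR.NewInertiaAt N q p A ↔ Descent.NewInertiaAt N q p A := Iff.rfl

/-- The inertia clause at `A` from the `K0`-rational Kummer statement over the inertia field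
`K0 = ℚ̄^{I_A}`. -/
theorem newInertiaAt_of_ratK0 (N q p : ℕ) [NeZero N] [NeZero q] (hp : 0 < p)
    (A : ValuationSubring Qb)
    (H : Descent.NewInertiaRatAt N q p (Fermat.Agent.CAR.K0.inertiaField A)) :
    Fermat.Agent.CAR.NewInertiaAt N q p A :=
  Descent.newInertiaAt_of_rational N q p hp A _
    (fun x hx => (Fermat.Agent.CAR.K0.mem_inertiaField_iff A x).mpr hx) H

/-- The hypothesis `hCar` of `CAR.tateCmpACarExists_of_trunk` from the `K0`-rational Kummer
statement at the levels `q ∥ N` divisible by an auxiliary prime `r ≡ b mod m`, `r ≠ q, p`. -/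
theorem hCar_of_ratK0_aux (m b : ℕ) (hm : m ≠ 0) (hb : b.Coprime m)
    (h : ∀ (N q p : ℕ) [NeZero N] [NeZero q], p.Prime → q.Prime → q ≠ p → q ∣ N → ¬ q ^ 2 ∣ N →
      (∃ r : ℕ, r.Prime ∧ r ≡ b [MOD m] ∧ r ∣ N ∧ r ≠ q ∧ r ≠ p) →
      ∀ A : ValuationSubring Qb, A.LiesOverPrime q →
        Descent.NewInertiaRatAt N q p (Fermat.Agent.CAR.K0.inertiaField A))
    (M N q p : ℕ) [NeZero M] [NeZero N] (hp : p.Prime) (hq : q.Prime) (hqp : q ≠ p)
    (hM : M = N * q) (hqN : q ∣ N) (hq2 : ¬ q ^ 2 ∣ N) : TorsionNewInertia M N q p :=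
  hCar_of_newInertiaAt_aux m b hm hb
    (fun N q p _ _ hp hq hqp hqN hq2 hr A hA =>
      newInertiaAt_of_ratK0 N q p hp.pos A (h N q p hp hq hqp hqN hq2 hr A hA))
    M N q p hp hq hqp hM hqN hq2

end Fermat.Agent.CAR.Formal.DescentWire
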