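/-
CAR-9 follow-up: **norms commute with extension of the coefficient field**.

For a ring homomorphism `ι : K →+* L` of coefficient fields (`K = K0 = ℚ̄^I`, `L = ℚ̄`), the
coefficientwise base change `bcK ι : K·F_M → L·F_M` and the degeneracy maps
`α = heckeAlphaBar`, `β = heckeBetaBar : F_N → F_{Nq}` (`q` prime):

  `N_{α, L} (bcK f) = bcK (N_{α, K} f)`,   `N_{β, L} (bcK f) = bcK (N_{β, K} f)`.

Proof: a `K·F_N`-basis of `K·F_{Nq}` spans `L·F_{Nq}` over `L·F_N` (the span is a finite
dimensional subalgebra of a field, hence a field, and it contains the generators), and the two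
degrees agree (`ESJ/Cong/LevelDeg.lean`), so it is a basis; the matrices of multiplication
correspond.

Consequence: the `K0`-LEVEL form `NewInertiaK0At` of the inertia clause (norms and conclusion over
`K0`) implies `Descent.NewInertiaRatAt`, hence `NewInertiaAt`.
-/
import Mathlib
import Fermat.Agent.CAR.Formal.Descent
import Fermat.Agent.CAR.Formal.DescentWire
import Fermat.Agent.ESJ.Cong.LevelDeg

set_option autoImplicit false
set_option linter.style.haveILetI false
set_option linter.unusedSectionVars false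

noncomputable section

namespace Fermat.Agent.CAR.Formal.NormBc

open AlgebraicCurve ModularCurve Fermat.Agent.ESJ Fermat.Agent.ESJ.Jac Fermat.Agent.BAD.Dict
open Fermat.Agent.ESJ.Dict.Bc Fermat.Agent.CAR.Formal.Descent

/-! ### Abstract: norms and base change of a basis -/

section Abstract

variable {A B A' B' : Type*} [Field A] [Field B] [Field A'] [Field B'] [Algebra A B]
  [Algebra A' B'] (i : A →+* A') (j : B →+* B')

/-- If `j` maps an `A`-basis of `B` to an `A'`-basis of `B'` (compatibly with `i : A → A'`), norms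
commute with `i`, `j`. -/
theorem norm_map_of_basis {ι : Type*} [Fintype ι] [DecidableEq ι]
    (hij : ∀ a, j (algebraMap A B a) = algebraMap A' B' (i a))
    (b : Module.Basis ι A B) (b' : Module.Basis ι A' B') (hb : ∀ k, b' k = j (b k)) (f : B) :
    Algebra.norm A' (j f) = i (Algebra.norm A f) := by
  rw [Algebra.norm_eq_matrix_det b', Algebra.norm_eq_matrix_det b, RingHom.map_det]
  congr 1
  ext k l
  rw [Algebra.leftMulMatrix_eq_repr_mul, RingHom.mapMatrix_apply, Matrix.map_apply,
    Algebra.leftMulMatrix_eq_repr_mul]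
  have h1 : j f * b' l = ∑ m, i (b.repr (f * b l) m) • b' m := by
    rw [hb l, ← map_mul]
    conv_lhs => rw [← b.sum_repr (f * b l)]
    rw [map_sum]
    refine Finset.sum_congr rfl fun m _ => ?_
    rw [Algebra.smul_def, map_mul, hij, hb m, Algebra.smul_def]
  rw [h1, b'.repr_sum_self]

/-- The image of an `A`-basis of `B` spans `B'` over `A'` when `B'` is algebraic over `A'` and
generated as a field by `A'` and the image of `B`. -/
theorem span_range_eq_top (hij : ∀ a, j (algebraMap A B a) = algebraMap A' B' (i a))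
    [Algebra.IsAlgebraic A' B']
    (hgen : Subfield.closure (Set.range (algebraMap A' B') ∪ Set.range j) = ⊤)
    {ι : Type*} [Finite ι] (b : Module.Basis ι A B) :
    Submodule.span A' (Set.range fun k => j (b k)) = ⊤ := by
  classical
  haveI := Fintype.ofFinite ι
  set S : Submodule A' B' := Submodule.span A' (Set.range fun k => j (b k)) with hS
  have h1 : ∀ y : B, j y ∈ S := by
    intro y
    rw [← b.sum_repr y, map_sum]
    refine Submodule.sum_mem _ fun m _ => ?_
    rw [Algebra.smul_def, map_mul, hij, ← Algebra.smul_def]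
    exact Submodule.smul_mem _ _ (Submodule.subset_span ⟨m, rfl⟩)
  have hone : (1 : B') ∈ S := by
    have := h1 1
    rwa [map_one] at this
  have hmul : ∀ x y : B', x ∈ S → y ∈ S → x * y ∈ S := by
    intro x y hx hy
    have h2 : S * S ≤ S := by
      rw [hS, Submodule.span_mul_span, Submodule.span_le]
      rintro _ ⟨_, ⟨k, rfl⟩, _, ⟨l, rfl⟩, rfl⟩
      show j (b k) * j (b l) ∈ S
      rw [← map_mul]
      exact h1 _
    exact h2 (Submodule.mul_mem_mul hx hy)
  set T : Subalgebra A' B' := S.toSubalgebra hone hmul with hT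
  have hTmem : ∀ x : B', x ∈ T ↔ x ∈ S := fun x => Iff.rfl
  let U : Subfield B' :=
    { T.toSubring with
      inv_mem' := fun x hx => by
        have hx' : x ∈ T := hx
        have := T.inv_mem_of_algebraic (x := ⟨x, hx'⟩)
          (Algebra.IsAlgebraic.isAlgebraic (R := A') x)
        exact this }
  have hU : Subfield.closure (Set.range (algebraMap A' B') ∪ Set.range j) ≤ U := by
    rw [Subfield.closure_le]
    rintro x (⟨a, rfl⟩ | ⟨y, rfl⟩)
    · exact T.algebraMap_mem a
    · exact (hTmem _).mpr (h1 y)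
  rw [hgen] at hU
  rw [eq_top_iff]
  intro x _
  exact (hTmem x).mp (hU (Subfield.mem_top x))

/-- **Norms commute with base change**: if `B'` is generated as a field by `A'` and the image of
`B`, and `[B' : A'] = [B : A]`, then `N_{B'/A'} (j f) = i (N_{B/A} f)`. -/
theorem norm_map_of_finrank_eq (hij : ∀ a, j (algebraMap A B a) = algebraMap A' B' (i a))
    [Module.Finite A B] (hrank : Module.finrank A' B' = Module.finrank A B)
    (hgen : Subfield.closure (Set.range (algebraMap A' B') ∪ Set.range j) = ⊤) (f : B) :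
    Algebra.norm A' (j f) = i (Algebra.norm A f) := by
  classical
  have hpos : 0 < Module.finrank A' B' := by
    rw [hrank]
    exact Module.finrank_pos
  haveI : Module.Finite A' B' := Module.finite_of_finrank_pos hpos
  haveI : Algebra.IsAlgebraic A' B' := Algebra.IsAlgebraic.of_finite A' B'
  set b := Module.finBasis A B with hb
  have hspan := span_range_eq_top i j hij hgen b
  have hcard : Fintype.card (Fin (Module.finrank A B)) = Module.finrank A' B' := by
    rw [Fintype.card_fin, hrank]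
  set b' : Module.Basis (Fin (Module.finrank A B)) A' B' :=
    basisOfTopLeSpanOfCardEqFinrank (fun k => j (b k)) hspan.ge hcard with hb'
  exact norm_map_of_basis i j hij b b'
    (fun k => by rw [hb', coe_basisOfTopLeSpanOfCardEqFinrank]) f

end Abstract

/-! ### The modular function fields -/

section Modular

variable {K L : Type} [Field K] [Field L] [Algebra ℚ K] [Algebra ℚ L] (ι : K →+* L)

/-- `L·F₀` is generated as a field by the constants and the image of `K·F₀`. -/
theorem closure_range_bcK (F₀ : IntermediateField ℚ (LaurentSeries ℚ)) :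
    Subfield.closure (Set.range (algebraMap L ↥(laurentBaseChange L F₀))
      ∪ Set.range (bcK ι F₀)) = ⊤ := by
  refine Fermat.Agent.ESJ.Cong.LevelDeg.closure_eq_top_of_le_adjoin (laurentBaseChange L F₀) _
    (fun c => Subfield.subset_closure (Or.inl ⟨c, rfl⟩))
    (⇑(coeffEmb L) '' (F₀ : Set (LaurentSeries ℚ))) ?_ le_rfl
  rintro _ ⟨y, hy, rfl⟩
  refine ⟨coeffEmb_mem_laurentBaseChange L hy, Subfield.subset_closure (Or.inr ?_)⟩
  refine ⟨⟨coeffEmb K y, coeffEmb_mem_laurentBaseChange K hy⟩, Subtype.ext ?_⟩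
  rw [coe_bcK]
  exact coeffMap_coeffEmb_of_ringHom ι y

variable {N M : ℕ} [NeZero N] [NeZero M]

/-- **Norm base change**, general form: for embeddings `φK`, `φL` of the function fields over `K`
and `L` that correspond under `bcK` and have the same (finite) degree. -/
theorem normAlong_bcK (φK : FNK K N →ₐ[K] FNK K M) (φL : FNK L N →ₐ[L] FNK L M)
    (hcomm : ∀ x, bcK ι (modularFunctionFieldFull M) (φK x)
      = φL (bcK ι (modularFunctionFieldFull N) x))
    (hfin : FiniteAlong K φK) (hrank : finrankAlong L φL = finrankAlong K φK) (f : FNK K M) :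
    normAlong φL (bcK ι (modularFunctionFieldFull M) f)
      = bcK ι (modularFunctionFieldFull N) (normAlong φK f) := by
  letI := algebraAlong φK
  letI := algebraAlong φL
  haveI : Module.Finite (FNK K N) (FNK K M) := hfin
  refine norm_map_of_finrank_eq (bcK ι (modularFunctionFieldFull N))
    (bcK ι (modularFunctionFieldFull M)) hcomm hrank ?_ f
  have h := closure_range_bcK ι (modularFunctionFieldFull M)
  rw [eq_top_iff, ← h]
  apply Subfield.closure_mono
  rintro x (⟨c, rfl⟩ | hx)
  · exact Or.inl ⟨algebraMap L (FNK L N) c, φL.commutes c⟩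
  · exact Or.inr hx

variable (N) (q : ℕ) [NeZero q]

theorem bcK_heckeAlphaBar (x : FNK K N) :
    bcK ι (modularFunctionFieldFull (N * q)) (heckeAlphaBar K N q x)
      = heckeAlphaBar L N q (bcK ι (modularFunctionFieldFull N) x) :=
  Subtype.ext (by rw [coe_bcK, coe_heckeAlphaBar, coe_heckeAlphaBar, coe_bcK])

theorem bcK_heckeBetaBar (x : FNK K N) :
    bcK ι (modularFunctionFieldFull (N * q)) (heckeBetaBar K N q x)
      = heckeBetaBar L N q (bcK ι (modularFunctionFieldFull N) x) := by
  refine Subtype.ext ?_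
  rw [coe_bcK, coe_heckeBetaBar, coe_heckeBetaBar, coe_bcK]
  ext n
  rw [coeffMap_coeff]
  by_cases hn : (q : ℤ) ∣ n
  · obtain ⟨k, rfl⟩ := hn
    rw [qExpand_coeff_mul, qExpand_coeff_mul, coeffMap_coeff]
  · rw [qExpand_coeff_of_not_dvd q _ hn, qExpand_coeff_of_not_dvd q _ hn, map_zero]

/-- **Norm base change along `α_q`.** -/
theorem normAlong_bcK_alpha (hq : q.Prime) (f : FNK K (N * q)) :
    normAlong (heckeAlphaBar L N q) (bcK ι (modularFunctionFieldFull (N * q)) f)
      = bcK ι (modularFunctionFieldFull N) (normAlong (heckeAlphaBar K N q) f) :=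
  normAlong_bcK ι _ _ (bcK_heckeAlphaBar ι N q)
    (Fermat.Agent.ESJ.Cong.LevelDeg.finiteAlong_alpha K N q hq)
    (by rw [Fermat.Agent.ESJ.Cong.LevelDeg.finrank_alpha_all L N q hq,
      Fermat.Agent.ESJ.Cong.LevelDeg.finrank_alpha_all K N q hq]) f

/-- **Norm base change along `β_q`.** -/
theorem normAlong_bcK_beta (hq : q.Prime) (f : FNK K (N * q)) :
    normAlong (heckeBetaBar L N q) (bcK ι (modularFunctionFieldFull (N * q)) f)
      = bcK ι (modularFunctionFieldFull N) (normAlong (heckeBetaBar K N q) f) :=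
  normAlong_bcK ι _ _ (bcK_heckeBetaBar ι N q)
    (Fermat.Agent.ESJ.Cong.LevelDeg.finiteAlong_beta K N q hq)
    (by rw [Fermat.Agent.ESJ.Cong.LevelDeg.finrank_beta_all L N q hq,
      Fermat.Agent.ESJ.Cong.LevelDeg.finrank_beta_all K N q hq]) f

end Modular

/-! ### The `K0`-level form of the inertia clause -/

section K0Level

local notation "Qb" => AlgebraicClosure ℚ

/-- The `K0`-LEVEL form of the inertia clause: for every `f ≠ 0` in `K0·F_{Nq}` whose divisor
(over `ℚ̄`) is divisible by `p ^ n` and whose two `K0`-level norms to `K0·F_N` are `p ^ n`-th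
powers up to constants of `K0`, the power `f ^ c` is a `p ^ n`-th power in `K0·F_{Nq}` up to a
constant of `K0`. -/
def NewInertiaK0At (N q p : ℕ) [NeZero N] [NeZero q] (K0 : IntermediateField ℚ Qb) : Prop :=
  ∃ c : ℕ, c ≠ 0 ∧ ∀ (n : ℕ) (f : FNK K0 (N * q)), f ≠ 0 →
    (∃ D : Divisor Qb (FNK Qb (N * q)),
      IsDiv (p ^ n • D) (bcK (algebraMap K0 Qb) (modularFunctionFieldFull (N * q)) f)) →
    (∃ (a : K0) (g : FNK K0 N), a ≠ 0 ∧ g ≠ 0 ∧
      normAlong (heckeAlphaBar K0 N q) f = algebraMap K0 (FNK K0 N) a * g ^ (p ^ n)) →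
    (∃ (a : K0) (g : FNK K0 N), a ≠ 0 ∧ g ≠ 0 ∧
      normAlong (heckeBetaBar K0 N q) f = algebraMap K0 (FNK K0 N) a * g ^ (p ^ n)) →
    ∃ (b : K0) (h : FNK K0 (N * q)), b ≠ 0 ∧ h ≠ 0 ∧
      f ^ c = algebraMap K0 (FNK K0 (N * q)) b * h ^ (p ^ n)

/-- The `K0`-level form implies the rational form of `CAR/Formal/Descent.lean`. -/
theorem newInertiaRatAt_of_K0 (N q p : ℕ) [NeZero N] [NeZero q] (hq : q.Prime)
    (K0 : IntermediateField ℚ Qb) (H : NewInertiaK0At N q p K0) :
    NewInertiaRatAt N q p K0 := by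
  obtain ⟨c, hc, H⟩ := H
  refine ⟨c, hc, fun n f hf hD hα hβ => ?_⟩
  have hα' : ∃ (a : K0) (g : FNK K0 N), a ≠ 0 ∧ g ≠ 0 ∧
      normAlong (heckeAlphaBar K0 N q) f = algebraMap K0 (FNK K0 N) a * g ^ (p ^ n) := by
    obtain ⟨a, g, ha, hg, h⟩ := hα
    refine ⟨a, g, ha, hg, bcK_injective (algebraMap K0 Qb) (modularFunctionFieldFull N) ?_⟩
    rw [← normAlong_bcK_alpha (algebraMap K0 Qb) N q hq f]
    exact h
  have hβ' : ∃ (a : K0) (g : FNK K0 N), a ≠ 0 ∧ g ≠ 0 ∧
      normAlong (heckeBetaBar K0 N q) f = algebraMap K0 (FNK K0 N) a * g ^ (p ^ n) := by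
    obtain ⟨a, g, ha, hg, h⟩ := hβ
    refine ⟨a, g, ha, hg, bcK_injective (algebraMap K0 Qb) (modularFunctionFieldFull N) ?_⟩
    rw [← normAlong_bcK_beta (algebraMap K0 Qb) N q hq f]
    exact h
  obtain ⟨b, h, hb, hh, hfc⟩ := H n f hf hD hα' hβ'
  refine ⟨algebraMap K0 Qb b, bcK (algebraMap K0 Qb) (modularFunctionFieldFull (N * q)) h,
    (map_ne_zero _).mpr hb, (map_ne_zero _).mpr hh, ?_⟩
  rw [← map_pow, hfc, map_mul, bcK_algebraMap, map_pow]

/-- **The inertia clause at `A` from its `K0`-level form** over the inertia field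
`K0 = ℚ̄^{I_A}` (`q` prime). -/
theorem newInertiaAt_of_K0 (N q p : ℕ) [NeZero N] [NeZero q] (hp : 0 < p) (hq : q.Prime)
    (A : ValuationSubring Qb)
    (H : NewInertiaK0At N q p (Fermat.Agent.CAR.K0.inertiaField A)) :
    Fermat.Agent.CAR.NewInertiaAt N q p A :=
  Fermat.Agent.CAR.Formal.DescentWire.newInertiaAt_of_ratK0 N q p hp A
    (newInertiaRatAt_of_K0 N q p hq _ H)

/-- The hypothesis `hCar` of `CAR.tateCmpACarExists_of_trunk` from the `K0`-level form at the
levels `q ∥ N` divisible by an auxiliary prime `r ≡ b mod m`, `r ≠ q, p`. -/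
theorem hCar_of_K0_aux (m b : ℕ) (hm : m ≠ 0) (hb : b.Coprime m)
    (h : ∀ (N q p : ℕ) [NeZero N] [NeZero q], p.Prime → q.Prime → q ≠ p → q ∣ N → ¬ q ^ 2 ∣ N →
      (∃ r : ℕ, r.Prime ∧ r ≡ b [MOD m] ∧ r ∣ N ∧ r ≠ q ∧ r ≠ p) →
      ∀ A : ValuationSubring Qb, A.LiesOverPrime q →
        NewInertiaK0At N q p (Fermat.Agent.CAR.K0.inertiaField A))
    (M N q p : ℕ) [NeZero M] [NeZero N] (hp : p.Prime) (hq : q.Prime) (hqp : q ≠ p)
    (hM : M = N * q) (hqN : q ∣ N) (hq2 : ¬ q ^ 2 ∣ N) :
    Fermat.Agent.CAR.TorsionNewInertia M N q p :=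
  Fermat.Agent.CAR.Formal.DescentWire.hCar_of_ratK0_aux m b hm hb
    (fun N q p _ _ hp hq hqp hqN hq2 hr A hA =>
      newInertiaRatAt_of_K0 N q p hq _ (h N q p hp hq hqp hqN hq2 hr A hA))
    M N q p hp hq hqp hM hqN hq2

end K0Level

end Fermat.Agent.CAR.Formal.NormBc
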