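/-
CAR-16 (UNR-H), abstract part (helper96, task row 358).

Horizontal primes are unramified in the constant field extension.

Setting: `K0 ⊆ Kb` a separable algebraic extension of fields, `F` a field over `K0`, `Fb` a field
over `Kb`, `φ : F →+* Fb` compatible with the constants, `Fb = F·Kb`
(`Subfield.closure (range φ ∪ range (algebraMap Kb Fb)) = ⊤`).

* `isUnif_of_comap` **(H-1)** : if `v` is a valuation subring of `Fb` such that `v ∩ F` contains
  `K0` and is discrete with uniformiser `t` (`IsUnif (v.comap φ) t`), then `v` is discrete with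
  uniformiser `φ t`.
* `exists_place_of_isUnif` **(H-2)** : every discrete valuation subring `V ⊇ K0` of `F` with
  uniformiser `t` is `w ∩ F` for a Prelude place `w` of `Fb / Kb`, with
  `w.ord (φ f) = ord_V f` for all `f ≠ 0`.

Proof of (H-1): every `y ∈ Fb` is `r(c)` with `r ∈ F[X]`, `c ∈ Kb` (primitive element theorem).
`P := minpoly K0 c` is monic over `V := v ∩ F` with separable reduction.  For `z = s(c)` a non-unit
of `v` (`s ∈ V[X]`): with `d̄ := gcd(s̄, P̄)`, `P̄ = d̄ * ē`, `ē(c̄) ≠ 0` and `s * e ≡ s' * P mod t`,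
so `z * e(c) = t * b(c)` with `e(c)` a unit of `v` (`exists_mul_eq_unif_mul`).  This can be
repeated only finitely often because `z` is algebraic over `F` (`exists_comapHom_eq_mul`).
-/
import Mathlib
import Fermat.Agent.CAR.Formal.NormConj
import Fermat.Prelude.Def_AlgebraicCurve_DivisorClassGroup

set_option autoImplicit false

noncomputable section

namespace Fermat.Agent.CAR.Formal.Horizontal

open Polynomial IsLocalRing Fermat.Agent.CAR.Formal

section LocalStep

variable {R S : Type*} [CommRing R] [CommRing S] [IsLocalRing R] [IsLocalRing S]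

/-- **The unramified step.**  `j : R → S` a local homomorphism of local rings, the maximal ideal
of `R` generated by `t`, `c ∈ S` a root of `P ∈ R[X]` whose reduction is separable.  Every
non-unit `s(c)` of `S` (`s ∈ R[X]`) becomes divisible by `t` after multiplication by a unit
`e(c)`: `s(c) * e(c) = t * b(c)`. -/
theorem exists_mul_eq_unif_mul (j : R →+* S) [IsLocalHom j] {t : R}
    (ht : ∀ x ∈ maximalIdeal R, t ∣ x) {P : R[X]} {c : S} (hP : P.eval₂ j c = 0)
    (hsep : (P.map (residue R)).Separable) {s : R[X]} (hs : s.eval₂ j c ∈ maximalIdeal S) :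
    ∃ e b : R[X], IsUnit (e.eval₂ j c) ∧ s.eval₂ j c * e.eval₂ j c = j t * b.eval₂ j c := by
  classical
  set ψ : ResidueField R →+* ResidueField S := ResidueField.map j with hψ
  set cb : ResidueField S := residue S c with hcb
  -- evaluation at `c̄` of a reduced polynomial
  have hev : ∀ p : R[X], (p.map (residue R)).eval₂ ψ cb = residue S (p.eval₂ j c) := by
    intro p
    rw [Polynomial.eval₂_map, Polynomial.hom_eval₂]
    congr 1
  set sb := s.map (residue R) with hsb
  set Pb := P.map (residue R) with hPb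
  have hs0 : sb.eval₂ ψ cb = 0 := by
    rw [hev, residue_eq_zero_iff]; exact hs
  have hP0 : Pb.eval₂ ψ cb = 0 := by
    rw [hev, hP, map_zero]
  set d := EuclideanDomain.gcd sb Pb with hd
  have hd0 : d.eval₂ ψ cb = 0 := by
    rw [hd, EuclideanDomain.gcd_eq_gcd_ab, Polynomial.eval₂_add, Polynomial.eval₂_mul,
      Polynomial.eval₂_mul, hs0, hP0, zero_mul, zero_mul, add_zero]
  obtain ⟨eb, heb⟩ : d ∣ Pb := EuclideanDomain.gcd_dvd_right sb Pb
  obtain ⟨s'b, hs'b⟩ : d ∣ sb := EuclideanDomain.gcd_dvd_left sb Pb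
  have hcop : IsCoprime d eb := by
    rw [heb] at hsep
    exact hsep.isCoprime
  obtain ⟨α, β, hαβ⟩ := hcop
  have heb0 : eb.eval₂ ψ cb ≠ 0 := by
    intro h0
    have h1 := congrArg (Polynomial.eval₂ ψ cb) hαβ
    rw [Polynomial.eval₂_add, Polynomial.eval₂_mul, Polynomial.eval₂_mul, hd0, h0, mul_zero,
      mul_zero, add_zero, Polynomial.eval₂_one] at h1
    exact zero_ne_one h1
  obtain ⟨e, he⟩ := Polynomial.map_surjective (residue R) (residue_surjective) eb
  obtain ⟨s', hs'⟩ := Polynomial.map_surjective (residue R) (residue_surjective) s'b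
  have hker : (s * e - s' * P).map (residue R) = 0 := by
    rw [Polynomial.map_sub, Polynomial.map_mul, Polynomial.map_mul, he, hs', ← hsb, ← hPb,
      hs'b, heb]
    ring
  have hdvd : Polynomial.C t ∣ s * e - s' * P := by
    rw [Polynomial.C_dvd_iff_dvd_coeff]
    intro i
    apply ht
    rw [← residue_eq_zero_iff, ← Polynomial.coeff_map, hker, Polynomial.coeff_zero]
  obtain ⟨b, hb⟩ := hdvd
  refine ⟨e, b, ?_, ?_⟩
  · have h1 : residue S (e.eval₂ j c) ≠ 0 := by
      rw [← hev, he]; exact heb0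
    rw [ne_eq, residue_eq_zero_iff, mem_maximalIdeal, mem_nonunits_iff, not_not] at h1
    exact h1
  · have h1 := congrArg (Polynomial.eval₂ j c) hb
    rw [Polynomial.eval₂_sub, Polynomial.eval₂_mul, Polynomial.eval₂_mul, hP, mul_zero, sub_zero,
      Polynomial.eval₂_mul, Polynomial.eval₂_C] at h1
    exact h1

end LocalStep

section Val

variable {F Fb : Type*} [Field F] [Field Fb] (φ : F →+* Fb) (v : ValuationSubring Fb)

/-- The inclusion `v ∩ F → v`. -/
def comapHom : ↥(v.comap φ) →+* ↥v :=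
  (φ.comp (v.comap φ).subtype).codRestrict v.toSubring (fun x => x.2)

@[simp] theorem coe_comapHom (x : ↥(v.comap φ)) : ((comapHom φ v x : ↥v) : Fb) = φ (x : F) := rfl

instance comapHom_isLocalHom : IsLocalHom (comapHom φ v) := by
  refine ⟨fun x hx => ?_⟩
  obtain ⟨y, hy⟩ := hx.exists_right_inv
  have h1 : φ (x : F) * (y : Fb) = 1 := by
    have := congrArg (Subtype.val) hy
    simpa using this
  have hx0 : (x : F) ≠ 0 := by
    intro h0
    rw [h0, map_zero, zero_mul] at h1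
    exact zero_ne_one h1
  have h2 : (y : Fb) = φ ((x : F)⁻¹) := by
    rw [map_inv₀]
    exact eq_inv_of_mul_eq_one_right h1
  have h3 : (x : F)⁻¹ ∈ v.comap φ := by
    rw [ValuationSubring.mem_comap, ← h2]
    exact y.2
  refine IsUnit.of_mul_eq_one (⟨(x : F)⁻¹, h3⟩ : ↥(v.comap φ)) ?_
  apply Subtype.ext
  show (x : F) * (x : F)⁻¹ = 1
  exact mul_inv_cancel₀ hx0

variable {φ v}

/-- the maximal ideal of `v ∩ F` is generated by the uniformiser -/
theorem dvd_of_mem_maximalIdeal {t : F} (ht : IsUnif (v.comap φ) t)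
    (x : ↥(v.comap φ)) (hx : x ∈ maximalIdeal ↥(v.comap φ)) :
    (⟨t, ht.mem⟩ : ↥(v.comap φ)) ∣ x := by
  by_cases hx0 : (x : F) = 0
  · have : x = 0 := Subtype.ext hx0
    rw [this]
    exact dvd_zero _
  have hnu : (x : F) ∈ (v.comap φ).nonunits := ValuationSubring.coe_mem_nonunits_iff.mpr hx
  have hpos : 0 < ht.ord (x : F) := (ht.ord_pos_iff hx0).mpr hnu
  obtain ⟨u, hu, -, -, he⟩ := ht.exists_unit_eq hx0
  have h1 : t ^ (ht.ord (x : F) - 1) * u ∈ v.comap φ :=
    (v.comap φ).mul_mem _ _ (ht.zpow_mem_of_nonneg (by omega)) hu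
  refine ⟨⟨_, h1⟩, Subtype.ext ?_⟩
  show (x : F) = t * (t ^ (ht.ord (x : F) - 1) * u)
  rw [← mul_assoc, ← zpow_one_add₀ ht.ne_zero]
  rw [show 1 + (ht.ord (x : F) - 1) = ht.ord (x : F) by ring]
  exact he

/-- a root of a monic polynomial over `v ∩ F` lies in `v` -/
theorem mem_of_monic_root {P : (↥(v.comap φ))[X]} (hPm : P.Monic) {c : Fb}
    (hc : P.eval₂ (φ.comp (v.comap φ).subtype) c = 0) : c ∈ v := by
  have h1 : IsIntegral ↥v c := by
    refine ⟨P.map (comapHom φ v), hPm.map _, ?_⟩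
    rw [Polynomial.eval₂_map]
    exact hc
  obtain ⟨y, hy⟩ := IsIntegrallyClosed.isIntegral_iff.mp h1
  rw [← hy]
  exact y.2

/-- evaluation of a polynomial over `v ∩ F` at a point of `v`, seen in the big field -/
theorem coe_eval₂_comapHom (s : (↥(v.comap φ))[X]) (z : ↥v) :
    ((s.eval₂ (comapHom φ v) z : ↥v) : Fb) = (s.map (v.comap φ).subtype).eval₂ φ (z : Fb) := by
  rw [Polynomial.eval₂_map]
  exact Polynomial.hom_eval₂ s (comapHom φ v) v.subtype z

/-- clearing denominators -/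
theorem exists_map_eq_smul (r : F[X]) :
    ∃ (b : ↥(v.comap φ)) (s : (↥(v.comap φ))[X]), (b : F) ≠ 0 ∧
      s.map (v.comap φ).subtype = Polynomial.C (b : F) * r := by
  obtain ⟨b, hbM, hb⟩ :=
    IsLocalization.integerNormalization_spec (nonZeroDivisors ↥(v.comap φ)) r
  refine ⟨b, IsLocalization.integerNormalization (nonZeroDivisors ↥(v.comap φ)) r, ?_, ?_⟩
  · have := nonZeroDivisors.ne_zero hbM
    exact fun h => this (Subtype.ext h)
  · rw [← Polynomial.smul_eq_C_mul]
    exact hb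

/-- **Bound.** A nonzero element of `v` which is algebraic over `F` divides the image of a nonzero
element of `v ∩ F`. -/
theorem exists_comapHom_eq_mul (z : ↥v) (hz0 : (z : Fb) ≠ 0) {p : F[X]} (hp : p ≠ 0)
    (hpz : p.eval₂ φ (z : Fb) = 0) :
    ∃ d : ↥(v.comap φ), (d : F) ≠ 0 ∧ ∃ w : ↥v, comapHom φ v d = z * w := by
  classical
  obtain ⟨q, hq, hXq⟩ := Polynomial.exists_eq_pow_rootMultiplicity_mul_and_not_dvd p hp 0
  rw [Polynomial.C_0, sub_zero] at hq hXq
  have hqz : q.eval₂ φ (z : Fb) = 0 := by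
    rw [hq, Polynomial.eval₂_mul, Polynomial.eval₂_pow, Polynomial.eval₂_X] at hpz
    exact (mul_eq_zero.mp hpz).resolve_left (pow_ne_zero _ hz0)
  have hq0 : q.coeff 0 ≠ 0 := fun h => hXq (Polynomial.X_dvd_iff.mpr h)
  obtain ⟨b, s, hb, hs⟩ := exists_map_eq_smul (φ := φ) (v := v) q
  have hs0 : ((s.coeff 0 : ↥(v.comap φ)) : F) ≠ 0 := by
    have h1 := congrArg (fun f => Polynomial.coeff f 0) hs
    simp only [Polynomial.coeff_map, Polynomial.coeff_C_mul] at h1
    have h2 : ((s.coeff 0 : ↥(v.comap φ)) : F) = (b : F) * q.coeff 0 := h1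
    rw [h2]
    exact mul_ne_zero hb hq0
  have hsz : s.eval₂ (comapHom φ v) z = 0 := by
    apply Subtype.ext
    rw [coe_eval₂_comapHom, hs, Polynomial.eval₂_mul, Polynomial.eval₂_C, hqz, mul_zero]
    rfl
  refine ⟨s.coeff 0, hs0, -(s.divX.eval₂ (comapHom φ v) z), ?_⟩
  have h3 := congrArg (Polynomial.eval₂ (comapHom φ v) z) (Polynomial.divX_mul_X_add s)
  rw [Polynomial.eval₂_add, Polynomial.eval₂_mul, Polynomial.eval₂_X, Polynomial.eval₂_C, hsz] at h3
  linear_combination h3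

/-- **Termination.**  If `s(c)` divides a power of the uniformiser in `v`, it is associated to a
power of the uniformiser. -/
theorem exists_associated_pow {t : F} (ht : IsUnif (v.comap φ) t)
    {P : (↥(v.comap φ))[X]} (hsep : (P.map (residue ↥(v.comap φ))).Separable)
    {c : ↥v} (hc : P.eval₂ (comapHom φ v) c = 0) :
    ∀ (k : ℕ) (s : (↥(v.comap φ))[X]),
      s.eval₂ (comapHom φ v) c ∣ (comapHom φ v ⟨t, ht.mem⟩) ^ k →
      ∃ a : ℕ, Associated (s.eval₂ (comapHom φ v) c) ((comapHom φ v ⟨t, ht.mem⟩) ^ a) := by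
  intro k
  induction k with
  | zero =>
    intro s hs
    rw [pow_zero] at hs
    exact ⟨0, by rw [pow_zero]; exact associated_one_iff_isUnit.mpr (isUnit_of_dvd_one hs)⟩
  | succ k ih =>
    intro s hs
    by_cases hu : IsUnit (s.eval₂ (comapHom φ v) c)
    · exact ⟨0, by rw [pow_zero]; exact associated_one_iff_isUnit.mpr hu⟩
    have hm : s.eval₂ (comapHom φ v) c ∈ maximalIdeal ↥v := hu
    obtain ⟨e, b, he, heq⟩ :=
      exists_mul_eq_unif_mul (comapHom φ v) (dvd_of_mem_maximalIdeal ht) hc hsep hm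
    obtain ⟨w, hw⟩ := hs
    have hjt0 : comapHom φ v ⟨t, ht.mem⟩ ≠ 0 := by
      intro h0
      have h1 := congrArg (Subtype.val) h0
      rw [coe_comapHom] at h1
      exact ht.ne_zero ((map_eq_zero φ).mp h1)
    obtain ⟨e', he'⟩ := he.exists_right_inv
    have hb : b.eval₂ (comapHom φ v) c ∣ (comapHom φ v ⟨t, ht.mem⟩) ^ k := by
      refine ⟨e' * w, ?_⟩
      apply mul_left_cancel₀ hjt0
      rw [← pow_succ', hw]
      linear_combination (e' * w) * heq - (s.eval₂ (comapHom φ v) c * w) * he'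
    obtain ⟨a, ha⟩ := ih b hb
    refine ⟨a + 1, ?_⟩
    have h1 : Associated (s.eval₂ (comapHom φ v) c)
        (s.eval₂ (comapHom φ v) c * e.eval₂ (comapHom φ v) c) :=
      associated_mul_unit_right _ _ he
    rw [heq] at h1
    rw [pow_succ']
    exact h1.trans (ha.mul_left _)

/-- **(H-1), one generator.**  `v ∩ F` discrete with uniformiser `t`, `c` a root of a monic
polynomial over `v ∩ F` with separable reduction.  Then every nonzero element of `F[c]` is a power
of `t` times a unit of `v`. -/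
theorem exists_zpow_mul_unit_eval {t : F} (ht : IsUnif (v.comap φ) t)
    {P : (↥(v.comap φ))[X]} (hPm : P.Monic)
    (hsep : (P.map (residue ↥(v.comap φ))).Separable)
    {c : Fb} (hc : P.eval₂ (φ.comp (v.comap φ).subtype) c = 0)
    (r : F[X]) (hr : r.eval₂ φ c ≠ 0) :
    ∃ (n : ℤ) (u : Fb), u ∈ v ∧ u⁻¹ ∈ v ∧ r.eval₂ φ c = φ t ^ n * u := by
  have hcv : c ∈ v := mem_of_monic_root hPm hc
  set cv : ↥v := ⟨c, hcv⟩ with hcv'
  have hc' : P.eval₂ (comapHom φ v) cv = 0 := by
    apply Subtype.ext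
    rw [coe_eval₂_comapHom, Polynomial.eval₂_map]
    exact hc
  obtain ⟨b, s, hb, hs⟩ := exists_map_eq_smul (φ := φ) (v := v) r
  set z : ↥v := s.eval₂ (comapHom φ v) cv with hz
  have hzc : (z : Fb) = φ (b : F) * r.eval₂ φ c := by
    rw [hz, coe_eval₂_comapHom, hs, Polynomial.eval₂_mul, Polynomial.eval₂_C]
  have hφb : φ (b : F) ≠ 0 := (map_ne_zero φ).mpr hb
  have hz0 : (z : Fb) ≠ 0 := by
    rw [hzc]; exact mul_ne_zero hφb hr
  -- `z` is algebraic over `F`
  obtain ⟨p, hp, hpz⟩ : ∃ p : F[X], p ≠ 0 ∧ p.eval₂ φ (z : Fb) = 0 := by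
    let _ : Algebra F Fb := φ.toAlgebra
    have hcint : IsIntegral F c := by
      refine ⟨P.map (v.comap φ).subtype, hPm.map _, ?_⟩
      rw [Polynomial.eval₂_map]
      exact hc
    have hzint : IsIntegral F (z : Fb) := by
      have h1 : (z : Fb) = Polynomial.aeval c (s.map (v.comap φ).subtype) := by
        rw [hz, coe_eval₂_comapHom]
        rfl
      rw [h1]
      exact adjoin_le_integralClosure hcint (Polynomial.aeval_mem_adjoin_singleton F c)
    exact ⟨minpoly F (z : Fb), minpoly.ne_zero hzint, minpoly.aeval F (z : Fb)⟩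
  obtain ⟨d, hd0, w, hdw⟩ := exists_comapHom_eq_mul z hz0 hp hpz
  -- `d = t ^ k * unit`
  obtain ⟨ud, hud, hud', hud0, hde⟩ := ht.exists_unit_eq hd0
  have hk0 : 0 ≤ ht.ord (d : F) := (ht.ord_nonneg_iff hd0).mpr d.2
  obtain ⟨k, hk⟩ := Int.eq_ofNat_of_zero_le hk0
  rw [hk, zpow_natCast] at hde
  have hdvd : z ∣ (comapHom φ v ⟨t, ht.mem⟩) ^ k := by
    refine ⟨w * ⟨φ ud⁻¹, hud'⟩, ?_⟩
    apply Subtype.ext
    have h1 := congrArg (Subtype.val) hdw
    rw [coe_comapHom, hde, map_mul, map_pow] at h1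
    have h2 : φ ud ≠ 0 := (map_ne_zero φ).mpr hud0
    show (φ t) ^ k = (z : Fb) * ((w : Fb) * φ ud⁻¹)
    rw [map_inv₀, ← mul_assoc, ← show ((z * w : ↥v) : Fb) = (z : Fb) * (w : Fb) from rfl, ← h1]
    field_simp
  obtain ⟨a, ha⟩ := exists_associated_pow ht hsep hc' k s hdvd
  obtain ⟨U, hU⟩ := ha
  -- `b = t ^ kb * unit`
  obtain ⟨ub, hub, hub', hub0, hbe⟩ := ht.exists_unit_eq hb
  have hUc : (z : Fb) * ((U : ↥v) : Fb) = φ t ^ a := by
    have h1 := congrArg (Subtype.val) hU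
    exact h1
  have hU0 : ((U : ↥v) : Fb) ≠ 0 := by
    intro h0
    have : (U : ↥v) = 0 := Subtype.ext h0
    exact U.ne_zero this
  have hφub : φ ub ≠ 0 := (map_ne_zero φ).mpr hub0
  have hφt : φ t ≠ 0 := (map_ne_zero φ).mpr ht.ne_zero
  refine ⟨(a : ℤ) - ht.ord (b : F), (((U⁻¹ : (↥v)ˣ) : ↥v) : Fb) * φ ub⁻¹,
    v.mul_mem _ _ (U⁻¹ : (↥v)ˣ).1.2 hub', ?_, ?_⟩
  · have h1 : ((((U⁻¹ : (↥v)ˣ) : ↥v) : Fb) * φ ub⁻¹)⁻¹ = ((U : ↥v) : Fb) * φ ub := by
      have h2 : ((((U⁻¹ : (↥v)ˣ) : ↥v) : Fb)) * ((U : ↥v) : Fb) = 1 := by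
        have := congrArg (Subtype.val) (Units.inv_mul U)
        exact this
      rw [map_inv₀, mul_inv, inv_inv]
      congr 1
      exact inv_eq_of_mul_eq_one_right h2
    rw [h1]
    exact v.mul_mem _ _ (U : ↥v).2 hub
  · have h2 : ((((U⁻¹ : (↥v)ˣ) : ↥v) : Fb)) = (((U : ↥v) : Fb))⁻¹ := by
      have h3 : ((((U⁻¹ : (↥v)ˣ) : ↥v) : Fb)) * ((U : ↥v) : Fb) = 1 := by
        have := congrArg (Subtype.val) (Units.inv_mul U)
        exact this
      exact eq_inv_of_mul_eq_one_left h3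
    have h4 : r.eval₂ φ c = (z : Fb) / φ (b : F) := by
      rw [hzc]; field_simp
    have h5 : (z : Fb) = φ t ^ a * (((U : ↥v) : Fb))⁻¹ := by
      rw [← hUc]; field_simp
    have h6 : φ (b : F) = φ t ^ ht.ord (b : F) * φ ub := by
      conv_lhs => rw [hbe]
      rw [map_mul, map_zpow₀]
    rw [h4, h5, h6, h2, zpow_sub₀ hφt, zpow_natCast, map_inv₀]
    field_simp

end Val

section Global

open scoped IntermediateField

variable {K0 Kb F Fb : Type*} [Field K0] [Field Kb] [Field F] [Field Fb]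
  [Algebra K0 Kb] [Algebra K0 F] [Algebra Kb Fb] [Algebra.IsSeparable K0 Kb]

/-- **Primitive element** for two elements of a separable algebraic extension. -/
theorem exists_aeval_eq_pair (c₁ c₂ : Kb) :
    ∃ (c : Kb) (g₁ g₂ : K0[X]), Polynomial.aeval c g₁ = c₁ ∧ Polynomial.aeval c g₂ = c₂ := by
  classical
  let E : IntermediateField K0 Kb := IntermediateField.adjoin K0 {c₁, c₂}
  have : FiniteDimensional K0 E :=
    IntermediateField.finiteDimensional_adjoin
      (fun x _ => Algebra.IsSeparable.isIntegral K0 x)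
  obtain ⟨α, hα⟩ := Field.exists_primitive_element K0 E
  have key : ∀ x : E, ∃ g : K0[X], Polynomial.aeval (α : Kb) g = (x : Kb) := by
    intro x
    have hx : x ∈ K0⟮α⟯ := hα ▸ IntermediateField.mem_top
    have hint : IsIntegral K0 α := Algebra.IsSeparable.isIntegral K0 α
    rw [← IntermediateField.mem_toSubalgebra,
      IntermediateField.adjoin_simple_toSubalgebra_of_isAlgebraic hint.isAlgebraic,
      Algebra.adjoin_singleton_eq_range_aeval] at hx
    obtain ⟨g, hg⟩ := hx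
    refine ⟨g, ?_⟩
    rw [← hg]
    exact (Polynomial.aeval_algHom_apply E.val α g)
  obtain ⟨g₁, h₁⟩ := key ⟨c₁, IntermediateField.subset_adjoin K0 _ (by simp)⟩
  obtain ⟨g₂, h₂⟩ := key ⟨c₂, IntermediateField.subset_adjoin K0 _ (by simp)⟩
  exact ⟨α, g₁, g₂, h₁, h₂⟩

variable (φ : F →+* Fb)
  (hφ : ∀ a : K0, φ (algebraMap K0 F a) = algebraMap Kb Fb (algebraMap K0 Kb a))

omit [Algebra.IsSeparable K0 Kb] in
include hφ in
theorem eval₂_map_algebraMap (c : Kb) (g : K0[X]) :
    (g.map (algebraMap K0 F)).eval₂ φ (algebraMap Kb Fb c)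
      = algebraMap Kb Fb (Polynomial.aeval c g) := by
  have h1 : φ.comp (algebraMap K0 F) = (algebraMap Kb Fb).comp (algebraMap K0 Kb) :=
    RingHom.ext hφ
  rw [Polynomial.eval₂_map, h1, ← Polynomial.hom_eval₂, Polynomial.aeval_def]

include hφ in
/-- `Fb = F·Kb`: every element is a polynomial over `F` in one element of `Kb`. -/
theorem exists_eval₂_eq
    (hgen : Subfield.closure (Set.range φ ∪ Set.range (algebraMap Kb Fb)) = ⊤) (y : Fb) :
    ∃ (c : Kb) (r : F[X]), r.eval₂ φ (algebraMap Kb Fb c) = y := by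
  have hy : y ∈ Subfield.closure (Set.range φ ∪ Set.range (algebraMap Kb Fb)) :=
    hgen ▸ Subfield.mem_top y
  induction hy using Subfield.closure_induction with
  | mem y hy =>
    rcases hy with ⟨f, rfl⟩ | ⟨c, rfl⟩
    · exact ⟨0, Polynomial.C f, Polynomial.eval₂_C _ _⟩
    · exact ⟨c, Polynomial.X, Polynomial.eval₂_X _ _⟩
  | one => exact ⟨0, 1, Polynomial.eval₂_one _ _⟩
  | add x y _ _ hx hy =>
    obtain ⟨c₁, r₁, rfl⟩ := hx
    obtain ⟨c₂, r₂, rfl⟩ := hy
    obtain ⟨c, g₁, g₂, h₁, h₂⟩ := exists_aeval_eq_pair (K0 := K0) c₁ c₂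
    refine ⟨c, r₁.comp (g₁.map (algebraMap K0 F)) + r₂.comp (g₂.map (algebraMap K0 F)), ?_⟩
    rw [Polynomial.eval₂_add, Polynomial.eval₂_comp, Polynomial.eval₂_comp,
      eval₂_map_algebraMap φ hφ, eval₂_map_algebraMap φ hφ, h₁, h₂]
  | neg x _ hx =>
    obtain ⟨c, r, rfl⟩ := hx
    exact ⟨c, -r, Polynomial.eval₂_neg _⟩
  | inv x _ hx =>
    obtain ⟨c, r, rfl⟩ := hx
    by_cases h0 : r.eval₂ φ (algebraMap Kb Fb c) = 0
    · rw [h0, inv_zero]
      exact ⟨0, 0, Polynomial.eval₂_zero _ _⟩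
    let _ : Algebra F Fb := φ.toAlgebra
    have hcint : IsIntegral F (algebraMap Kb Fb c) := by
      have hint : IsIntegral K0 c := Algebra.IsSeparable.isIntegral K0 c
      refine ⟨(minpoly K0 c).map (algebraMap K0 F), (minpoly.monic hint).map _, ?_⟩
      show ((minpoly K0 c).map (algebraMap K0 F)).eval₂ φ (algebraMap Kb Fb c) = 0
      rw [eval₂_map_algebraMap φ hφ, minpoly.aeval, map_zero]
    have hmem : Polynomial.aeval (algebraMap Kb Fb c) r ∈ Algebra.adjoin F {algebraMap Kb Fb c} :=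
      Polynomial.aeval_mem_adjoin_singleton F _
    have halg : IsAlgebraic F (Polynomial.aeval (algebraMap Kb Fb c) r) :=
      (adjoin_le_integralClosure hcint hmem : IsIntegral F _).isAlgebraic
    have hinv : (Polynomial.aeval (algebraMap Kb Fb c) r)⁻¹
        ∈ Algebra.adjoin F {algebraMap Kb Fb c} :=
      Subalgebra.inv_mem_of_algebraic (A := Algebra.adjoin F {algebraMap Kb Fb c})
        (x := ⟨_, hmem⟩) halg
    rw [Algebra.adjoin_singleton_eq_range_aeval] at hinv
    obtain ⟨r', hr'⟩ := hinv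
    exact ⟨c, r', hr'⟩
  | mul x y _ _ hx hy =>
    obtain ⟨c₁, r₁, rfl⟩ := hx
    obtain ⟨c₂, r₂, rfl⟩ := hy
    obtain ⟨c, g₁, g₂, h₁, h₂⟩ := exists_aeval_eq_pair (K0 := K0) c₁ c₂
    refine ⟨c, r₁.comp (g₁.map (algebraMap K0 F)) * r₂.comp (g₂.map (algebraMap K0 F)), ?_⟩
    rw [Polynomial.eval₂_mul, Polynomial.eval₂_comp, Polynomial.eval₂_comp,
      eval₂_map_algebraMap φ hφ, eval₂_map_algebraMap φ hφ, h₁, h₂]

include hφ in
/-- **(H-1)** a valuation subring `v` of `Fb = F·Kb` whose trace on `F` contains `K0` and is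
discrete with uniformiser `t` is itself discrete with uniformiser `t`. -/
theorem isUnif_of_comap
    (hgen : Subfield.closure (Set.range φ ∪ Set.range (algebraMap Kb Fb)) = ⊤)
    (v : ValuationSubring Fb) (hK0 : ∀ a : K0, algebraMap K0 F a ∈ v.comap φ)
    {t : F} (ht : IsUnif (v.comap φ) t) : IsUnif v (φ t) := by
  refine ⟨ht.mem, ?_, ?_⟩
  · rw [← map_inv₀]
    exact ht.inv_notMem
  · intro y hy
    obtain ⟨c, r, rfl⟩ := exists_eval₂_eq φ hφ hgen y
    let ι : K0 →+* ↥(v.comap φ) := (algebraMap K0 F).codRestrict (v.comap φ).toSubring hK0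
    have hint : IsIntegral K0 c := Algebra.IsSeparable.isIntegral K0 c
    refine exists_zpow_mul_unit_eval ht (P := (minpoly K0 c).map ι) ((minpoly.monic hint).map ι)
      ?_ ?_ r hy
    · rw [Polynomial.map_map]
      exact Polynomial.Separable.map (Algebra.IsSeparable.isSeparable K0 c)
    · rw [Polynomial.eval₂_map]
      have h1 : (φ.comp (v.comap φ).subtype).comp ι
          = (algebraMap Kb Fb).comp (algebraMap K0 Kb) := RingHom.ext hφ
      rw [h1, ← Polynomial.hom_eval₂, ← Polynomial.aeval_def, minpoly.aeval, map_zero]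

end Global

section PlaceBridge

variable {F : Type*} [Field F]

theorem isUnit_of_inv_mem {A : ValuationSubring F} (x : ↥A) (hx : (x : F)⁻¹ ∈ A)
    (hx0 : (x : F) ≠ 0) : IsUnit x := by
  refine IsUnit.of_mul_eq_one (⟨(x : F)⁻¹, hx⟩ : ↥A) (Subtype.ext ?_)
  show (x : F) * (x : F)⁻¹ = 1
  exact mul_inv_cancel₀ hx0

theorem inv_mem_of_isUnit {A : ValuationSubring F} {x : ↥A} (hx : IsUnit x) :
    (x : F)⁻¹ ∈ A := by
  obtain ⟨y, hy⟩ := hx.exists_right_inv
  have h1 : (x : F) * (y : F) = 1 := congrArg Subtype.val hy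
  rw [inv_eq_of_mul_eq_one_right h1]
  exact y.2

/-- the uniformiser is irreducible -/
theorem irreducible_of_isUnif {A : ValuationSubring F} {π : F} (h : IsUnif A π) :
    Irreducible (⟨π, h.mem⟩ : ↥A) := by
  have hπ1 : h.ord π = 1 :=
    h.ord_eq (u := 1) A.one_mem (by rw [inv_one]; exact A.one_mem) one_ne_zero (by simp)
  refine ⟨fun hu => h.inv_notMem (inv_mem_of_isUnit hu), fun a b hab => ?_⟩
  have hab' : π = (a : F) * (b : F) := congrArg Subtype.val hab
  have ha0 : (a : F) ≠ 0 := by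
    intro h0
    rw [h0, zero_mul] at hab'
    exact h.ne_zero hab'
  have hb0 : (b : F) ≠ 0 := by
    intro h0
    rw [h0, mul_zero] at hab'
    exact h.ne_zero hab'
  have h1 : h.ord (a : F) + h.ord (b : F) = 1 := by
    rw [← h.ord_mul ha0 hb0, ← hab', hπ1]
  have h2 : 0 ≤ h.ord (a : F) := (h.ord_nonneg_iff ha0).mpr a.2
  have h3 : 0 ≤ h.ord (b : F) := (h.ord_nonneg_iff hb0).mpr b.2
  rcases (show h.ord (a : F) = 0 ∨ h.ord (b : F) = 0 by omega) with h4 | h4
  · exact Or.inl (isUnit_of_inv_mem a ((h.ord_eq_zero_iff ha0).mp h4).2 ha0)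
  · exact Or.inr (isUnit_of_inv_mem b ((h.ord_eq_zero_iff hb0).mp h4).2 hb0)

/-- a discrete valuation subring with uniformiser is a discrete valuation ring -/
theorem isDiscreteValuationRing_of_isUnif {A : ValuationSubring F} {π : F} (h : IsUnif A π) :
    IsDiscreteValuationRing ↥A := by
  apply IsDiscreteValuationRing.ofHasUnitMulPowIrreducibleFactorization
  refine ⟨⟨π, h.mem⟩, irreducible_of_isUnif h, fun {x} hx => ?_⟩
  have hx0 : (x : F) ≠ 0 := fun h0 => hx (Subtype.ext h0)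
  obtain ⟨u, hu, hu', hu0, he⟩ := h.exists_unit_eq hx0
  obtain ⟨n, hn⟩ := Int.eq_ofNat_of_zero_le ((h.ord_nonneg_iff hx0).mpr x.2)
  rw [hn, zpow_natCast] at he
  refine ⟨n, ⟨⟨u, hu⟩, ⟨u⁻¹, hu'⟩, Subtype.ext (mul_inv_cancel₀ hu0),
    Subtype.ext (inv_mul_cancel₀ hu0)⟩, Subtype.ext ?_⟩
  exact he.symm

theorem isPrincipalIdealRing_of_isUnif {A : ValuationSubring F} {π : F} (h : IsUnif A π) :
    IsPrincipalIdealRing ↥A := by
  have := isDiscreteValuationRing_of_isUnif h
  infer_instance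

end PlaceBridge

section Place

open AlgebraicCurve

variable {K0 Kb F Fb : Type*} [Field K0] [Field Kb] [Field F] [Field Fb]
  [Algebra K0 Kb] [Algebra K0 F] [Algebra Kb Fb]

variable (φ : F →+* Fb)
  (hφ : ∀ a : K0, φ (algebraMap K0 F a) = algebraMap Kb Fb (algebraMap K0 Kb a))

include hφ in
/-- the constants `Kb` lie in every valuation subring of `Fb` whose trace on `F` contains `K0` -/
theorem algebraMap_mem_of_comap [Algebra.IsIntegral K0 Kb] (v : ValuationSubring Fb)
    (hK0 : ∀ a : K0, algebraMap K0 F a ∈ v.comap φ) (c : Kb) : algebraMap Kb Fb c ∈ v := by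
  let ι : K0 →+* ↥(v.comap φ) := (algebraMap K0 F).codRestrict (v.comap φ).toSubring hK0
  have hint : IsIntegral K0 c := Algebra.IsIntegral.isIntegral c
  refine mem_of_monic_root (φ := φ) (P := (minpoly K0 c).map ι) ((minpoly.monic hint).map ι) ?_
  rw [Polynomial.eval₂_map]
  have h1 : (φ.comp (v.comap φ).subtype).comp ι
      = (algebraMap Kb Fb).comp (algebraMap K0 Kb) := RingHom.ext hφ
  rw [h1, ← Polynomial.hom_eval₂, ← Polynomial.aeval_def, minpoly.aeval, map_zero]

variable [Algebra.IsSeparable K0 Kb]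

include hφ in
/-- **(H-2)** every discrete valuation subring `V ⊇ K0` of `F` is the trace of a place `w` of
`Fb = F·Kb` over `Kb`; `w` has the same uniformiser and the same order function on `F`. -/
theorem exists_place_of_isUnif
    (hgen : Subfield.closure (Set.range φ ∪ Set.range (algebraMap Kb Fb)) = ⊤)
    (V : ValuationSubring F) (hK0 : ∀ a : K0, algebraMap K0 F a ∈ V)
    {t : F} (ht : IsUnif V t) :
    ∃ w : Place Kb Fb, w.toValuationSubring.comap φ = V ∧ IsUnif w.toValuationSubring (φ t) ∧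
      ∀ f : F, f ≠ 0 → w.ord (φ f) = ht.ord f := by
  obtain ⟨v, hv⟩ : ∃ v : ValuationSubring Fb, v.comap φ = V := by
    let _ : Algebra F Fb := φ.toAlgebra
    exact exists_valuationSubring_comap_eq V
  subst hv
  have hu : IsUnif v (φ t) := isUnif_of_comap φ hφ hgen v hK0 ht
  let w : Place Kb Fb :=
    ⟨v, algebraMap_mem_of_comap φ hφ v hK0, hu.ne_top, isPrincipalIdealRing_of_isUnif hu⟩
  refine ⟨w, rfl, hu, fun f hf => ?_⟩
  obtain ⟨u, hu1, hu2, hu0, he⟩ := ht.exists_unit_eq hf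
  have hirr : Irreducible (⟨φ t, hu.mem⟩ : ↥w.toValuationSubring) := irreducible_of_isUnif hu
  have hφu : φ u ≠ 0 := (map_ne_zero φ).mpr hu0
  let U : (↥w.toValuationSubring)ˣ :=
    ⟨⟨φ u, hu1⟩, ⟨φ u⁻¹, hu2⟩,
      Subtype.ext (by show φ u * φ u⁻¹ = 1; rw [map_inv₀]; exact mul_inv_cancel₀ hφu),
      Subtype.ext (by show φ u⁻¹ * φ u = 1; rw [map_inv₀]; exact inv_mul_cancel₀ hφu)⟩
  have h1 := w.ord_unit_smul_zpow U hirr (ht.ord f)
  have h2 : φ f = ((U : ↥w.toValuationSubring) : Fb) * (φ t) ^ (ht.ord f) := by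
    conv_lhs => rw [he]
    rw [map_mul, map_zpow₀, mul_comm]
  rw [h2]
  exact h1

include hφ in
/-- **(H-2), divisibility form.**  If all orders of `φ f` at the places of `Fb / Kb` are
divisible by `m`, then `f` is `t ^ (m * a)` times a unit at every discrete valuation subring
`V ⊇ K0` of `F` with uniformiser `t`. -/
theorem exists_zpow_mul_unit_of_dvd_ord
    (hgen : Subfield.closure (Set.range φ ∪ Set.range (algebraMap Kb Fb)) = ⊤)
    (V : ValuationSubring F) (hK0 : ∀ a : K0, algebraMap K0 F a ∈ V)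
    {t : F} (ht : IsUnif V t) {m : ℤ} {f : F} (hf : f ≠ 0)
    (hD : ∀ w : Place Kb Fb, m ∣ w.ord (φ f)) :
    ∃ (a : ℤ) (u : F), u ∈ V ∧ u⁻¹ ∈ V ∧ f = t ^ (m * a) * u := by
  obtain ⟨w, -, -, hw⟩ := exists_place_of_isUnif φ hφ hgen V hK0 ht
  obtain ⟨a, ha⟩ := hD w
  obtain ⟨u, hu1, hu2, -, he⟩ := ht.exists_unit_eq hf
  refine ⟨a, u, hu1, hu2, ?_⟩
  rw [← ha, hw f hf]
  exact he

end Place

end Fermat.Agent.CAR.Formal.Horizontal
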