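/-
CAR-16 (UNR-H), instance (helper96, task row 358).

`K0` an intermediate field of `ℚ̄ / ℚ`, `F = K0·F_M` (`FNK ↥K0 M`), `Fb = ℚ̄·F_M` (`FNK Qb M`),
`bcK` the coefficientwise base change.  Every discrete valuation subring `V ⊇ K0` of `F` with a
uniformiser `t` ("horizontal prime") is the trace of a Prelude place of `Fb` with the same
uniformiser (`exists_place_bcK`); hence a `K0`-rational function `f` whose divisor over `ℚ̄` is
`m • D` has `V`-order divisible by `m` (`exists_zpow_mul_unit_of_isDiv`).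

No hypothesis on `K0` (no Galois descent, no Riemann–Roch): this is the instance of the abstract
`CAR/Formal/Horizontal.lean`.
-/
import Mathlib
import Fermat.Agent.CAR.Formal.Horizontal
import Fermat.Agent.BAD.Dict
import Fermat.Agent.ESJ.Dict.Bc
import Fermat.Agent.Lib.GalQbar

set_option autoImplicit false

noncomputable section

namespace Fermat.Agent.CAR.Formal.Horizontal

open AlgebraicCurve ModularCurve Fermat.Agent.CAR.Formal
open Fermat.Agent.ESJ.Dict.Bc Fermat.Agent.ESJ.Jac Fermat.Agent.BAD.Dict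

local notation "Qb" => AlgebraicClosure ℚ

section Gen

variable {K L : Type*} [Field K] [Field L] [Algebra ℚ K] [Algebra ℚ L]

theorem mk_mem_closure_bcK (ι : K →+* L) (F₀ : IntermediateField ℚ (LaurentSeries ℚ))
    {x : LaurentSeries L}
    (hx : x ∈ Subfield.closure (Set.range (algebraMap L (LaurentSeries L)) ∪
      (⇑(coeffEmb L) '' (F₀ : Set (LaurentSeries ℚ))))) :
    ∀ h : x ∈ laurentBaseChange L F₀, (⟨x, h⟩ : ↥(laurentBaseChange L F₀)) ∈
      Subfield.closure (Set.range (bcK ι F₀) ∪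
        Set.range (algebraMap L ↥(laurentBaseChange L F₀))) := by
  induction hx using Subfield.closure_induction with
  | mem y hy =>
    intro h
    rcases hy with ⟨a, rfl⟩ | ⟨z, hz, rfl⟩
    · exact Subfield.subset_closure (Or.inr ⟨a, rfl⟩)
    · refine Subfield.subset_closure (Or.inl ⟨⟨coeffEmb K z, coeffEmb_mem_laurentBaseChange K hz⟩, ?_⟩)
      exact Subtype.ext (coeffMap_coeffEmb_of_ringHom ι z)
  | one =>
    intro h
    have e : (⟨1, h⟩ : ↥(laurentBaseChange L F₀)) = 1 := Subtype.ext rfl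
    rw [e]
    exact one_mem _
  | add x y hx hy ihx ihy =>
    intro h
    have hx' := mem_laurentBaseChange_iff.mpr hx
    have hy' := mem_laurentBaseChange_iff.mpr hy
    have e : (⟨x + y, h⟩ : ↥(laurentBaseChange L F₀)) = ⟨x, hx'⟩ + ⟨y, hy'⟩ := Subtype.ext rfl
    rw [e]
    exact add_mem (ihx hx') (ihy hy')
  | neg x hx ihx =>
    intro h
    have hx' := mem_laurentBaseChange_iff.mpr hx
    have e : (⟨-x, h⟩ : ↥(laurentBaseChange L F₀)) = -⟨x, hx'⟩ := Subtype.ext rfl
    rw [e]
    exact neg_mem (ihx hx')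
  | inv x hx ihx =>
    intro h
    have hx' := mem_laurentBaseChange_iff.mpr hx
    have e : (⟨x⁻¹, h⟩ : ↥(laurentBaseChange L F₀)) = (⟨x, hx'⟩ : ↥(laurentBaseChange L F₀))⁻¹ :=
      Subtype.ext (IntermediateField.coe_inv _ ⟨x, hx'⟩).symm
    rw [e]
    exact inv_mem (ihx hx')
  | mul x y hx hy ihx ihy =>
    intro h
    have hx' := mem_laurentBaseChange_iff.mpr hx
    have hy' := mem_laurentBaseChange_iff.mpr hy
    have e : (⟨x * y, h⟩ : ↥(laurentBaseChange L F₀)) = ⟨x, hx'⟩ * ⟨y, hy'⟩ := Subtype.ext rfl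
    rw [e]
    exact mul_mem (ihx hx') (ihy hy')

/-- `L·F₀` is generated, as a field, by the image of `K·F₀` and the constants `L`. -/
theorem closure_range_bcK (ι : K →+* L) (F₀ : IntermediateField ℚ (LaurentSeries ℚ)) :
    Subfield.closure (Set.range (bcK ι F₀) ∪
      Set.range (algebraMap L ↥(laurentBaseChange L F₀))) = ⊤ := by
  rw [eq_top_iff]
  rintro ⟨x, hx⟩ -
  exact mk_mem_closure_bcK ι F₀ (mem_laurentBaseChange_iff.mp hx) hx

end Gen

section Inst

variable (K0 : IntermediateField ℚ Qb) (M : ℕ)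

theorem isSeparable_intermediate : Algebra.IsSeparable K0 Qb := by
  have h0 : Algebra.IsAlgebraic ℚ Qb := Fermat.Agent.Lib.GalQbar.isAlgebraic_rat
  have : Algebra.IsAlgebraic K0 Qb := Algebra.IsAlgebraic.tower_top (K := ℚ) K0
  exact Algebra.IsAlgebraic.isSeparable_of_perfectField

set_option synthInstance.maxHeartbeats 400000 in
/-- **(H-2), instance**: a discrete valuation subring `V ⊇ K0` of `K0·F_M` with uniformiser `t`
is the trace of a place `w` of `ℚ̄·F_M`, with the same uniformiser and the same orders. -/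
theorem exists_place_bcK (V : ValuationSubring (FNK K0 M))
    (hK0 : ∀ a : K0, algebraMap K0 (FNK K0 M) a ∈ V) {t : FNK K0 M} (ht : IsUnif V t) :
    ∃ w : Place Qb (FNK Qb M),
      w.toValuationSubring.comap (bcK (algebraMap K0 Qb) (modularFunctionFieldFull M)) = V ∧
      IsUnif w.toValuationSubring (bcK (algebraMap K0 Qb) (modularFunctionFieldFull M) t) ∧
      ∀ f : FNK K0 M, f ≠ 0 →
        w.ord (bcK (algebraMap K0 Qb) (modularFunctionFieldFull M) f) = ht.ord f :=
  have := isSeparable_intermediate K0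
  exists_place_of_isUnif (K0 := K0) (Kb := Qb)
    (bcK (algebraMap K0 Qb) (modularFunctionFieldFull M))
    (fun a => bcK_algebraMap (algebraMap K0 Qb) (modularFunctionFieldFull M) a)
    (closure_range_bcK (algebraMap K0 Qb) (modularFunctionFieldFull M)) V hK0 ht

set_option synthInstance.maxHeartbeats 400000 in
/-- **(UNR-H), the form consumed by CAR-13 (b)**: if the divisor over `ℚ̄` of a `K0`-rational
function `f` is `m • D`, then at every horizontal prime `(V, t)` of `K0·F_M` the function `f` is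
`t ^ (m * a)` times a unit of `V`. -/
theorem exists_zpow_mul_unit_of_isDiv (V : ValuationSubring (FNK K0 M))
    (hK0 : ∀ a : K0, algebraMap K0 (FNK K0 M) a ∈ V) {t : FNK K0 M} (ht : IsUnif V t)
    {m : ℕ} {f : FNK K0 M} {D : Divisor Qb (FNK Qb M)}
    (hD : IsDiv (m • D) (bcK (algebraMap K0 Qb) (modularFunctionFieldFull M) f)) :
    ∃ (a : ℤ) (u : FNK K0 M), u ∈ V ∧ u⁻¹ ∈ V ∧ f = t ^ ((m : ℤ) * a) * u := by
  have hf : f ≠ 0 := by
    rintro rfl
    exact hD.1 (map_zero _)
  have := isSeparable_intermediate K0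
  refine exists_zpow_mul_unit_of_dvd_ord (K0 := K0) (Kb := Qb)
    (bcK (algebraMap K0 Qb) (modularFunctionFieldFull M))
    (fun a => bcK_algebraMap (algebraMap K0 Qb) (modularFunctionFieldFull M) a)
    (closure_range_bcK (algebraMap K0 Qb) (modularFunctionFieldFull M)) V hK0 ht hf
    (fun w => ⟨D w, ?_⟩)
  rw [← hD.2 w, Finsupp.smul_apply, nsmul_eq_mul]

set_option synthInstance.maxHeartbeats 400000 in
/-- The order form: `ord_V f ∈ m ℤ`. -/
theorem dvd_ord_of_isDiv (V : ValuationSubring (FNK K0 M))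
    (hK0 : ∀ a : K0, algebraMap K0 (FNK K0 M) a ∈ V) {t : FNK K0 M} (ht : IsUnif V t)
    {m : ℕ} {f : FNK K0 M} {D : Divisor Qb (FNK Qb M)}
    (hD : IsDiv (m • D) (bcK (algebraMap K0 Qb) (modularFunctionFieldFull M) f)) :
    (m : ℤ) ∣ ht.ord f := by
  have hf : f ≠ 0 := by
    rintro rfl
    exact hD.1 (map_zero _)
  obtain ⟨w, -, -, hw⟩ := exists_place_bcK K0 M V hK0 ht
  refine ⟨D w, ?_⟩
  rw [← hw f hf, ← hD.2 w, Finsupp.smul_apply, nsmul_eq_mul]

end Inst

end Fermat.Agent.CAR.Formal.Horizontal
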