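/-
CAR (F-a), descent core: a torsion class fixed by a set of semilinear automorphisms has a fixed
divisor and a fixed Kummer generator.

No Hilbert 90 and no cocycle: the representative is CANONICAL.  For a place `P` with a
"leading coefficient" `lc` (multiplicative, homogeneous, detecting the next order), and a divisor
`E` with `L(E) ≠ 0`, there is a unique nonzero `f₀ ∈ L(E)` of maximal order at `P` with
`lc f₀ = 1`; the divisor `E + div f₀` depends only on the class of `E` and on the coefficient of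
`E` at `P`, hence it is fixed by every automorphism fixing `P`, the class and `lc = 1`.

* generic: `exists_fixed_divisor`, `exists_fixed_generator`, `exists_fixed_kummer_of_leadCoeff`;
* modular (`F = modularFunctionFieldBar N`, `P = ` the cusp `∞`, `lc = ` leading `q`-coefficient,
  automorphisms `arithmeticGalois … σ`, `σ ∈ H ⊆ G_ℚ` arbitrary):
  `exists_fixed_kummer`, `exists_fixed_generator_modular`, `const_fixed_of_isDiv_zero`.
-/
import Mathlib
import Fermat.Agent.BAD.Dict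
import Fermat.Agent.Lib.FF.RRFF1
import Fermat.Agent.Lib.FF.CanonicalFF1
import Fermat.Agent.Lib.FF.PlaceInf

set_option autoImplicit false

namespace Fermat.Agent.CAR.Formal.DescentCore

open AlgebraicCurve ModularCurve Fermat.Agent.Lib.FF Fermat.Agent.BAD.Dict Fermat.Agent.S24

section Generic

variable {K F : Type*} [Field K] [Field F] [Algebra K F]

/-- A "leading coefficient" at the place `P`. -/
structure IsLeadCoeff (P : Place K F) (lc : F → K) : Prop where
  map_const_mul : ∀ (c : K) (f : F), lc (algebraMap K F c * f) = c * lc f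
  map_mul : ∀ f g : F, lc (f * g) = lc f * lc g
  ne_zero : ∀ f : F, f ≠ 0 → lc f ≠ 0
  ord_sub : ∀ f g : F, f ≠ 0 → g ≠ 0 → f ≠ g → P.ord f = P.ord g → lc f = lc g →
    P.ord f < P.ord (f - g)

/-- `f` is a nonzero section of `E`: `f ≠ 0` and `div f + E ≥ 0`. -/
def Sec (E : Divisor K F) (f : F) : Prop := f ≠ 0 ∧ ∀ v : Place K F, 0 ≤ v.ord f + E v

theorem ord_const_mul (v : Place K F) {c : K} (hc : c ≠ 0) {f : F} (hf : f ≠ 0) :
    v.ord (algebraMap K F c * f) = v.ord f := by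
  rw [v.ord_mul ((map_ne_zero (algebraMap K F)).mpr hc) hf, ord_algebraMap, zero_add]

theorem Sec.const_mul {E : Divisor K F} {f : F} (hf : Sec E f) {c : K} (hc : c ≠ 0) :
    Sec E (algebraMap K F c * f) :=
  ⟨mul_ne_zero ((map_ne_zero (algebraMap K F)).mpr hc) hf.1, fun v => by
    rw [ord_const_mul v hc hf.1]; exact hf.2 v⟩

theorem Sec.sub {E : Divisor K F} {f g : F} (hf : Sec E f) (hg : Sec E g) (hne : f ≠ g) :
    Sec E (f - g) := by
  have h0 : f - g ≠ 0 := sub_ne_zero.mpr hne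
  refine ⟨h0, fun v => ?_⟩
  have h1 := ord_sub_ge v hf.1 hg.1 h0
  have h2 := hf.2 v
  have h3 := hg.2 v
  rcases min_le_iff.mp h1 with h | h <;> omega

theorem isDiv_const_mul {D : Divisor K F} {f : F} (hD : IsDiv D f) {c : K} (hc : c ≠ 0) :
    IsDiv D (algebraMap K F c * f) :=
  ⟨mul_ne_zero ((map_ne_zero (algebraMap K F)).mpr hc) hD.1, fun v => by
    rw [ord_const_mul v hc hD.1]; exact hD.2 v⟩

theorem isDiv_ext {D D' : Divisor K F} {f : F} (hD : IsDiv D f) (hD' : IsDiv D' f) : D = D' :=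
  Finsupp.ext fun v => by rw [hD.2 v, hD'.2 v]

theorem isDiv_of_mem_principal {E : Divisor K F}
    (hE : E ∈ Divisor.principal (K := K) (F := F)) : ∃ f : F, IsDiv E f := by
  obtain ⟨f, hf, hE⟩ := hE
  exact ⟨f, hf, hE⟩

variable {x : F}

theorem degree_of_isDiv (h : IsFF1 K F x) {D : Divisor K F} {f : F} (hD : IsDiv D f) :
    Divisor.degree D = 0 := by
  have := h.hasPrincipalDivisors
  obtain ⟨D', hD', hdeg⟩ := HasPrincipalDivisors.exists_divisor (K := K) f hD.1
  have e : D = D' := Finsupp.ext fun v => by rw [hD.2 v, hD' v]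
  rw [e, hdeg]

theorem exists_isDiv (h : IsFF1 K F x) {f : F} (hf : f ≠ 0) : ∃ D : Divisor K F, IsDiv D f := by
  have := h.hasPrincipalDivisors
  obtain ⟨D', hD', -⟩ := HasPrincipalDivisors.exists_divisor (K := K) f hf
  exact ⟨D', hf, hD'⟩

/-- A nonzero section of `E` has order at most `deg E - E(P)` at `P`. -/
theorem Sec.ord_le (h : IsFF1 K F x) {E : Divisor K F} {f : F} (hf : Sec E f) (P : Place K F) :
    P.ord f ≤ Divisor.degree E - E P := by
  obtain ⟨Df, hDf⟩ := exists_isDiv h hf.1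
  have hdeg : Divisor.degree (Df + E) = Divisor.degree E := by
    rw [map_add, degree_of_isDiv h hDf, zero_add]
  have hnn : ∀ v : Place K F, 0 ≤ (Df + E) v := fun v => by
    rw [Finsupp.add_apply, hDf.2 v]; exact hf.2 v
  have hP : (Df + E) P ≤ Divisor.degree (Df + E) := by
    rw [h.degree_eq_sum]
    by_cases hmem : P ∈ (Df + E).support
    · exact Finset.single_le_sum (f := fun v => (Df + E) v) (fun v _ => hnn v) hmem
    · rw [Finsupp.notMem_support_iff.mp hmem]
      exact Finset.sum_nonneg fun v _ => hnn v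
  rw [hdeg, Finsupp.add_apply, hDf.2 P] at hP
  omega

/-- The canonical section of `E`: maximal order at `P`, leading coefficient `1`. -/
def IsCanon (P : Place K F) (lc : F → K) (E : Divisor K F) (f : F) : Prop :=
  Sec E f ∧ lc f = 1 ∧ ∀ g : F, Sec E g → P.ord g ≤ P.ord f

theorem exists_isCanon (h : IsFF1 K F x) (P : Place K F) {lc : F → K} (hlc : IsLeadCoeff P lc)
    (E : Divisor K F) (hne : ∃ f : F, Sec E f) : ∃ f : F, IsCanon P lc E f := by
  classical
  obtain ⟨n, ⟨f, hf, hn⟩, hmax⟩ := Int.exists_greatest_of_bdd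
    (P := fun n : ℤ => ∃ f : F, Sec E f ∧ P.ord f = n)
    ⟨Divisor.degree E - E P, by rintro z ⟨f, hf, rfl⟩; exact hf.ord_le h P⟩
    (by obtain ⟨f, hf⟩ := hne; exact ⟨_, f, hf, rfl⟩)
  have hc : (lc f)⁻¹ ≠ 0 := inv_ne_zero (hlc.ne_zero f hf.1)
  refine ⟨algebraMap K F (lc f)⁻¹ * f, hf.const_mul hc, ?_, fun g hg => ?_⟩
  · rw [hlc.map_const_mul, inv_mul_cancel₀ (hlc.ne_zero f hf.1)]
  · rw [ord_const_mul P hc hf.1, hn]
    exact hmax _ ⟨g, hg, rfl⟩

theorem IsCanon.unique {P : Place K F} {lc : F → K} (hlc : IsLeadCoeff P lc) {E : Divisor K F}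
    {f g : F} (hf : IsCanon P lc E f) (hg : IsCanon P lc E g) : f = g := by
  by_contra hne
  have hord : P.ord f = P.ord g := le_antisymm (hg.2.2 f hf.1) (hf.2.2 g hg.1)
  have h1 := hlc.ord_sub f g hf.1.1 hg.1.1 hne hord (hf.2.1.trans hg.2.1.symm)
  have h2 := hf.2.2 _ (hf.1.sub hg.1 hne)
  omega

/-- **Canonical divisor in a class.**  If the classes `g • [D₀] = [D₀]` for all `g ∈ S`, and the
elements of `S` fix `P` and preserve "leading coefficient `1`", then `D₀` is linearly equivalent to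
a divisor fixed by `S`. -/
theorem exists_fixed_divisor (h : IsFF1 K F x) (P : Place K F) {lc : F → K}
    (hlc : IsLeadCoeff P lc) (S : Set (SemilinearAut K F)) (hSP : ∀ g ∈ S, g • P = P)
    (hSlc : ∀ g ∈ S, ∀ f : F, lc f = 1 → lc (g • f) = 1) (D₀ : Divisor K F)
    (hD₀ : ∀ g ∈ S, g • D₀ - D₀ ∈ Divisor.principal (K := K) (F := F)) :
    ∃ D : Divisor K F, D - D₀ ∈ Divisor.principal (K := K) (F := F) ∧ ∀ g ∈ S, g • D = D := by
  classical
  set n : ℤ := (genusFF K F : ℤ) - Divisor.degree D₀ with hn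
  set E : Divisor K F := D₀ + Finsupp.single P n with hE
  have hdegE : (genusFF K F : ℤ) ≤ Divisor.degree E := by
    rw [hE, map_add, Divisor.degree_single, h.deg_eq_one P, hn]
    simp
  obtain ⟨f₁, hf₁, hf₁E⟩ := h.exists_ne_zero_of_degree_ge E hdegE
  obtain ⟨f₀, hf₀⟩ := exists_isCanon h P hlc E ⟨f₁, hf₁, hf₁E⟩
  obtain ⟨D₁, hD₁⟩ := exists_isDiv h hf₀.1.1
  refine ⟨D₀ + D₁, ?_, fun g hg => ?_⟩
  · rw [add_sub_cancel_left]
    exact hD₁.principal
  -- the generator of `g • D₀ - D₀`, normalised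
  obtain ⟨h₀, hh₀⟩ := isDiv_of_mem_principal (hD₀ g hg)
  have hc : (lc h₀)⁻¹ ≠ 0 := inv_ne_zero (hlc.ne_zero h₀ hh₀.1)
  set h' : F := algebraMap K F (lc h₀)⁻¹ * h₀ with hh'
  have hh'div : IsDiv (g • D₀ - D₀) h' := isDiv_const_mul hh₀ hc
  have hh'lc : lc h' = 1 := by
    rw [hh', hlc.map_const_mul, inv_mul_cancel₀ (hlc.ne_zero h₀ hh₀.1)]
  have hgP : g⁻¹ • P = P := by rw [inv_smul_eq_iff, hSP g hg]
  have hgf₀ : g • f₀ ≠ 0 := by
    intro h0
    apply hf₀.1.1
    have h1 : g⁻¹ • (g • f₀) = g⁻¹ • (0 : F) := congrArg (g⁻¹ • ·) h0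
    rwa [inv_smul_smul, smul_zero] at h1
  have hord : ∀ v : Place K F, v.ord (g • f₀) = (g⁻¹ • v).ord f₀ := fun v => by
    have h1 := SemilinearAut.ord_smul g (g⁻¹ • v) f₀
    rwa [smul_inv_smul] at h1
  have hordh : ∀ v : Place K F, v.ord h' = D₀ (g⁻¹ • v) - D₀ v := fun v => by
    rw [← hh'div.2 v, Finsupp.sub_apply, SemilinearAut.divisor_smul_apply]
  have hsingle : ∀ v : Place K F, (Finsupp.single P n) (g⁻¹ • v) = (Finsupp.single P n) v := by
    intro v
    by_cases hv : v = P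
    · rw [hv, hgP]
    · have hv' : g⁻¹ • v ≠ P := by
        intro h1
        apply hv
        rw [inv_smul_eq_iff, hSP g hg] at h1
        exact h1
      rw [Finsupp.single_apply, Finsupp.single_apply, if_neg (Ne.symm hv'), if_neg (Ne.symm hv)]
  -- the transported canonical section
  have hcan : IsCanon P lc E (g • f₀ * h') := by
    refine ⟨⟨mul_ne_zero hgf₀ hh'div.1, fun v => ?_⟩, ?_, fun g' hg' => ?_⟩
    · rw [v.ord_mul hgf₀ hh'div.1, hord v, hordh v, hE, Finsupp.add_apply, ← hsingle v]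
      have h1 := hf₀.1.2 (g⁻¹ • v)
      rw [hE, Finsupp.add_apply] at h1
      omega
    · rw [hlc.map_mul, hSlc g hg f₀ hf₀.2.1, hh'lc, one_mul]
    · rw [P.ord_mul hgf₀ hh'div.1, hord P, hordh P, hgP, sub_self, add_zero]
      exact hf₀.2.2 g' hg'
  have hkey : g • f₀ * h' = f₀ := hcan.unique hlc hf₀
  have h1 : IsDiv (g • D₁ + (g • D₀ - D₀)) f₀ := by
    have := isDiv_mul (isDiv_smul g hD₁) hh'div
    rwa [hkey] at this
  have h2 : g • D₁ + (g • D₀ - D₀) = D₁ := isDiv_ext h1 hD₁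
  have h3 : g • D₁ = D₁ - (g • D₀ - D₀) := eq_sub_of_add_eq h2
  rw [smul_add, h3]
  abel

/-- **Fixed generator.**  A principal divisor fixed by `S` has a generator fixed by `S`
(the one with leading coefficient `1`). -/
theorem exists_fixed_generator (h : IsFF1 K F x) (P : Place K F) {lc : F → K}
    (hlc : IsLeadCoeff P lc) (S : Set (SemilinearAut K F))
    (hSlc : ∀ g ∈ S, ∀ f : F, lc f = 1 → lc (g • f) = 1) (E : Divisor K F)
    (hE : E ∈ Divisor.principal (K := K) (F := F)) (hfix : ∀ g ∈ S, g • E = E) :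
    ∃ f : F, IsDiv E f ∧ lc f = 1 ∧ ∀ g ∈ S, g • f = f := by
  obtain ⟨f₁, hf₁⟩ := isDiv_of_mem_principal hE
  have hc : (lc f₁)⁻¹ ≠ 0 := inv_ne_zero (hlc.ne_zero f₁ hf₁.1)
  refine ⟨algebraMap K F (lc f₁)⁻¹ * f₁, isDiv_const_mul hf₁ hc, ?_, fun g hg => ?_⟩
  · rw [hlc.map_const_mul, inv_mul_cancel₀ (hlc.ne_zero f₁ hf₁.1)]
  set f : F := algebraMap K F (lc f₁)⁻¹ * f₁ with hf
  have hfdiv : IsDiv E f := isDiv_const_mul hf₁ hc
  have hflc : lc f = 1 := by
    rw [hf, hlc.map_const_mul, inv_mul_cancel₀ (hlc.ne_zero f₁ hf₁.1)]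
  have hgdiv : IsDiv E (g • f) := by
    have := isDiv_smul g hfdiv
    rwa [hfix g hg] at this
  have hu : IsDiv (0 : Divisor K F) (g • f / f) := by
    have := isDiv_div hgdiv hfdiv
    rwa [sub_self] at this
  obtain ⟨c, hc'⟩ := h.const_of_ord_nonneg (g • f / f) (fun v => by
    rw [← hu.2 v, Finsupp.zero_apply])
  have hgf : g • f = algebraMap K F c * f := by
    rw [← hc', div_mul_cancel₀ _ hfdiv.1]
  have h1 := hSlc g hg f hflc
  rw [hgf, hlc.map_const_mul, hflc, mul_one] at h1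
  rw [hgf, h1, map_one, one_mul]

/-- **Descent, generic form.**  An `m`-torsion class fixed by `S` is the class of a degree-zero
divisor `D` fixed by `S`, with a Kummer generator `f` (`m • D = div f`) fixed by `S`. -/
theorem exists_fixed_kummer_of_leadCoeff (h : IsFF1 K F x) (P : Place K F) {lc : F → K}
    (hlc : IsLeadCoeff P lc) (S : Set (SemilinearAut K F)) (hSP : ∀ g ∈ S, g • P = P)
    (hSlc : ∀ g ∈ S, ∀ f : F, lc f = 1 → lc (g • f) = 1) (m : ℕ) (y : Pic0 K F)
    (hy : m • y = 0) (hfix : ∀ g ∈ S, g • y = y) :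
    ∃ (D : Divisor.degZero (K := K) (F := F)) (f : F), y = Pic0.mk D ∧
      IsDiv (m • (D : Divisor K F)) f ∧ (∀ g ∈ S, g • (D : Divisor K F) = D) ∧
      (∀ g ∈ S, g • f = f) ∧ lc f = 1 := by
  obtain ⟨D₀, rfl⟩ := Pic0.mk_surjective y
  have hD₀ : ∀ g ∈ S, g • (D₀ : Divisor K F) - D₀ ∈ Divisor.principal (K := K) (F := F) := by
    intro g hg
    have h1 := hfix g hg
    rw [smul_mk, ← sub_eq_zero, ← mk_sub, mk_eq_zero_iff] at h1
    exact h1
  obtain ⟨D, hD, hDfix⟩ := exists_fixed_divisor h P hlc S hSP hSlc (D₀ : Divisor K F) hD₀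
  have hdeg : D ∈ Divisor.degZero (K := K) (F := F) := by
    obtain ⟨f, hf⟩ := isDiv_of_mem_principal hD
    have h1 := degree_of_isDiv h hf
    rw [map_sub, sub_eq_zero] at h1
    rw [Divisor.mem_degZero, h1]
    exact D₀.2
  have hmk : Pic0.mk D₀ = Pic0.mk ⟨D, hdeg⟩ := by
    rw [eq_comm, ← sub_eq_zero, ← mk_sub, mk_eq_zero_iff]
    exact hD
  have hm : m • D ∈ Divisor.principal (K := K) (F := F) := by
    have h1 := hy
    rw [hmk, ← mk_nsmul, mk_eq_zero_iff] at h1
    exact h1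
  obtain ⟨f, hf, hflc, hffix⟩ := exists_fixed_generator h P hlc S hSlc (m • D) hm
    (fun g hg => by rw [smul_comm, hDfix g hg])
  exact ⟨⟨D, hdeg⟩, f, hmk, hf, hDfix, hffix, hflc⟩

theorem isDiv_pow {D : Divisor K F} {f : F} (hD : IsDiv D f) (m : ℕ) : IsDiv (m • D) (f ^ m) := by
  induction m with
  | zero =>
    rw [zero_smul, pow_zero]
    exact ⟨one_ne_zero, fun v => by rw [Finsupp.zero_apply, v.ord_one]⟩
  | succ m ih =>
    rw [succ_nsmul, pow_succ]
    exact isDiv_mul ih hD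

/-- **Root form.**  If `φ` is fixed by `S` with `div φ = m • E`, `E` principal and fixed by `S`,
then `φ = c · g ^ m` with `div g = E`, `g` fixed by `S` and the constant `c ≠ 0` fixed by the
base automorphisms of `S`. -/
theorem exists_fixed_root_form (h : IsFF1 K F x) (P : Place K F) {lc : F → K}
    (hlc : IsLeadCoeff P lc) (S : Set (SemilinearAut K F))
    (hSlc : ∀ g ∈ S, ∀ f : F, lc f = 1 → lc (g • f) = 1) (m : ℕ) (E : Divisor K F)
    (hE : E ∈ Divisor.principal (K := K) (F := F)) (hfix : ∀ g ∈ S, g • E = E)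
    (φ : F) (hφ : IsDiv (m • E) φ) (hφfix : ∀ g ∈ S, g • φ = φ) :
    ∃ (g₀ : F) (c : K), IsDiv E g₀ ∧ lc g₀ = 1 ∧ (∀ g ∈ S, g • g₀ = g₀) ∧ c ≠ 0 ∧
      (∀ g ∈ S, SemilinearAut.baseAut g c = c) ∧ φ = algebraMap K F c * g₀ ^ m := by
  obtain ⟨g₀, hg₀, hg₀lc, hg₀fix⟩ := exists_fixed_generator h P hlc S hSlc E hE hfix
  have hpow := isDiv_pow hg₀ m
  have hu : IsDiv (0 : Divisor K F) (φ / g₀ ^ m) := by
    have := isDiv_div hφ hpow
    rwa [sub_self] at this
  obtain ⟨c, hc⟩ := h.const_of_ord_nonneg (φ / g₀ ^ m) (fun v => by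
    rw [← hu.2 v, Finsupp.zero_apply])
  have hφc : φ = algebraMap K F c * g₀ ^ m := by
    rw [← hc, div_mul_cancel₀ _ hpow.1]
  have hc0 : c ≠ 0 := by
    rintro rfl
    apply hφ.1
    rw [hφc, map_zero, zero_mul]
  refine ⟨g₀, c, hg₀, hg₀lc, hg₀fix, hc0, fun g hg => ?_, hφc⟩
  have h1 := hφfix g hg
  rw [hφc, smul_mul', smul_pow', hg₀fix g hg, SemilinearAut.smul_algebraMap] at h1
  have h2 := mul_right_cancel₀ hpow.1 h1
  exact (algebraMap K F).injective h2

end Generic

/-! ### The modular function fields over `ℚ̄` -/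

section Modular

open Fermat.Agent.Lib.FF.PlaceInf

local notation "Qb" => AlgebraicClosure ℚ
local notation "GQ" => (AlgebraicClosure ℚ ≃ₐ[ℚ] AlgebraicClosure ℚ)

variable (N : ℕ) [NeZero N]

/-- The leading `q`-expansion coefficient. -/
noncomputable def lcInf (f : modularFunctionFieldBar N) : Qb :=
  (f : LaurentSeries Qb).leadingCoeff

omit [NeZero N] in
theorem lcInf_def (f : modularFunctionFieldBar N) :
    lcInf N f = (f : LaurentSeries Qb).leadingCoeff := rfl

omit [NeZero N] in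
theorem coe_algebraMap_bar (c : Qb) :
    ((algebraMap Qb (modularFunctionFieldBar N) c : modularFunctionFieldBar N) : LaurentSeries Qb)
      = HahnSeries.single 0 c := by
  show algebraMap Qb (LaurentSeries Qb) c = _
  rw [← Fermat.Agent.Lib.Red.C_eq_algebraMap, HahnSeries.C_apply]

theorem isLeadCoeff_lcInf : IsLeadCoeff (placeInfL Qb N) (lcInf N) where
  map_const_mul c f := by
    rw [lcInf_def, lcInf_def, MulMemClass.coe_mul, HahnSeries.leadingCoeff_mul, coe_algebraMap_bar,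
      HahnSeries.leadingCoeff_of_single]
  map_mul f g := by
    rw [lcInf_def, lcInf_def, lcInf_def, MulMemClass.coe_mul, HahnSeries.leadingCoeff_mul]
  ne_zero f hf := HahnSeries.leadingCoeff_ne_zero.mpr (coe_ne_zero _ hf)
  ord_sub f g hf hg hne hord hlc := by
    have hfg : f - g ≠ 0 := sub_ne_zero.mpr hne
    rw [placeInfL_ord Qb N f hf, placeInfL_ord Qb N g hg] at hord
    rw [placeInfL_ord Qb N f hf, placeInfL_ord Qb N _ hfg]
    have hf' : (f : LaurentSeries Qb) ≠ 0 := coe_ne_zero _ hf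
    have hg' : (g : LaurentSeries Qb) ≠ 0 := coe_ne_zero _ hg
    have hfg' : ((f - g : modularFunctionFieldBar N) : LaurentSeries Qb) ≠ 0 := coe_ne_zero _ hfg
    have h1 := HahnSeries.le_orderTop_of_leadingCoeff_eq (x := (f : LaurentSeries Qb))
      (y := (g : LaurentSeries Qb)) (g := (f : LaurentSeries Qb).order)
      (HahnSeries.order_eq_orderTop_of_ne_zero hf').symm
      (by rw [hord]; exact (HahnSeries.order_eq_orderTop_of_ne_zero hg').symm) hlc
    rw [AddSubgroupClass.coe_sub] at hfg' ⊢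
    rw [← HahnSeries.order_eq_orderTop_of_ne_zero hfg'] at h1
    exact_mod_cast h1

omit [NeZero N] in
/-- The arithmetic Galois action acts on leading coefficients through `σ`. -/
theorem lcInf_smul (σ : GQ) (f : modularFunctionFieldBar N) :
    lcInf N (arithmeticGalois (modularFunctionFieldFull N) σ • f) = σ (lcInf N f) := by
  rw [lcInf_def, lcInf_def, coe_arithmeticGalois_smul, HahnSeries.leadingCoeff_eq,
    HahnSeries.leadingCoeff_eq, Fermat.Agent.Lib.Descent.order_coeffMap, coeffMap_coeff]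
  rfl

omit [NeZero N] in
theorem lcInf_smul_eq_one (σ : GQ) (f : modularFunctionFieldBar N) (hf : lcInf N f = 1) :
    lcInf N (arithmeticGalois (modularFunctionFieldFull N) σ • f) = 1 := by
  rw [lcInf_smul, hf, map_one]

/-- The automorphisms attached to a set `H` of elements of `G_ℚ`. -/
def galSet (H : Set GQ) : Set (SemilinearAut Qb (modularFunctionFieldBar N)) :=
  (fun σ => arithmeticGalois (modularFunctionFieldFull N) σ) '' H

theorem galSet_smul_placeInf (H : Set GQ) :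
    ∀ g ∈ galSet N H, g • placeInfL Qb N = placeInfL Qb N := by
  rintro _ ⟨σ, -, rfl⟩
  exact arithmeticGalois_smul_placeInfL Qb N σ

theorem galSet_lc (H : Set GQ) :
    ∀ g ∈ galSet N H, ∀ f : modularFunctionFieldBar N, lcInf N f = 1 → lcInf N (g • f) = 1 := by
  rintro _ ⟨σ, -, rfl⟩ f hf
  exact lcInf_smul_eq_one N σ f hf

/-- **Descent (CAR F-a, D-2).**  An `m`-torsion class of `J₀(N)` fixed by a set `H ⊆ G_ℚ` is the
class of a degree-zero divisor `D` fixed by `H`, with a Kummer generator `f` (`m • D = div f`)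
fixed by `H` (normalised: leading `q`-coefficient `1`). -/
theorem exists_fixed_kummer (H : Set GQ) (m : ℕ) (x : JZero N) (hx : m • x = 0)
    (hfix : ∀ σ ∈ H, σ • x = x) :
    ∃ (D : Divisor.degZero (K := Qb) (F := modularFunctionFieldBar N))
      (f : modularFunctionFieldBar N), x = Pic0.mk D ∧
      IsDiv (m • (D : Divisor Qb (modularFunctionFieldBar N))) f ∧
      (∀ σ ∈ H, arithmeticGalois (modularFunctionFieldFull N) σ •
        (D : Divisor Qb (modularFunctionFieldBar N)) = D) ∧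
      (∀ σ ∈ H, arithmeticGalois (modularFunctionFieldFull N) σ • f = f) ∧ lcInf N f = 1 := by
  obtain ⟨D, f, h1, h2, h3, h4, h5⟩ := exists_fixed_kummer_of_leadCoeff
    (Fermat.Agent.Lib.FF.Res.isFF1_modular N) (placeInfL Qb N) (isLeadCoeff_lcInf N) (galSet N H)
    (galSet_smul_placeInf N H) (galSet_lc N H) m x hx
    (by rintro _ ⟨σ, hσ, rfl⟩; exact hfix σ hσ)
  exact ⟨D, f, h1, h2, fun σ hσ => h3 _ ⟨σ, hσ, rfl⟩, fun σ hσ => h4 _ ⟨σ, hσ, rfl⟩, h5⟩

/-- **Fixed generator (modular form).**  A principal divisor fixed by `H` has a generator fixed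
by `H`. -/
theorem exists_fixed_generator_modular (H : Set GQ)
    (E : Divisor Qb (modularFunctionFieldBar N))
    (hE : E ∈ Divisor.principal (K := Qb) (F := modularFunctionFieldBar N))
    (hfix : ∀ σ ∈ H, arithmeticGalois (modularFunctionFieldFull N) σ • E = E) :
    ∃ g : modularFunctionFieldBar N, IsDiv E g ∧ lcInf N g = 1 ∧
      ∀ σ ∈ H, arithmeticGalois (modularFunctionFieldFull N) σ • g = g := by
  obtain ⟨g, h1, h2, h3⟩ := exists_fixed_generator (Fermat.Agent.Lib.FF.Res.isFF1_modular N)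
    (placeInfL Qb N) (isLeadCoeff_lcInf N) (galSet N H) (galSet_lc N H) E hE
    (by rintro _ ⟨σ, hσ, rfl⟩; exact hfix σ hσ)
  exact ⟨g, h1, h2, fun σ hσ => h3 _ ⟨σ, hσ, rfl⟩⟩

/-- **Root form (modular form; CAR F-a, D-3).**  If `φ` is fixed by `H` with `div φ = m • E`,
`E` principal and fixed by `H`, then `φ = c · g ^ m` with `div g = E`, `g` fixed by `H`, and
`c ≠ 0` a constant fixed by `H`. -/
theorem exists_fixed_root_form_modular (H : Set GQ) (m : ℕ)
    (E : Divisor Qb (modularFunctionFieldBar N))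
    (hE : E ∈ Divisor.principal (K := Qb) (F := modularFunctionFieldBar N))
    (hfix : ∀ σ ∈ H, arithmeticGalois (modularFunctionFieldFull N) σ • E = E)
    (φ : modularFunctionFieldBar N) (hφ : IsDiv (m • E) φ)
    (hφfix : ∀ σ ∈ H, arithmeticGalois (modularFunctionFieldFull N) σ • φ = φ) :
    ∃ (g : modularFunctionFieldBar N) (c : Qb), IsDiv E g ∧ lcInf N g = 1 ∧
      (∀ σ ∈ H, arithmeticGalois (modularFunctionFieldFull N) σ • g = g) ∧ c ≠ 0 ∧
      (∀ σ ∈ H, σ c = c) ∧ φ = algebraMap Qb (modularFunctionFieldBar N) c * g ^ m := by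
  obtain ⟨g, c, h1, h2, h3, h4, h5, h6⟩ := exists_fixed_root_form
    (Fermat.Agent.Lib.FF.Res.isFF1_modular N) (placeInfL Qb N) (isLeadCoeff_lcInf N) (galSet N H)
    (galSet_lc N H) m E hE (by rintro _ ⟨σ, hσ, rfl⟩; exact hfix σ hσ) φ hφ
    (by rintro _ ⟨σ, hσ, rfl⟩; exact hφfix σ hσ)
  exact ⟨g, c, h1, h2, fun σ hσ => h3 _ ⟨σ, hσ, rfl⟩, h4, fun σ hσ => h5 _ ⟨σ, hσ, rfl⟩, h6⟩

/-- A function without zeros and poles is a nonzero constant. -/
theorem exists_const_of_isDiv_zero {u : modularFunctionFieldBar N}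
    (hu : IsDiv (0 : Divisor Qb (modularFunctionFieldBar N)) u) :
    ∃ c : Qb, c ≠ 0 ∧ u = algebraMap Qb (modularFunctionFieldBar N) c := by
  obtain ⟨c, hc⟩ := (Fermat.Agent.Lib.FF.Res.isFF1_modular N).const_of_ord_nonneg u (fun v => by
    rw [← hu.2 v, Finsupp.zero_apply])
  refine ⟨c, ?_, hc⟩
  rintro rfl
  exact hu.1 (by rw [hc, map_zero])

omit [NeZero N] in
/-- The arithmetic Galois action on constants. -/
theorem arithmeticGalois_smul_const (σ : GQ) (c : Qb) :
    arithmeticGalois (modularFunctionFieldFull N) σ • algebraMap Qb (modularFunctionFieldBar N) c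
      = algebraMap Qb (modularFunctionFieldBar N) (σ c) := by
  rw [SemilinearAut.smul_algebraMap]
  rfl

end Modular

end Fermat.Agent.CAR.Formal.DescentCore
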