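/-
CAR-16 (UNR-H), by Riemann–Roch and Galois descent of Riemann–Roch spaces.

Setting: `K0 ⊆ ℚ̄` an intermediate field which is the fixed field of a set `Γ ⊆ G_ℚ`,
`F₀ = K0·F_M` (`FNK ↥K0 M`), `F = ℚ̄·F_M` (`FNK Qb M`), `ι = bcK : F₀ → F` the coefficientwise
base change.  A valuation ring `V ⊇ K0` of `F₀` with a uniformiser `t` ("horizontal prime") is
the restriction of a Prelude place `v` of `F`, and `v` is UNRAMIFIED over `V`: `ord_v (ι t) = 1`.
Hence `ord_v (ι f) = ord_V f` for all `f`, and a `K0`-rational function whose divisor over `ℚ̄`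
is divisible by `m` has `V`-order divisible by `m`.

Proof of `ord_v (ι t) = 1`: it suffices to find ONE `K0`-rational `y` with `ord_v y = 1`.  The
place `v` lies in the finite, `Γ`-stable set of zeros and poles of `ι t`; for the `Γ`-invariant
divisor `B = n·∞ - (zeros and poles of ι t)` the space `L(B)` is stable under the coefficientwise
action of `Γ`, hence spanned by `Γ`-fixed elements (`Lib.Descent.le_span_fixed`); for `n ≫ 0` it
contains an element of exact order `1` at `v` (`bpf_of_degree`), hence a `Γ`-fixed one.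
-/
import Mathlib
import Fermat.Agent.BAD.Dict
import Fermat.Agent.Lib.FF.RRFF1
import Fermat.Agent.Lib.FF.CanonicalFF1
import Fermat.Agent.Lib.FF.PlaceInf
import Fermat.Agent.Lib.FF.BasePoint
import Fermat.Agent.Lib.FF.Holo
import Fermat.Agent.Lib.Descent.Core
import Fermat.Agent.Lib.Descent.Laurent
import Fermat.Agent.ESJ.Dict.Bc
import Fermat.Agent.ESJ.Jac.Defs
import Fermat.Agent.CAR.Formal.NormConj
import Fermat.Agent.CAR.Formal.DescentCore
import Fermat.Agent.Lib.GalQbar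
import Fermat.Agent.CAR.K0

set_option autoImplicit false
set_option linter.style.haveILetI false
set_option linter.unusedSectionVars false

namespace Fermat.Agent.CAR.Formal.HorizontalRR

open AlgebraicCurve ModularCurve Fermat.Agent.Lib.FF Fermat.Agent.BAD.Dict Fermat.Agent.S24
open Fermat.Agent.Lib.FF.PlaceInf Fermat.Agent.ESJ.Jac Fermat.Agent.ESJ.Dict.Bc

local notation "Qb" => AlgebraicClosure ℚ
local notation "GQ" => (AlgebraicClosure ℚ ≃ₐ[ℚ] AlgebraicClosure ℚ)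

/-! ### Generic part: an invariant divisor and an element of exact order -/

section Generic

variable {K F : Type*} [Field K] [Field F] [Algebra K F] {x : F}

theorem ord_inv_smul (g : SemilinearAut K F) (w : Place K F) (f : F) :
    (g⁻¹ • w).ord f = w.ord (g • f) := by
  have := SemilinearAut.ord_smul g (g⁻¹ • w) f
  rw [smul_inv_smul] at this
  exact this.symm

/-- For a function `f` fixed by a set `G` of semilinear automorphisms fixing the place `P₀`, and
a zero or pole `v ≠ P₀` of `f`, there is a divisor `B` of any prescribed degree with `B v = -1`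
whose Riemann–Roch space is stable under `G`. -/
theorem exists_invariant_divisor (h : IsFF1 K F x) (G : Set (SemilinearAut K F))
    (P₀ : Place K F) (hP₀ : ∀ g ∈ G, g • P₀ = P₀) (f : F) (hf : f ≠ 0)
    (hfix : ∀ g ∈ G, g • f = f) (v : Place K F) (hv : v.ord f ≠ 0) (hvP : v ≠ P₀) (d : ℤ) :
    ∃ B : Divisor K F, Divisor.degree B = d ∧ B v = -1 ∧
      ∀ g ∈ G, ∀ y ∈ riemannRochSpace B, g • y ∈ riemannRochSpace B := by
  classical
  obtain ⟨D, hD⟩ := DescentCore.exists_isDiv h hf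
  obtain ⟨E, hE⟩ : ∃ E : Divisor K F, ∀ w, E w = if w.ord f = 0 then 0 else 1 :=
    ⟨Finsupp.onFinset D.support (fun w => if w.ord f = 0 then 0 else 1) (fun w hw => by
      rw [Finsupp.mem_support_iff, hD.2 w]
      intro h0
      simp [h0] at hw), fun w => rfl⟩
  obtain ⟨B, hB⟩ : ∃ B : Divisor K F, B = Finsupp.single P₀ (d + Divisor.degree E) - E :=
    ⟨_, rfl⟩
  have hBw : ∀ w, B w = (if P₀ = w then d + Divisor.degree E else 0)
      - (if w.ord f = 0 then 0 else 1) := fun w => by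
    rw [hB, Finsupp.sub_apply, Finsupp.single_apply, hE]
  refine ⟨B, ?_, ?_, ?_⟩
  · rw [hB, map_sub, Divisor.degree_single, h.deg_eq_one]
    simp
  · rw [hBw, if_neg (Ne.symm hvP), if_neg hv]
    norm_num
  · intro g hg y hy
    have hBinv : ∀ w, B (g⁻¹ • w) = B w := by
      intro w
      have h1 : (g⁻¹ • w).ord f = w.ord f := by rw [ord_inv_smul, hfix g hg]
      have h2 : P₀ = g⁻¹ • w ↔ P₀ = w := by rw [eq_inv_smul_iff, hP₀ g hg]
      rw [hBw, hBw, h1]
      simp only [h2]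
    rw [mem_riemannRochSpace_iff] at hy ⊢
    intro w
    rcases hy (g⁻¹ • w) with h0 | h1
    · left
      rw [h0, smul_zero]
    · right
      rw [← ord_inv_smul, ← hBinv w]
      exact h1

/-- If `L(B)` (`deg B` above the non-speciality bound, `B v = -1`) is spanned by a subset `T`,
some element of `T` has a simple zero at `v`. -/
theorem exists_mem_ord_eq_one (h : IsFF1 K F x) {c : ℤ} (hc : BasePoint.NS K F c)
    (B : Divisor K F) (hdeg : Divisor.degree B = c + 1) (v : Place K F) (hBv : B v = -1)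
    (T : Set F) (hTB : T ⊆ riemannRochSpace B)
    (hT : riemannRochSpace B ≤ Submodule.span K T) : ∃ y ∈ T, v.ord y = 1 := by
  obtain ⟨y₁, hy₁, hy₁v⟩ := BasePoint.bpf_of_degree h hc hdeg.ge v
  have hnot := BasePoint.notMem_of_val_eq hy₁v
  by_contra hcon
  push Not at hcon
  apply hnot
  have hsub : T ⊆ (riemannRochSpace (B - Finsupp.single v (1 : ℤ)) : Set F) := by
    intro y hy
    have hne := hcon y hy
    have hy' := hTB hy
    rw [SetLike.mem_coe, mem_riemannRochSpace_iff] at hy' ⊢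
    intro w
    rcases hy' w with h0 | h1
    · exact Or.inl h0
    · right
      by_cases hw : w = v
      · subst hw
        rw [Finsupp.sub_apply, Finsupp.single_eq_same, hBv]
        rw [hBv] at h1
        omega
      · rw [Finsupp.sub_apply, Finsupp.single_eq_of_ne hw, sub_zero]
        exact h1
  exact (Submodule.span_le.mpr hsub) (hT hy₁)

end Generic

variable (M : ℕ) [NeZero M]

/-! ### A fixed function with a simple zero -/

/-- `J` is fixed by the arithmetic Galois action. -/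
theorem arithmeticGalois_smul_jL (σ : GQ) :
    arithmeticGalois (modularFunctionFieldFull M) σ • jL Qb M = jL Qb M := by
  apply Subtype.ext
  rw [coe_arithmeticGalois_smul]
  exact Fermat.Agent.S28.TD.coeffMap_Jd _ 1

/-- The coefficient family, as a linear map on the function field. -/
noncomputable def coeffFam : FNK Qb M →ₗ[Qb] (ℤ → Qb) where
  toFun y := (y : LaurentSeries Qb).coeff
  map_add' y z := by
    ext i
    simp
  map_smul' r y := by
    ext i
    rw [IntermediateField.coe_smul, Algebra.smul_def, ← Fermat.Agent.Lib.Red.C_eq_algebraMap,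
      Fermat.Agent.Lib.Descent.coeff_C_mul]
    rfl

theorem coeffFam_apply (y : FNK Qb M) (i : ℤ) :
    coeffFam M y i = (y : LaurentSeries Qb).coeff i := rfl

theorem coeffFam_injective : Function.Injective (coeffFam M) := fun _ _ h =>
  Subtype.ext (HahnSeries.ext h)

/-- **Galois descent of Riemann–Roch spaces.**  A finite-dimensional subspace of `ℚ̄·F_M` stable
under the arithmetic Galois action of a set `Γ ⊆ G_ℚ` is spanned by its `Γ`-fixed elements. -/
theorem le_span_fixed_modular (Γ : Set GQ) (L : Submodule Qb (FNK Qb M))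
    [FiniteDimensional Qb L]
    (hL : ∀ σ ∈ Γ, ∀ y ∈ L, arithmeticGalois (modularFunctionFieldFull M) σ • y ∈ L) :
    L ≤ Submodule.span Qb
      {y | y ∈ L ∧ ∀ σ ∈ Γ, arithmeticGalois (modularFunctionFieldFull M) σ • y = y} := by
  set W' : Submodule Qb (ℤ → Qb) := L.map (coeffFam M) with hW'
  have hfinW : FiniteDimensional Qb W' := by rw [hW']; infer_instance
  set Φ : Set (Qb →+* Qb) := {ψ | ∃ σ ∈ Γ, ψ = ((σ : GQ) : Qb →+* Qb)} with hΦ
  have hstab : ∀ ψ ∈ Φ, ∀ x ∈ W', (fun i => ψ (x i)) ∈ W' := by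
    rintro ψ ⟨σ, hσ, rfl⟩ x ⟨y, hy, rfl⟩
    refine ⟨arithmeticGalois (modularFunctionFieldFull M) σ • y, hL σ hσ y hy, ?_⟩
    funext i
    rw [coeffFam_apply, coeffFam_apply, coe_arithmeticGalois_smul, coeffMap_coeff]
  have key := Fermat.Agent.Lib.Descent.le_span_fixed W' Φ hstab
  set T : Set (FNK Qb M) :=
    {y | y ∈ L ∧ ∀ σ ∈ Γ, arithmeticGalois (modularFunctionFieldFull M) σ • y = y} with hT
  have hsub : {x | x ∈ W' ∧ ∀ ψ ∈ Φ, ∀ i, ψ (x i) = x i} ⊆ (coeffFam M) '' T := by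
    rintro x ⟨⟨y, hy, rfl⟩, hx⟩
    refine ⟨y, ⟨hy, fun σ hσ => ?_⟩, rfl⟩
    apply Subtype.ext
    rw [coe_arithmeticGalois_smul]
    ext i
    rw [coeffMap_coeff]
    exact hx _ ⟨σ, hσ, rfl⟩ i
  intro y hy
  have h1 : coeffFam M y ∈ Submodule.span Qb ((coeffFam M) '' T) :=
    Submodule.span_mono hsub (key ⟨y, hy, rfl⟩)
  rw [← Submodule.map_span] at h1
  obtain ⟨z, hz, hzy⟩ := h1
  rwa [← coeffFam_injective M hzy]

/-- **Key lemma.**  If a function `f` fixed by `Γ` has a zero or a pole at the place `v`, then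
some function fixed by `Γ` has a SIMPLE zero at `v`. -/
theorem exists_fixed_ord_eq_one (Γ : Set GQ) (f : FNK Qb M) (hf : f ≠ 0)
    (hfix : ∀ σ ∈ Γ, arithmeticGalois (modularFunctionFieldFull M) σ • f = f)
    (v : Place Qb (FNK Qb M)) (hv : v.ord f ≠ 0) :
    ∃ y : FNK Qb M, (∀ σ ∈ Γ, arithmeticGalois (modularFunctionFieldFull M) σ • y = y) ∧
      v.ord y = 1 := by
  by_cases hvInf : v = placeInfL Qb M
  · subst hvInf
    refine ⟨(jL Qb M)⁻¹, fun σ _ => ?_, ?_⟩
    · rw [smul_inv'', arithmeticGalois_smul_jL]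
    · rw [Place.ord_inv, placeInfL_ord_jL]
      norm_num
  have h := Fermat.Agent.Lib.FF.Res.isFF1_modular M
  obtain ⟨c, hc⟩ := BasePoint.exists_NS h
  obtain ⟨B, hdeg, hBv, hstabL⟩ := exists_invariant_divisor h (DescentCore.galSet M Γ)
    (placeInfL Qb M) (DescentCore.galSet_smul_placeInf M Γ) f hf
    (by rintro _ ⟨σ, hσ, rfl⟩; exact hfix σ hσ) v hv hvInf (c + 1)
  have hfinL : Module.Finite Qb (riemannRochSpace B) := h.finite_L B
  have hspan := le_span_fixed_modular M Γ (riemannRochSpace B)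
    (fun σ hσ y hy => hstabL _ ⟨σ, hσ, rfl⟩ y hy)
  obtain ⟨y, hyT, hy⟩ := exists_mem_ord_eq_one h hc B hdeg v hBv _ (fun y hy => hy.1) hspan
  exact ⟨y, hyT.2, hy⟩

/-! ### The rational form -/

section Rational

variable (K0 : IntermediateField ℚ Qb)

/-- A `K0`-rational function is fixed by every `σ` fixing `K0`. -/
theorem arithmeticGalois_smul_bcK (σ : GQ) (hσ : ∀ x ∈ K0, σ x = x) (f : FNK ↥K0 M) :
    arithmeticGalois (modularFunctionFieldFull M) σ •
      bcK (algebraMap ↥K0 Qb) (modularFunctionFieldFull M) f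
      = bcK (algebraMap ↥K0 Qb) (modularFunctionFieldFull M) f := by
  apply Subtype.ext
  rw [coe_arithmeticGalois_smul, coe_bcK]
  ext i
  rw [coeffMap_coeff, coeffMap_coeff]
  exact hσ _ (SetLike.coe_mem _)

/-- **Key lemma, rational form.**  If a `K0`-rational function has a zero or a pole at the place
`v` of `ℚ̄·F_M`, then some `K0`-rational function has a simple zero at `v`. -/
theorem exists_rational_ord_eq_one (Γ : Set GQ)
    (hK0 : ∀ x : Qb, (∀ σ ∈ Γ, σ x = x) ↔ x ∈ K0) (f : FNK ↥K0 M)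
    (v : Place Qb (FNK Qb M))
    (hv : v.ord (bcK (algebraMap ↥K0 Qb) (modularFunctionFieldFull M) f) ≠ 0) :
    ∃ y : FNK ↥K0 M, v.ord (bcK (algebraMap ↥K0 Qb) (modularFunctionFieldFull M) y) = 1 := by
  have hf : bcK (algebraMap ↥K0 Qb) (modularFunctionFieldFull M) f ≠ 0 := by
    intro h0
    rw [h0, Place.ord_zero] at hv
    exact hv rfl
  obtain ⟨y, hyfix, hy⟩ := exists_fixed_ord_eq_one M Γ _ hf
    (fun σ hσ => arithmeticGalois_smul_bcK M K0 σ (fun x hx => (hK0 x).mpr hx σ hσ) f) v hv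
  obtain ⟨y₀, rfl⟩ := mem_range_bcK (algebraMap ↥K0 Qb) (modularFunctionFieldFull M) y
    (fun k => by
      have hk : (y : LaurentSeries Qb).coeff k ∈ K0 := by
        refine (hK0 _).mp (fun σ hσ => ?_)
        have h1 := congrArg (fun z : FNK Qb M => (z : LaurentSeries Qb).coeff k) (hyfix σ hσ)
        simp only [coe_arithmeticGalois_smul, coeffMap_coeff] at h1
        exact h1
      exact ⟨⟨_, hk⟩, rfl⟩)
  exact ⟨y₀, hy⟩

/-! ### Places above a horizontal valuation ring -/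

/-- **Chevalley.**  Every valuation ring `V ≠ ⊤` of `K0·F_M` containing `K0` is the restriction
of a place of `ℚ̄·F_M`. -/
theorem exists_place_comap_eq (V : ValuationSubring (FNK ↥K0 M))
    (hVK : ∀ a : ↥K0, algebraMap ↥K0 (FNK ↥K0 M) a ∈ V) (hV : V ≠ ⊤) :
    ∃ v : Place Qb (FNK Qb M),
      v.toValuationSubring.comap (bcK (algebraMap ↥K0 Qb) (modularFunctionFieldFull M)) = V := by
  letI : Algebra (FNK ↥K0 M) (FNK Qb M) :=
    (bcK (algebraMap ↥K0 Qb) (modularFunctionFieldFull M)).toAlgebra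
  obtain ⟨V', hV'⟩ := exists_valuationSubring_comap_eq (L := FNK Qb M) V
  have hV'' : V'.comap (bcK (algebraMap ↥K0 Qb) (modularFunctionFieldFull M)) = V := hV'
  -- rational constants lie in `V'`
  have hQ : ∀ c : ℚ, V'.valuation (algebraMap ℚ (FNK Qb M) c) ≤ 1 := by
    intro c
    rw [ValuationSubring.valuation_le_one_iff]
    have h1 : ((c : ℚ) : FNK ↥K0 M) ∈ V := by
      have := hVK (c : ↥K0)
      rwa [map_ratCast] at this
    rw [← hV'', ValuationSubring.mem_comap, map_ratCast] at h1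
    rw [eq_ratCast]
    exact h1
  have hK : ∀ a : Qb, algebraMap Qb (FNK Qb M) a ∈ V' := by
    intro a
    by_contra hcon
    have hy0 : algebraMap Qb (FNK Qb M) a ≠ 0 := fun h0 => hcon (h0 ▸ V'.zero_mem)
    have hlt : V'.valuation (algebraMap Qb (FNK Qb M) a)⁻¹ < 1 := by
      rw [map_inv₀]
      have h1 : 1 < V'.valuation (algebraMap Qb (FNK Qb M) a) := by
        rw [← not_le, ValuationSubring.valuation_le_one_iff]
        exact hcon
      exact inv_lt_one_of_one_lt₀ h1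
    have htr := Holo.transcendental_of_val_lt_one (K := ℚ) V'.valuation hQ (inv_ne_zero hy0) hlt
    apply htr
    rw [← map_inv₀]
    exact ((AlgebraicClosure.isAlgebraic ℚ).isAlgebraic a⁻¹).algebraMap
  have hO : V' ≠ ⊤ := by
    intro htop
    apply hV
    rw [← hV'', htop]
    ext x
    simp
  haveI := finiteDimensional_jBar M
  exact ⟨Holo.placeOfValuationSubring (jBar M) V' hK hO, hV''⟩

variable {M K0}

/-- Units of `V` have order `0` at a place above `V`. -/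
theorem ord_bcK_eq_zero_of_unit {V : ValuationSubring (FNK ↥K0 M)} {v : Place Qb (FNK Qb M)}
    (hv : v.toValuationSubring.comap (bcK (algebraMap ↥K0 Qb) (modularFunctionFieldFull M)) = V)
    {u : FNK ↥K0 M} (hu : u ∈ V) (hu' : u⁻¹ ∈ V) :
    v.ord (bcK (algebraMap ↥K0 Qb) (modularFunctionFieldFull M) u) = 0 := by
  rw [← hv, ValuationSubring.mem_comap] at hu hu'
  have h1 := ord_nonneg_of_mem v hu
  have h2 := ord_nonneg_of_mem v hu'
  rw [map_inv₀, Place.ord_inv] at h2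
  omega

/-- Nonzero nonunits of `V` have positive order at a place above `V`. -/
theorem ord_bcK_pos_of_nonunit {V : ValuationSubring (FNK ↥K0 M)} {v : Place Qb (FNK Qb M)}
    (hv : v.toValuationSubring.comap (bcK (algebraMap ↥K0 Qb) (modularFunctionFieldFull M)) = V)
    {t : FNK ↥K0 M} (ht : t ∈ V.nonunits) (ht0 : t ≠ 0) :
    0 < v.ord (bcK (algebraMap ↥K0 Qb) (modularFunctionFieldFull M) t) := by
  rw [ValuationSubring.mem_nonunits_iff_or] at ht
  have h1 : t⁻¹ ∉ V := ht.resolve_left ht0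
  rw [← hv, ValuationSubring.mem_comap, map_inv₀, notMem_iff_ord_neg, Place.ord_inv] at h1
  omega

/-- The order at a place above `V` of `t ^ n * u`, `u` a unit of `V`. -/
theorem ord_bcK_zpow_mul {V : ValuationSubring (FNK ↥K0 M)} {v : Place Qb (FNK Qb M)}
    (hv : v.toValuationSubring.comap (bcK (algebraMap ↥K0 Qb) (modularFunctionFieldFull M)) = V)
    {t : FNK ↥K0 M} (ht0 : t ≠ 0) (n : ℤ) {u : FNK ↥K0 M} (hu : u ∈ V) (hu' : u⁻¹ ∈ V)
    (hu0 : u ≠ 0) :
    v.ord (bcK (algebraMap ↥K0 Qb) (modularFunctionFieldFull M) (t ^ n * u))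
      = n * v.ord (bcK (algebraMap ↥K0 Qb) (modularFunctionFieldFull M) t) := by
  rw [map_mul, map_zpow₀,
    v.ord_mul (zpow_ne_zero _ ((map_ne_zero _).mpr ht0)) ((map_ne_zero _).mpr hu0),
    Place.ord_zpow, ord_bcK_eq_zero_of_unit hv hu hu', add_zero]

/-- **(UNR-H), unramifiedness.**  A uniformiser `t` of a valuation ring `V` of `K0·F_M` has a
SIMPLE zero at every place of `ℚ̄·F_M` above `V` (`K0` the fixed field of `Γ`). -/
theorem ord_bcK_uniformizer (Γ : Set GQ) (hK0 : ∀ x : Qb, (∀ σ ∈ Γ, σ x = x) ↔ x ∈ K0)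
    {V : ValuationSubring (FNK ↥K0 M)} {v : Place Qb (FNK Qb M)}
    (hv : v.toValuationSubring.comap (bcK (algebraMap ↥K0 Qb) (modularFunctionFieldFull M)) = V)
    {t : FNK ↥K0 M} (ht : t ∈ V.nonunits) (ht0 : t ≠ 0)
    (hunif : ∀ z : FNK ↥K0 M, z ≠ 0 →
      ∃ (n : ℤ) (u : FNK ↥K0 M), u ∈ V ∧ u⁻¹ ∈ V ∧ z = t ^ n * u) :
    v.ord (bcK (algebraMap ↥K0 Qb) (modularFunctionFieldFull M) t) = 1 := by
  have hpos := ord_bcK_pos_of_nonunit hv ht ht0
  obtain ⟨y, hy⟩ := exists_rational_ord_eq_one M K0 Γ hK0 t v hpos.ne'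
  have hy0 : y ≠ 0 := by
    rintro rfl
    rw [map_zero, Place.ord_zero] at hy
    exact zero_ne_one hy
  obtain ⟨b, u, hu, hu', rfl⟩ := hunif y hy0
  have hu0 : u ≠ 0 := right_ne_zero_of_mul hy0
  rw [ord_bcK_zpow_mul hv ht0 b hu hu' hu0] at hy
  exact Int.eq_one_of_mul_eq_one_left hpos.le hy

/-- **(UNR-H), orders.**  `ord_v (ι (t ^ n * u)) = n` at every place `v` above `V`. -/
theorem ord_bcK_eq (Γ : Set GQ) (hK0 : ∀ x : Qb, (∀ σ ∈ Γ, σ x = x) ↔ x ∈ K0)
    {V : ValuationSubring (FNK ↥K0 M)} {v : Place Qb (FNK Qb M)}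
    (hv : v.toValuationSubring.comap (bcK (algebraMap ↥K0 Qb) (modularFunctionFieldFull M)) = V)
    {t : FNK ↥K0 M} (ht : t ∈ V.nonunits) (ht0 : t ≠ 0)
    (hunif : ∀ z : FNK ↥K0 M, z ≠ 0 →
      ∃ (n : ℤ) (u : FNK ↥K0 M), u ∈ V ∧ u⁻¹ ∈ V ∧ z = t ^ n * u)
    (n : ℤ) {u : FNK ↥K0 M} (hu : u ∈ V) (hu' : u⁻¹ ∈ V) (hu0 : u ≠ 0) :
    v.ord (bcK (algebraMap ↥K0 Qb) (modularFunctionFieldFull M) (t ^ n * u)) = n := by
  rw [ord_bcK_zpow_mul hv ht0 n hu hu' hu0, ord_bcK_uniformizer Γ hK0 hv ht ht0 hunif, mul_one]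

/-- **(UNR-H), `IsUnif` form.**  For a discrete valuation subring `V` of `K0·F_M` with
uniformiser `t` and a place `v` of `ℚ̄·F_M` above `V`: `ord_v (ι z) = ord_V z`. -/
theorem ord_bcK_eq_ord (Γ : Set GQ) (hK0 : ∀ x : Qb, (∀ σ ∈ Γ, σ x = x) ↔ x ∈ K0)
    {V : ValuationSubring (FNK ↥K0 M)} {v : Place Qb (FNK Qb M)}
    (hv : v.toValuationSubring.comap (bcK (algebraMap ↥K0 Qb) (modularFunctionFieldFull M)) = V)
    {t : FNK ↥K0 M} (hU : IsUnif V t) (z : FNK ↥K0 M) :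
    v.ord (bcK (algebraMap ↥K0 Qb) (modularFunctionFieldFull M) z) = hU.ord z := by
  by_cases hz : z = 0
  · rw [hz, map_zero, Place.ord_zero, IsUnif.ord_zero]
  obtain ⟨u, hu, hu', hu0, he⟩ := hU.exists_unit_eq hz
  conv_lhs => rw [he]
  exact ord_bcK_eq Γ hK0 hv hU.mem_nonunits hU.ne_zero hU.exists_zpow _ hu hu' hu0

variable (M K0)

/-- **(UNR-H), existence.**  Every discrete valuation subring `V ⊇ K0` of `K0·F_M` with
uniformiser `t` is the restriction of a place `v` of `ℚ̄·F_M` with `ord_v (ι z) = ord_V z`. -/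
theorem exists_place_ord_eq (Γ : Set GQ) (hK0 : ∀ x : Qb, (∀ σ ∈ Γ, σ x = x) ↔ x ∈ K0)
    (V : ValuationSubring (FNK ↥K0 M))
    (hVK : ∀ a : ↥K0, algebraMap ↥K0 (FNK ↥K0 M) a ∈ V) (t : FNK ↥K0 M) (hU : IsUnif V t) :
    ∃ v : Place Qb (FNK Qb M),
      v.toValuationSubring.comap (bcK (algebraMap ↥K0 Qb) (modularFunctionFieldFull M)) = V ∧
      ∀ z : FNK ↥K0 M,
        v.ord (bcK (algebraMap ↥K0 Qb) (modularFunctionFieldFull M) z) = hU.ord z := by
  obtain ⟨v, hv⟩ := exists_place_comap_eq M K0 V hVK hU.ne_top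
  exact ⟨v, hv, ord_bcK_eq_ord Γ hK0 hv hU⟩

/-- **(UNR-H), consumer form.**  If all orders of the `K0`-rational function `f` at the places
of `ℚ̄·F_M` are divisible by `m`, then so is its order at every valuation ring `V ⊇ K0` of
`K0·F_M` with a uniformiser `t`: `f = t ^ n * u`, `u ∈ V^×` implies `m ∣ n`. -/
theorem dvd_of_forall_place_dvd (Γ : Set GQ) (hK0 : ∀ x : Qb, (∀ σ ∈ Γ, σ x = x) ↔ x ∈ K0)
    (m : ℕ) (f : FNK ↥K0 M) (hf : f ≠ 0)
    (hdiv : ∀ v : Place Qb (FNK Qb M),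
      (m : ℤ) ∣ v.ord (bcK (algebraMap ↥K0 Qb) (modularFunctionFieldFull M) f))
    (V : ValuationSubring (FNK ↥K0 M))
    (hVK : ∀ a : ↥K0, algebraMap ↥K0 (FNK ↥K0 M) a ∈ V) (t : FNK ↥K0 M) (ht : t ∈ V.nonunits)
    (hunif : ∀ z : FNK ↥K0 M, z ≠ 0 →
      ∃ (n : ℤ) (u : FNK ↥K0 M), u ∈ V ∧ u⁻¹ ∈ V ∧ z = t ^ n * u)
    (n : ℤ) (u : FNK ↥K0 M) (hu : u ∈ V) (hu' : u⁻¹ ∈ V) (hfn : f = t ^ n * u) :
    (m : ℤ) ∣ n := by
  by_cases hn : n = 0
  · rw [hn]
    exact dvd_zero _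
  have ht0 : t ≠ 0 := by
    rintro rfl
    rw [zero_zpow n hn, zero_mul] at hfn
    exact hf hfn
  have hV : V ≠ ⊤ := by
    intro htop
    rw [ValuationSubring.mem_nonunits_iff_or] at ht
    exact (ht.resolve_left ht0) (htop ▸ ValuationSubring.mem_top _)
  obtain ⟨v, hv⟩ := exists_place_comap_eq M K0 V hVK hV
  have hu0 : u ≠ 0 := by
    rintro rfl
    rw [mul_zero] at hfn
    exact hf hfn
  have h1 := hdiv v
  rwa [hfn, ord_bcK_eq Γ hK0 hv ht ht0 hunif n hu hu' hu0] at h1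

/-- **(UNR-H), divisor form.**  If the divisor over `ℚ̄` of the `K0`-rational function `f` is
`m • D`, then `m` divides the order of `f` at every discrete valuation subring `V ⊇ K0` of
`K0·F_M`. -/
theorem dvd_ord_of_isDiv (Γ : Set GQ) (hK0 : ∀ x : Qb, (∀ σ ∈ Γ, σ x = x) ↔ x ∈ K0)
    (m : ℕ) (f : FNK ↥K0 M) (D : Divisor Qb (FNK Qb M))
    (hD : IsDiv (m • D) (bcK (algebraMap ↥K0 Qb) (modularFunctionFieldFull M) f))
    (V : ValuationSubring (FNK ↥K0 M))
    (hVK : ∀ a : ↥K0, algebraMap ↥K0 (FNK ↥K0 M) a ∈ V) (t : FNK ↥K0 M) (hU : IsUnif V t) :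
    (m : ℤ) ∣ hU.ord f := by
  obtain ⟨v, -, hv⟩ := exists_place_ord_eq M K0 Γ hK0 V hVK t hU
  rw [← hv f, ← hD.2 v, Finsupp.smul_apply, nsmul_eq_mul]
  exact dvd_mul_right _ _

end Rational

/-! ### Forms without the auxiliary set `Γ` (any intermediate field `K0`) -/

section Free

variable (M : ℕ) [NeZero M] (K0 : IntermediateField ℚ Qb)

/-- Every intermediate field of `ℚ̄/ℚ` is the fixed field of its fixing subgroup. -/
theorem fixingSubgroup_fixed_iff (x : Qb) :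
    (∀ σ ∈ (K0.fixingSubgroup : Set GQ), σ x = x) ↔ x ∈ K0 := by
  have := Fermat.Agent.Lib.GalQbar.isGalois_rat
  conv_rhs => rw [← InfiniteGalois.fixedField_fixingSubgroup K0]
  rw [IntermediateField.mem_fixedField_iff]
  rfl

/-- **(UNR-H), existence.**  Every discrete valuation subring `V ⊇ K0` of `K0·F_M` with
uniformiser `t` is the restriction of a place `v` of `ℚ̄·F_M` with `ord_v (ι z) = ord_V z`. -/
theorem exists_place_isUnif_ord_eq (V : ValuationSubring (FNK ↥K0 M))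
    (hVK : ∀ a : ↥K0, algebraMap ↥K0 (FNK ↥K0 M) a ∈ V) {t : FNK ↥K0 M} (hU : IsUnif V t) :
    ∃ v : Place Qb (FNK Qb M),
      v.toValuationSubring.comap (bcK (algebraMap ↥K0 Qb) (modularFunctionFieldFull M)) = V ∧
      ∀ z : FNK ↥K0 M,
        v.ord (bcK (algebraMap ↥K0 Qb) (modularFunctionFieldFull M) z) = hU.ord z :=
  exists_place_ord_eq M K0 _ (fixingSubgroup_fixed_iff K0) V hVK t hU

/-- **(UNR-H), divisor form.**  `IsDiv (m • D) (ι f)` implies `m ∣ ord_V f` for every discrete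
valuation subring `V ⊇ K0` of `K0·F_M`. -/
theorem dvd_isUnif_ord_of_isDiv (V : ValuationSubring (FNK ↥K0 M))
    (hVK : ∀ a : ↥K0, algebraMap ↥K0 (FNK ↥K0 M) a ∈ V) {t : FNK ↥K0 M} (hU : IsUnif V t)
    {m : ℕ} {f : FNK ↥K0 M} {D : Divisor Qb (FNK Qb M)}
    (hD : IsDiv (m • D) (bcK (algebraMap ↥K0 Qb) (modularFunctionFieldFull M) f)) :
    (m : ℤ) ∣ hU.ord f :=
  dvd_ord_of_isDiv M K0 _ (fixingSubgroup_fixed_iff K0) m f D hD V hVK t hU

/-- **(UNR-H), the form consumed by CAR-13 (b)(hor).**  `IsDiv (m • D) (ι f)` implies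
`f = t ^ (m * a) * u`, `u` a unit of `V`, for every discrete valuation subring `V ⊇ K0` of
`K0·F_M` with uniformiser `t`. -/
theorem exists_zpow_mul_unit_of_isDiv (V : ValuationSubring (FNK ↥K0 M))
    (hVK : ∀ a : ↥K0, algebraMap ↥K0 (FNK ↥K0 M) a ∈ V) {t : FNK ↥K0 M} (hU : IsUnif V t)
    {m : ℕ} {f : FNK ↥K0 M} {D : Divisor Qb (FNK Qb M)}
    (hD : IsDiv (m • D) (bcK (algebraMap ↥K0 Qb) (modularFunctionFieldFull M) f)) :
    ∃ (a : ℤ) (u : FNK ↥K0 M), u ∈ V ∧ u⁻¹ ∈ V ∧ f = t ^ ((m : ℤ) * a) * u := by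
  have hf : f ≠ 0 := fun h0 => hD.1 (by rw [h0, map_zero])
  obtain ⟨a, ha⟩ := dvd_isUnif_ord_of_isDiv M K0 V hVK hU hD
  obtain ⟨u, hu, hu', -, he⟩ := hU.exists_unit_eq hf
  exact ⟨a, u, hu, hu', by rw [← ha]; exact he⟩

/-- **(UNR-H), `m`-th power form.**  `IsDiv (m • D) (ι f)` implies that `g ^ m * f` is a unit of
`V` for some `g ≠ 0`, for every discrete valuation subring `V ⊇ K0` of `K0·F_M`. -/
theorem exists_pow_mul_unit_of_isDiv (V : ValuationSubring (FNK ↥K0 M))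
    (hVK : ∀ a : ↥K0, algebraMap ↥K0 (FNK ↥K0 M) a ∈ V) {t : FNK ↥K0 M} (hU : IsUnif V t)
    {m : ℕ} {f : FNK ↥K0 M} {D : Divisor Qb (FNK Qb M)}
    (hD : IsDiv (m • D) (bcK (algebraMap ↥K0 Qb) (modularFunctionFieldFull M) f)) :
    ∃ g : FNK ↥K0 M, g ≠ 0 ∧ g ^ m * f ∈ V ∧ (g ^ m * f)⁻¹ ∈ V := by
  obtain ⟨a, u, hu, hu', he⟩ := exists_zpow_mul_unit_of_isDiv M K0 V hVK hU hD
  have key : (t ^ (-a)) ^ m * f = u := by
    rw [he, ← zpow_natCast, ← zpow_mul, ← mul_assoc, ← zpow_add₀ hU.ne_zero]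
    have h0 : -a * (m : ℤ) + (m : ℤ) * a = 0 := by ring
    rw [h0, zpow_zero, one_mul]
  refine ⟨t ^ (-a), zpow_ne_zero _ hU.ne_zero, ?_, ?_⟩
  · rw [key]; exact hu
  · rw [key]; exact hu'

end Free

/-! ### The constants: `W0 ⊆ V` and `q⁻¹ ∈ V` give `K0 ⊆ V` -/

section Constants

variable (M : ℕ) [NeZero M]

theorem zpow_mem_of_mem_of_inv_mem {F : Type*} [Field F] (V : ValuationSubring F) {x : F}
    (hx : x ∈ V) (hx' : x⁻¹ ∈ V) (n : ℤ) : x ^ n ∈ V := by
  obtain ⟨k, rfl | rfl⟩ := n.eq_nat_or_neg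
  · rw [zpow_natCast]
    exact pow_mem hx k
  · rw [zpow_neg, zpow_natCast, ← inv_pow]
    exact pow_mem hx' k

/-- A valuation subring of `K0·F_M` (`K0` the inertia field at `q`) containing `W0` and `q⁻¹`
contains `K0`. -/
theorem algebraMap_mem_of_W0 {q : ℕ} (hq : q.Prime) {A : ValuationSubring Qb}
    (hA : A.LiesOverPrime q) (V : ValuationSubring (FNK ↥(Fermat.Agent.CAR.K0.K0 A) M))
    (hW : ∀ w : Fermat.Agent.CAR.K0.W0 A,
      algebraMap ↥(Fermat.Agent.CAR.K0.K0 A) (FNK ↥(Fermat.Agent.CAR.K0.K0 A) M)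
        (w : ↥(Fermat.Agent.CAR.K0.K0 A)) ∈ V)
    (hqV : ((q : ℕ) : FNK ↥(Fermat.Agent.CAR.K0.K0 A) M)⁻¹ ∈ V) :
    ∀ a : ↥(Fermat.Agent.CAR.K0.K0 A),
      algebraMap ↥(Fermat.Agent.CAR.K0.K0 A) (FNK ↥(Fermat.Agent.CAR.K0.K0 A) M) a ∈ V := by
  intro a
  by_cases ha : a = 0
  · rw [ha, map_zero]
    exact V.zero_mem
  obtain ⟨n, u, hu, -, rfl⟩ := Fermat.Agent.CAR.K0.exists_pow_mul_unit hq hA a ha
  rw [map_mul, map_zpow₀, map_natCast]
  have hqmem : ((q : ℕ) : FNK ↥(Fermat.Agent.CAR.K0.K0 A) M) ∈ V := by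
    have h1 := hW ⟨(q : ↥(Fermat.Agent.CAR.K0.K0 A)), by
      rw [Fermat.Agent.CAR.K0.mem_W0_iff]
      have : (((q : ℕ) : ↥(Fermat.Agent.CAR.K0.K0 A)) : Qb) = ((q : ℕ) : Qb) := by
        push_cast
        rfl
      rw [this]
      exact natCast_mem A q⟩
    rwa [map_natCast] at h1
  exact V.mul_mem _ _ (zpow_mem_of_mem_of_inv_mem V hqmem hqV n) (hW ⟨u, hu⟩)

end Constants

end Fermat.Agent.CAR.Formal.HorizontalRR
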