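/-
CAR (F-bc), brick 6: the CONSTANTS of the normal form.

`K0 = ℚ̄^I` the inertia field at a prime `q`, `m` prime to `q`: every nonzero `c ∈ K0` is
`q ^ n · c' ^ m` with `c' ∈ K0` (units of `W0` are `m`-th powers in `K0`: an `m`-th root in `ℚ̄`
of a unit of `K0` is fixed by inertia, because the `m`-th roots of unity are distinct modulo the
maximal ideal).  This is the hypothesis `hCst` of `NF.Data.normalForm_of_const` for
`Cst = range (algebraMap K0 FN)` (with `ε = 1`).
-/
import Mathlib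
import Fermat.Agent.CAR.K0

set_option autoImplicit false

namespace Fermat.Agent.CAR.Formal.ConstRoot

open Fermat.Agent.CAR.K0

local notation "Qb" => AlgebraicClosure ℚ

/-- An element of `ℚ̄` of valuation one whose `m`-th power lies in `K0` lies in `K0`
(`m` prime to `q`). -/
theorem mem_K0_of_pow_mem {q : ℕ} (hq : q.Prime) (A : ValuationSubring Qb)
    (hA : A.LiesOverPrime q) {m : ℕ} (hm : Nat.Coprime m q) {z : Qb} (hz : z ^ m ∈ K0 A)
    (hval : A.valuation z = 1) : z ∈ K0 A := by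
  rw [mem_K0_iff] at hz ⊢
  intro σ hσ
  have hz0 : z ≠ 0 := by
    rintro rfl
    rw [map_zero] at hval
    exact zero_ne_one hval
  have hqm : ¬ q ∣ m := (Nat.Prime.coprime_iff_not_dvd hq).mp hm.symm
  have hξ : (σ z / z) ^ m = 1 := by
    rw [div_pow, ← map_pow, hz σ hσ, div_self (pow_ne_zero _ hz0)]
  have h := Fermat.Agent.S05.inertia_spec A σ hσ z hval.le
  have h2 : A.valuation (σ z / z - 1) < 1 := by
    have e : σ z / z - 1 = (σ z - z) / z := by
      field_simp
    rw [e, map_div₀, hval, div_one]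
    exact h
  have h3 := eq_one_of_pow_eq_one_of_valuation_sub_one hq A hA hqm hξ h2
  rwa [div_eq_one_iff_eq hz0] at h3

/-- Units of `W0` are `m`-th powers in `K0` for `m` prime to `q`. -/
theorem exists_root_unit {q : ℕ} (hq : q.Prime) (A : ValuationSubring Qb)
    (hA : A.LiesOverPrime q) {m : ℕ} (hm : Nat.Coprime m q) (u : K0 A) (hu : u ∈ W0 A)
    (hu' : u⁻¹ ∈ W0 A) (hu0 : u ≠ 0) : ∃ c' : K0 A, u = c' ^ m := by
  have hm0 : m ≠ 0 := by
    rintro rfl
    rw [Nat.coprime_zero_left] at hm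
    exact hq.one_lt.ne' hm
  obtain ⟨z, hz⟩ := IsAlgClosed.exists_pow_nat_eq (u : Qb) (Nat.pos_of_ne_zero hm0)
  have hvu : A.valuation (u : Qb) = 1 := by
    have h1 : A.valuation (u : Qb) ≤ 1 := (A.valuation_le_one_iff _).mpr ((mem_W0_iff A u).mp hu)
    have h2 : A.valuation ((u⁻¹ : K0 A) : Qb) ≤ 1 :=
      (A.valuation_le_one_iff _).mpr ((mem_W0_iff A u⁻¹).mp hu')
    have h3 : ((u⁻¹ : K0 A) : Qb) = ((u : Qb))⁻¹ := by
      push_cast
      rfl
    rw [h3, map_inv₀] at h2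
    have hu0' : A.valuation (u : Qb) ≠ 0 := by
      rw [Valuation.ne_zero_iff]
      exact fun h => hu0 (Subtype.ext h)
    exact le_antisymm h1 ((inv_le_one₀ (zero_lt_iff.mpr hu0')).mp h2)
  have hvz : A.valuation z = 1 := by
    have h1 : A.valuation z ^ m = 1 := by rw [← map_pow, hz, hvu]
    exact (pow_eq_one_iff_of_nonneg zero_le hm0).mp h1
  have hzK : z ∈ K0 A := mem_K0_of_pow_mem hq A hA hm (by rw [hz]; exact u.2) hvz
  refine ⟨⟨z, hzK⟩, Subtype.ext ?_⟩
  push_cast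
  exact hz.symm

/-- **Every nonzero element of `K0` is `q ^ n` times an `m`-th power** (`m` prime to `q`). -/
theorem exists_zpow_mul_pow {q : ℕ} (hq : q.Prime) (A : ValuationSubring Qb)
    (hA : A.LiesOverPrime q) {m : ℕ} (hm : Nat.Coprime m q) (c : K0 A) (hc : c ≠ 0) :
    ∃ (n : ℤ) (c' : K0 A), c = (q : K0 A) ^ n * c' ^ m := by
  obtain ⟨n, u, hu, hu', hcu⟩ := exists_pow_mul_unit hq hA c hc
  have hu0 : u ≠ 0 := by
    rintro rfl
    rw [mul_zero] at hcu
    exact hc hcu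
  obtain ⟨c', hc'⟩ := exists_root_unit hq A hA hm u hu hu' hu0
  exact ⟨n, c', by rw [hcu, hc']⟩

/-- The hypothesis `hCst` of `NF.Data.normalForm_of_const` for the constants coming from a field
`L` in which every nonzero element is `q ^ n` times an `m`-th power. -/
theorem hCst_of_root {L FN : Type*} [Field L] [Field FN] [Algebra L FN] (q m : ℕ)
    (PA PC : ValuationSubring FN)
    (h : ∀ c : L, c ≠ 0 → ∃ (n : ℤ) (c' : L), c = (q : L) ^ n * c' ^ m) :
    ∀ c ∈ Set.range (algebraMap L FN), c ≠ 0 → ∃ (n : ℤ) (c' ε : FN),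
      c = (q : FN) ^ n * c' ^ m * ε ∧ ε - 1 ∈ PA.nonunits ∧ ε - 1 ∈ PC.nonunits := by
  rintro _ ⟨c, rfl⟩ hc
  have hc0 : c ≠ 0 := by
    rintro rfl
    exact hc (map_zero _)
  obtain ⟨n, c', hcc⟩ := h c hc0
  refine ⟨n, algebraMap L FN c', 1, ?_, ?_, ?_⟩
  · rw [hcc, map_mul, map_zpow₀, map_pow, map_natCast, mul_one]
  · rw [sub_self]
    exact PA.nonunits.zero_mem
  · rw [sub_self]
    exact PC.nonunits.zero_mem

end Fermat.Agent.CAR.Formal.ConstRoot
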