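/-
CAR (F-bc), brick 7: the INSTANCE of `NF.Data` at level `M' q²` over `M' q`.

For a general base `(L, A, π)` with `BadSetup A π M' q` (instance: `(K0, W0, resW0)`):
`FN` = level `M' q`, `F` = level `M' q²`, `α^* = heckeAlphaBar L (M' q) q`,
`β^* = heckeBetaBar L (M' q) q`, `PA = OInf h`, `PC = OZero h W`, `Oa = OInf3 h`,
`Oc = w⁻¹(OInf3 h)` (`= OZero3 h w`), and `Ob` the middle valuation ring.

Everything on the `inf` / `0` side is proved here from `V3/Restrict.lean` and `BAD/TwoVal`;
the inputs on the `mid` side (discreteness with `ord_mid q = q - 1`, the two restrictions, residue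
degree one) and the four "exactly these valuations above" statements are hypotheses, in the
literal shape of the fields of `NF.Data`.
-/
import Mathlib
import Fermat.Agent.CAR.Formal.NormalForm
import Fermat.Agent.CAR.V3.Restrict

set_option autoImplicit false

namespace Fermat.Agent.CAR.Formal.NormInst

open HahnSeries ModularCurve AlgebraicCurve Fermat.Agent.Lib.Red
open Fermat.Agent.BAD.TwoVal Fermat.Agent.CAR.Formal Fermat.Agent.CAR.V3
open Fermat.Agent.CAR.V3.Restrict

noncomputable section

/-- a non-unit of a valuation subring lies in its maximal ideal -/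
theorem coe_mem_nonunits_of_not_isUnit {E : Type*} [Field E] (O : ValuationSubring E) (f : O)
    (hf : ¬ IsUnit f) : (f : E) ∈ O.nonunits :=
  ValuationSubring.coe_mem_nonunits_iff.mpr ((IsLocalRing.mem_maximalIdeal f).mpr hf)

variable {L : Type} [Field L] [Algebra ℚ L] {A : ValuationSubring L} {k : Type} [Field k]
  {π : A →+* k} {M' q : ℕ} [NeZero M'] [NeZero q]

/-- finite extensions of the function fields are separable (characteristic zero) -/
theorem isSeparable_along (N₁ N₂ : ℕ)
    (φ : laurentBaseChange L (modularFunctionFieldFull N₁) →ₐ[L]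
      laurentBaseChange L (modularFunctionFieldFull N₂))
    (hfin : FiniteAlong L φ) :
    letI := φ.toRingHom.toAlgebra
    Algebra.IsSeparable ↥(laurentBaseChange L (modularFunctionFieldFull N₁))
      ↥(laurentBaseChange L (modularFunctionFieldFull N₂)) := by
  letI := φ.toRingHom.toAlgebra
  haveI : Module.Finite ↥(laurentBaseChange L (modularFunctionFieldFull N₁))
      ↥(laurentBaseChange L (modularFunctionFieldFull N₂)) := hfin
  haveI : CharZero L := algebraRat.charZero L
  haveI : CharZero ↥(laurentBaseChange L (modularFunctionFieldFull N₁)) :=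
    charZero_of_injective_algebraMap
      (algebraMap L ↥(laurentBaseChange L (modularFunctionFieldFull N₁))).injective
  infer_instance

variable [Fact q.Prime] [CharP k q] [PerfectRing k q]

/-- **The instance of `NF.Data`** for the two degeneracy maps from level `M' q` to level `M' q²`,
given the middle valuation ring `Ob` and the count. -/
theorem nfData_of (h : BadSetup A π M' q) (hsurj : Function.Surjective π)
    (hAq : IsUnif A ((q : ℕ) : L))
    {W : laurentBaseChange L (modularFunctionFieldFull (M' * q)) ≃ₐ[L]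
      laurentBaseChange L (modularFunctionFieldFull (M' * q))} (hW : IsAL M' q W)
    {w : laurentBaseChange L (modularFunctionFieldFull (M' * q * q)) ≃ₐ[L]
      laurentBaseChange L (modularFunctionFieldFull (M' * q * q))}
    (h0 : ∀ y, w (piStar0 L M' q y) = piStar2 L M' q y)
    (h1 : ∀ y, w (piStar1 L M' q y) = piStar1 L M' q y)
    (h2 : ∀ y, w (piStar2 L M' q y) = piStar0 L M' q y)
    {Ob : ValuationSubring ↥(laurentBaseChange L (modularFunctionFieldFull (M' * q * q)))}
    {d : ↥(laurentBaseChange L (modularFunctionFieldFull (M' * q * q)))}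
    (hb : IsUnif Ob d)
    (hbq : hb.ord ((q : ℕ) : ↥(laurentBaseChange L (modularFunctionFieldFull (M' * q * q)))) =
      (q : ℤ) - 1)
    (hbα : Ob.comap (heckeAlphaBar L (M' * q) q).toRingHom = OInf h)
    (hbβ : Ob.comap (heckeBetaBar L (M' * q) q).toRingHom = OZero h W)
    (hresαb : ∀ g ∈ Ob, ∃ c ∈ OInf h, g - (heckeAlphaBar L (M' * q) q).toRingHom c ∈ Ob.nonunits)
    (hresβb : ∀ g ∈ Ob, ∃ c ∈ OZero h W,
      g - (heckeBetaBar L (M' * q) q).toRingHom c ∈ Ob.nonunits)
    (hallαA : ∀ v : ValuationSubring ↥(laurentBaseChange L (modularFunctionFieldFull (M' * q * q))),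
      v.comap (heckeAlphaBar L (M' * q) q).toRingHom = OInf h → v = OInf3 h ∨ v = Ob)
    (hallαC : ∀ v : ValuationSubring ↥(laurentBaseChange L (modularFunctionFieldFull (M' * q * q))),
      v.comap (heckeAlphaBar L (M' * q) q).toRingHom = OZero h W →
        v = (OInf3 h).comap w.toRingEquiv.toRingHom)
    (hallβA : ∀ v : ValuationSubring ↥(laurentBaseChange L (modularFunctionFieldFull (M' * q * q))),
      v.comap (heckeBetaBar L (M' * q) q).toRingHom = OInf h → v = OInf3 h)
    (hallβC : ∀ v : ValuationSubring ↥(laurentBaseChange L (modularFunctionFieldFull (M' * q * q))),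
      v.comap (heckeBetaBar L (M' * q) q).toRingHom = OZero h W →
        v = Ob ∨ v = (OInf3 h).comap w.toRingEquiv.toRingHom) :
    NF.Data (heckeAlphaBar L (M' * q) q).toRingHom (heckeBetaBar L (M' * q) q).toRingHom q
      (OInf h) (OZero h W) (OInf3 h) Ob ((OInf3 h).comap w.toRingEquiv.toRingHom)
      ((q : ℕ) : ↥(laurentBaseChange L (modularFunctionFieldFull (M' * q))))
      ((q : ℕ) : ↥(laurentBaseChange L (modularFunctionFieldFull (M' * q * q)))) d := by
  have hq : q.Prime := h.hℓ
  have hA' := isUnif_OInf_natCast h q hAq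
  have hC' := isUnif_OZero_natCast h W q hAq
  have ha' := isUnif_OInf3_natCast h q hAq
  have hc' := isUnif_comap_OInf3_natCast h w q hAq
  -- the residue maps of level `M' q` are onto
  have hsA : ∀ z : modularFunctionFieldFullC k M', ∃ c, ∃ hc : c ∈ OInf h,
      redInf h ⟨c, hc⟩ = z := by
    intro z
    obtain ⟨c, hc1, -, hr, -⟩ := joint_surjective h hW hsurj z 0
    exact ⟨c, hc1, hr⟩
  have hsC : ∀ z : modularFunctionFieldFullC k M', ∃ c, ∃ hc : c ∈ OZero h W,
      redZero h W ⟨c, hc⟩ = z := by
    intro z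
    obtain ⟨c, -, hc2, -, hr⟩ := joint_surjective h hW hsurj 0 z
    exact ⟨c, hc2, hr⟩
  refine
    { hq := hq
      finα := finiteAlong_alphaStar L M' q hq
      sepα := isSeparable_along _ _ _ (finiteAlong_alphaStar L M' q hq)
      degα := finrank_alphaStar L M' q hq
      finβ := finiteAlong_betaStar L M' q hq
      sepβ := isSeparable_along _ _ _ (finiteAlong_betaStar L M' q hq)
      degβ := finrank_betaStar L M' q hq
      hA := hA'
      hC := hC'
      ha := ha'
      hb := hb
      hc := hc'
      ordb := hbq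
      αϖ := map_natCast _ q
      βϖ := map_natCast _ q
      qA := hA'.mem_nonunits
      qC := hC'.mem_nonunits
      hAC := OInf_ne_OZero h hW
      αa := comap_alpha_OInf3 h
      αb := hbα
      αc := comap_alpha_comap_OInf3 h hW h0 h1
      βa := comap_beta_OInf3 h
      βb := hbβ
      βc := comap_beta_comap_OInf3 h hW h1 h2
      allαA := hallαA
      allαC := hallαC
      allβA := hallβA
      allβC := hallβC
      resαa := ?_
      resαb := hresαb
      resαc := ?_
      resβa := ?_
      resβb := hresβb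
      resβc := ?_ }
  · -- `resαa`
    intro g hg
    obtain ⟨c, hc, hr⟩ := hsA (redInf3 h ⟨g, hg⟩)
    have hαc : heckeAlphaBar L (M' * q) q c ∈ OInf3 h := (heckeAlphaBar_mem_OInf3_iff h c).mpr hc
    refine ⟨c, hc, ?_⟩
    have hred : redInf3 h (⟨g, hg⟩ - ⟨heckeAlphaBar L (M' * q) q c, hαc⟩) = 0 := by
      rw [map_sub, redInf3_heckeAlphaBar h c hc hαc, hr, sub_self]
    exact coe_mem_nonunits_of_not_isUnit (OInf3 h) _ ((redInf3_eq_zero_iff h _).mp hred)
  · -- `resαc`
    intro g hg
    have hg' : w g ∈ OInf3 h := hg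
    obtain ⟨z', hz'⟩ := exists_vHom_eq_pow (k := k) (q := q) (M' := M') (redInf3 h ⟨w g, hg'⟩)
    obtain ⟨c, hc, hr⟩ := hsC z'
    have hαc : w (heckeAlphaBar L (M' * q) q c) ∈ OInf3 h :=
      (w_alpha_mem_OInf3_iff h hW h0 h1 c).mpr hc
    refine ⟨c, hc, ?_⟩
    have hred : redInf3 h (⟨w g, hg'⟩ ^ q - ⟨w (heckeAlphaBar L (M' * q) q c), hαc⟩) = 0 := by
      rw [map_sub, map_pow, redInf3_w_alpha_vHom h hW h0 h1 c hc hαc, hr, hz', sub_self]
    have hnon := coe_mem_nonunits_of_not_isUnit (OInf3 h) _ ((redInf3_eq_zero_iff h _).mp hred)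
    rw [mem_nonunits_comap_iff]
    have e : w.toRingEquiv.toRingHom (g ^ q - (heckeAlphaBar L (M' * q) q).toRingHom c) =
        w g ^ q - w (heckeAlphaBar L (M' * q) q c) := by
      rw [map_sub, map_pow]
      rfl
    rw [e]
    exact hnon
  · -- `resβa`
    intro g hg
    obtain ⟨z', hz'⟩ := exists_vHom_eq_pow (k := k) (q := q) (M' := M') (redInf3 h ⟨g, hg⟩)
    obtain ⟨c, hc, hr⟩ := hsA z'
    have hβc : heckeBetaBar L (M' * q) q c ∈ OInf3 h := (heckeBetaBar_mem_OInf3_iff h c).mpr hc
    refine ⟨c, hc, ?_⟩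
    have hred : redInf3 h (⟨g, hg⟩ ^ q - ⟨heckeBetaBar L (M' * q) q c, hβc⟩) = 0 := by
      rw [map_sub, map_pow, redInf3_heckeBetaBar_vHom h c hc hβc, hr, hz', sub_self]
    exact coe_mem_nonunits_of_not_isUnit (OInf3 h) _ ((redInf3_eq_zero_iff h _).mp hred)
  · -- `resβc`
    intro g hg
    have hg' : w g ∈ OInf3 h := hg
    obtain ⟨c, hc, hr⟩ := hsC (redInf3 h ⟨w g, hg'⟩)
    have hβc : w (heckeBetaBar L (M' * q) q c) ∈ OInf3 h :=
      (w_beta_mem_OInf3_iff h hW h1 h2 c).mpr hc
    refine ⟨c, hc, ?_⟩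
    have hred : redInf3 h (⟨w g, hg'⟩ - ⟨w (heckeBetaBar L (M' * q) q c), hβc⟩) = 0 := by
      rw [map_sub, redInf3_w_beta h hW h1 h2 c hc hβc, hr, sub_self]
    have hnon := coe_mem_nonunits_of_not_isUnit (OInf3 h) _ ((redInf3_eq_zero_iff h _).mp hred)
    rw [mem_nonunits_comap_iff]
    have e : w.toRingEquiv.toRingHom (g - (heckeBetaBar L (M' * q) q).toRingHom c) =
        w g - w (heckeBetaBar L (M' * q) q c) := by
      rw [map_sub]
      rfl
    rw [e]
    exact hnon

end

end Fermat.Agent.CAR.Formal.NormInst
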