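/-
CAR (F-bc), brick 8: the instance of `NF.Data` with the COUNT discharged where it is free.

* `NF.all_of_pair` : two discrete valuation subrings `w₁ ≠ w₂` above `v` with
  `[E : K] ≤ e₁ + e₂` are ALL the valuation subrings above `v` (helper25's `CountAbs.Family`
  with residue degrees `1`: no residue-field input);
* `NF.ord_of_eq_pow_mul` : `x = d ^ n · unit ⟹ ord x = n`;
* `nfData_of_mid` : `NF.Data` for level `M' q²` over `M' q` from the middle valuation ring `Ob`
  (`IsUnif Ob d`, `q = d ^ (q-1) · unit`, its two restrictions, residue degree one along `α^*`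
  and `β^*`) and the single remaining count statement "`w⁻¹(O_∞³)` is the only valuation subring
  above `O_0` along `α^*`".
-/
import Mathlib
import Fermat.Agent.CAR.Formal.NormInst
import Fermat.Agent.CAR.V3.CountAbs

set_option autoImplicit false

namespace Fermat.Agent.CAR.Formal.NF

open Module Fermat.Agent.CAR.Formal Fermat.Agent.CAR.V3

section generic

variable {K E : Type*} [Field K] [Field E]

theorem ord_of_eq_pow_mul {O : ValuationSubring E} {d : E} (h : IsUnif O d) {x c : E} {n : ℕ}
    (hc : c ∈ O) (hc' : c⁻¹ ∈ O) (hx0 : x ≠ 0) (hx : x = d ^ n * c) : h.ord x = n := by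
  have hc0 : c ≠ 0 := by
    rintro rfl
    rw [mul_zero] at hx
    exact hx0 hx
  exact h.ord_eq hc hc' hc0 (by rw [zpow_natCast]; exact hx)

/-- **Two discrete valuation subrings above `v` whose ramification indices add up to at least the
degree are all the valuation subrings above `v`.** -/
theorem all_of_pair (φ : K →+* E) (hfin : letI := φ.toAlgebra; FiniteDimensional K E)
    (hsep : letI := φ.toAlgebra; Algebra.IsSeparable K E)
    {v : ValuationSubring K} {t : K} (hv : IsUnif v t) {w₁ w₂ : ValuationSubring E} {π₁ π₂ : E}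
    (h₁ : IsUnif w₁ π₁) (h₂ : IsUnif w₂ π₂) (hne : w₁ ≠ w₂)
    (ho₁ : w₁.comap φ = v) (ho₂ : w₂.comap φ = v)
    (e₁ e₂ : ℕ) (he₁ : h₁.ord (φ t) = e₁) (he₂ : h₂.ord (φ t) = e₂)
    (hsum : (letI := φ.toAlgebra; finrank K E) ≤ e₁ + e₂) :
    ∀ w' : ValuationSubring E, w'.comap φ = v → w' = w₁ ∨ w' = w₂ := by
  letI := φ.toAlgebra
  haveI : FiniteDimensional K E := hfin
  haveI : Algebra.IsSeparable K E := hsep
  have hφt : φ t ≠ 0 := by
    rw [Ne, map_eq_zero]
    exact hv.ne_zero
  have habove : ∀ w : ValuationSubring E, w.comap φ = v → CountAbs.IsAbove v w := by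
    intro w hw x
    rw [← hw]
    exact Iff.rfl
  have hram : ∀ (w : ValuationSubring E) (π₀ : E) (h₀ : IsUnif w π₀) (e₀ : ℕ),
      h₀.ord (φ t) = e₀ → ∃ d c : E, d ∈ w.nonunits ∧ c ∈ w ∧ algebraMap K E t = d ^ e₀ * c := by
    intro w π₀ h₀ e₀ he₀
    obtain ⟨u, hu, -, -, hxe⟩ := h₀.exists_unit_eq hφt
    rw [he₀, zpow_natCast] at hxe
    exact ⟨π₀, u, h₀.mem_nonunits, hu, hxe⟩
  have hres : ∀ w : ValuationSubring E, w.comap φ = v →
      ∃ b : Fin 1 → E, (∀ j, b j ∈ w) ∧ ∀ c : Fin 1 → K, (∀ j, c j ∈ v) →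
        ∑ j, algebraMap K E (c j) * b j ∈ w.nonunits → ∀ j, c j ∈ v.nonunits := by
    intro w hw
    refine ⟨fun _ => 1, fun _ => w.one_mem, fun c _ hsum j => ?_⟩
    rw [Fin.sum_univ_one, mul_one] at hsum
    have hj : j = 0 := Subsingleton.elim _ _
    rw [hj, ← hw, mem_nonunits_comap_iff]
    exact hsum
  have hF : CountAbs.Family v t (fun b : Bool => bif b then w₁ else w₂)
      (fun b : Bool => bif b then e₁ else e₂) (fun _ : Bool => 1) :=
    { unif := hv
      above := fun b => by
        cases b
        · exact habove w₂ ho₂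
        · exact habove w₁ ho₁
      inj := fun a b hab => by
        cases a <;> cases b
        · rfl
        · exact absurd hab.symm hne
        · exact absurd hab hne
        · rfl
      ram := fun b => by
        cases b
        · exact hram w₂ π₂ h₂ e₂ he₂
        · exact hram w₁ π₁ h₁ e₁ he₁
      res := fun b => by
        cases b
        · exact hres w₂ ho₂
        · exact hres w₁ ho₁
      deg := by
        rw [Fintype.sum_bool]
        simpa using hsum }
  intro w' hw'
  obtain ⟨b, hb⟩ := hF.eq_of_isAbove w' (habove w' hw')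
  cases b
  · exact Or.inr hb
  · exact Or.inl hb

end generic

end Fermat.Agent.CAR.Formal.NF

namespace Fermat.Agent.CAR.Formal.NormInst

open HahnSeries ModularCurve AlgebraicCurve Fermat.Agent.Lib.Red
open Fermat.Agent.BAD.TwoVal Fermat.Agent.CAR.Formal Fermat.Agent.CAR.V3
open Fermat.Agent.CAR.V3.Restrict

noncomputable section

variable {L : Type} [Field L] [Algebra ℚ L] {A : ValuationSubring L} {k : Type} [Field k]
  {π : A →+* k} {M' q : ℕ} [NeZero M'] [NeZero q]
variable [Fact q.Prime] [CharP k q] [PerfectRing k q]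

/-- **The instance of `NF.Data`**, from the middle valuation ring and ONE count statement. -/
theorem nfData_of_mid (h : BadSetup A π M' q) (hsurj : Function.Surjective π)
    (hAq : IsUnif A ((q : ℕ) : L))
    {W : laurentBaseChange L (modularFunctionFieldFull (M' * q)) ≃ₐ[L]
      laurentBaseChange L (modularFunctionFieldFull (M' * q))} (hW : IsAL M' q W)
    {w : laurentBaseChange L (modularFunctionFieldFull (M' * q * q)) ≃ₐ[L]
      laurentBaseChange L (modularFunctionFieldFull (M' * q * q))}
    (h0 : ∀ y, w (piStar0 L M' q y) = piStar2 L M' q y)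
    (h1 : ∀ y, w (piStar1 L M' q y) = piStar1 L M' q y)
    (h2 : ∀ y, w (piStar2 L M' q y) = piStar0 L M' q y)
    {Ob : ValuationSubring ↥(laurentBaseChange L (modularFunctionFieldFull (M' * q * q)))}
    {d : ↥(laurentBaseChange L (modularFunctionFieldFull (M' * q * q)))}
    (hb : IsUnif Ob d)
    (hdq : ∃ c, c ∈ Ob ∧ c⁻¹ ∈ Ob ∧
      ((q : ℕ) : ↥(laurentBaseChange L (modularFunctionFieldFull (M' * q * q)))) =
        d ^ (q - 1) * c)
    (hbα : Ob.comap (heckeAlphaBar L (M' * q) q).toRingHom = OInf h)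
    (hbβ : Ob.comap (heckeBetaBar L (M' * q) q).toRingHom = OZero h W)
    (hresαb : ∀ g ∈ Ob, ∃ c ∈ OInf h, g - (heckeAlphaBar L (M' * q) q).toRingHom c ∈ Ob.nonunits)
    (hresβb : ∀ g ∈ Ob, ∃ c ∈ OZero h W,
      g - (heckeBetaBar L (M' * q) q).toRingHom c ∈ Ob.nonunits)
    (hallαC : ∀ v : ValuationSubring ↥(laurentBaseChange L (modularFunctionFieldFull (M' * q * q))),
      v.comap (heckeAlphaBar L (M' * q) q).toRingHom = OZero h W →
        v = (OInf3 h).comap w.toRingEquiv.toRingHom) :
    NF.Data (heckeAlphaBar L (M' * q) q).toRingHom (heckeBetaBar L (M' * q) q).toRingHom q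
      (OInf h) (OZero h W) (OInf3 h) Ob ((OInf3 h).comap w.toRingEquiv.toRingHom)
      ((q : ℕ) : ↥(laurentBaseChange L (modularFunctionFieldFull (M' * q))))
      ((q : ℕ) : ↥(laurentBaseChange L (modularFunctionFieldFull (M' * q * q)))) d := by
  have hq : q.Prime := h.hℓ
  have hq1 := hq.one_lt
  have hqF : ((q : ℕ) : ↥(laurentBaseChange L (modularFunctionFieldFull (M' * q * q)))) ≠ 0 := by
    haveI : CharZero L := algebraRat.charZero L
    haveI : CharZero ↥(laurentBaseChange L (modularFunctionFieldFull (M' * q * q))) :=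
      charZero_of_injective_algebraMap
        (algebraMap L ↥(laurentBaseChange L (modularFunctionFieldFull (M' * q * q)))).injective
    exact Nat.cast_ne_zero.mpr hq.ne_zero
  obtain ⟨c, hc, hc', hqd⟩ := hdq
  have hbq : hb.ord ((q : ℕ) : ↥(laurentBaseChange L (modularFunctionFieldFull (M' * q * q)))) =
      (q : ℤ) - 1 := by
    rw [NF.ord_of_eq_pow_mul hb hc hc' hqF hqd, Nat.cast_sub hq1.le, Nat.cast_one]
  have hA' := isUnif_OInf_natCast h q hAq
  have hC' := isUnif_OZero_natCast h W q hAq
  have ha' := isUnif_OInf3_natCast h q hAq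
  have hc3 := isUnif_comap_OInf3_natCast h w q hAq
  have hAC : OInf h ≠ OZero h W := OInf_ne_OZero h hW
  have hfα := finiteAlong_alphaStar L M' q hq
  have hfβ := finiteAlong_betaStar L M' q hq
  have hsα := isSeparable_along _ _ _ hfα
  have hsβ := isSeparable_along _ _ _ hfβ
  have hαa := comap_alpha_OInf3 h
  have hβa := comap_beta_OInf3 h
  have hαc := comap_alpha_comap_OInf3 h hW h0 h1
  have hβc := comap_beta_comap_OInf3 h hW h1 h2
  have hab : OInf3 h ≠ Ob := fun e => hAC (by rw [← hβa, ← hbβ, e])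
  have hbc : Ob ≠ (OInf3 h).comap w.toRingEquiv.toRingHom := fun e => hAC (by rw [← hbα, ← hαc, e])
  have hαq : (heckeAlphaBar L (M' * q) q).toRingHom
      ((q : ℕ) : ↥(laurentBaseChange L (modularFunctionFieldFull (M' * q)))) =
      ((q : ℕ) : ↥(laurentBaseChange L (modularFunctionFieldFull (M' * q * q)))) :=
    map_natCast _ q
  have hβq : (heckeBetaBar L (M' * q) q).toRingHom
      ((q : ℕ) : ↥(laurentBaseChange L (modularFunctionFieldFull (M' * q)))) =
      ((q : ℕ) : ↥(laurentBaseChange L (modularFunctionFieldFull (M' * q * q)))) :=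
    map_natCast _ q
  -- the two free counts
  have hallαA := NF.all_of_pair (heckeAlphaBar L (M' * q) q).toRingHom hfα hsα hA' ha' hb hab
    hαa hbα 1 (q - 1) (by rw [hαq, ha'.ord_self, Nat.cast_one])
    (by rw [hαq, hbq, Nat.cast_sub hq1.le, Nat.cast_one])
    (by
      have := finrank_alphaStar L M' q hq
      unfold finrankAlong at this
      omega)
  have hallβC := NF.all_of_pair (heckeBetaBar L (M' * q) q).toRingHom hfβ hsβ hC' hb hc3 hbc
    hbβ hβc (q - 1) 1 (by rw [hβq, hbq, Nat.cast_sub hq1.le, Nat.cast_one])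
    (by rw [hβq, hc3.ord_self, Nat.cast_one])
    (by
      have := finrank_betaStar L M' q hq
      unfold finrankAlong at this
      omega)
  -- `allβA` from `allαC` by the Atkin–Lehner involution
  have hallβA : ∀ v : ValuationSubring
      ↥(laurentBaseChange L (modularFunctionFieldFull (M' * q * q))),
      v.comap (heckeBetaBar L (M' * q) q).toRingHom = OInf h → v = OInf3 h := by
    intro v hv
    have h1' : (v.comap w.toRingEquiv.toRingHom).comap (heckeAlphaBar L (M' * q) q).toRingHom =
        OZero h W := by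
      ext x
      have e1 : w.toRingEquiv.toRingHom ((heckeAlphaBar L (M' * q) q).toRingHom x) =
          (heckeBetaBar L (M' * q) q).toRingHom (W x) := w_alpha hW h0 h1 hq h.not_dvd x
      rw [ValuationSubring.mem_comap, ValuationSubring.mem_comap, mem_OZero_iff, ← hv,
        ValuationSubring.mem_comap, e1]
    have h2' := hallαC _ h1'
    ext x
    have e2 : x ∈ v ↔ w.symm x ∈ v.comap w.toRingEquiv.toRingHom := by
      have : w.toRingEquiv.toRingHom (w.symm x) = x := w.apply_symm_apply x
      rw [ValuationSubring.mem_comap, this]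
    have e3 : x ∈ OInf3 h ↔ w.symm x ∈ (OInf3 h).comap w.toRingEquiv.toRingHom := by
      have : w.toRingEquiv.toRingHom (w.symm x) = x := w.apply_symm_apply x
      rw [ValuationSubring.mem_comap, this]
    rw [e2, e3, h2']
  exact nfData_of h hsurj hAq hW h0 h1 h2 hb hbq hbα hbβ hresαb hresβb hallαA hallαC hallβA
    hallβC

end

end Fermat.Agent.CAR.Formal.NormInst
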