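/-
CAR (F-bc), brick 9: `NF.Data` over the inertia field with NO count hypothesis left.

`NF.Data` only needs the two degree-`q` counts of `F = F_{M'q²}` over `α^* F_N` and over
`β^* F_N` (`N = M' q`), and each of them is elementary:

* `res_of_pair` : two discrete valuation subrings above `v` whose ramification indices add up to
  the degree have trivial residue extensions (the pair `CountAbs.Family` with `f = 1, 1`);
  this gives `resαb`, `resβb` for the middle valuation ring WITHOUT knowing its residue field;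
* `all_of_single` : one valuation subring `w` above `v` with `n ≥ [E : K]` elements independent
  modulo the maximal ideal over `v` is the ONLY valuation subring above `v`;
* `allβA` : `O_∞³` is the only valuation subring above `O_∞` along `β^*`
  (residue witnesses `(π_0^* J) ^ j`, `j < q`; independence is
  `S28.ChainCount.eq_zero_of_sum_mul_pow_eq_zero`);
* `allαC` : the Atkin–Lehner transport of `allβA`;
* `nfData_free` : `NF.Data` from the middle valuation ring alone (general `(L, A, π)`);
* `nfData_K0` : **`NF.Data` over `(K0, W0, resW0)` with `Ob = O_mid`, `d = dMid`**;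
* `redMid_mem_kappa` : `red_mid` takes its values in `κ` (a corollary of `resαb`).
-/
import Mathlib
import Fermat.Agent.CAR.Formal.NormInst2
import Fermat.Agent.CAR.V3.CountRes
import Fermat.Agent.CAR.V3.MidOrd
import Fermat.Agent.S28.ChainCount
import Fermat.Agent.BAD.TwoVal.Semilocal

set_option autoImplicit false
set_option linter.unusedSectionVars false
set_option linter.style.haveILetI false

namespace Fermat.Agent.CAR.Formal.NormFree

open Module Fermat.Agent.CAR.Formal Fermat.Agent.CAR.V3

section generic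

variable {K E : Type*} [Field K] [Field E]

/-- **Two discrete valuation subrings above `v` whose ramification indices add up to at least the
degree have trivial residue extensions over `v`.** -/
theorem res_of_pair (φ : K →+* E) (hfin : letI := φ.toAlgebra; FiniteDimensional K E)
    (hsep : letI := φ.toAlgebra; Algebra.IsSeparable K E)
    {v : ValuationSubring K} {t : K} (hv : IsUnif v t) {w₁ w₂ : ValuationSubring E} {π₁ π₂ : E}
    (h₁ : IsUnif w₁ π₁) (h₂ : IsUnif w₂ π₂) (hne : w₁ ≠ w₂)
    (ho₁ : w₁.comap φ = v) (ho₂ : w₂.comap φ = v)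
    (e₁ e₂ : ℕ) (he₁ : h₁.ord (φ t) = e₁) (he₂ : h₂.ord (φ t) = e₂)
    (hsum : (letI := φ.toAlgebra; finrank K E) ≤ e₁ + e₂) :
    (∀ g ∈ w₁, ∃ c ∈ v, g - φ c ∈ w₁.nonunits) ∧ (∀ g ∈ w₂, ∃ c ∈ v, g - φ c ∈ w₂.nonunits) := by
  letI := φ.toAlgebra
  haveI : FiniteDimensional K E := hfin
  haveI : Algebra.IsSeparable K E := hsep
  have hφt : φ t ≠ 0 := by
    rw [Ne, map_eq_zero]
    exact hv.ne_zero
  have habove : ∀ w : ValuationSubring E, w.comap φ = v → CountAbs.IsAbove v w := by
    intro w hw x
    rw [← hw]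
    exact Iff.rfl
  have hram : ∀ (w : ValuationSubring E) (π₀ : E) (h₀ : IsUnif w π₀) (e₀ : ℕ),
      h₀.ord (φ t) = e₀ → ∃ d c : E, d ∈ w.nonunits ∧ c ∈ w ∧ algebraMap K E t = d ^ e₀ * c := by
    intro w π₀ h₀ e₀ he₀
    obtain ⟨u, hu, -, -, hxe⟩ := h₀.exists_unit_eq hφt
    rw [he₀, zpow_natCast] at hxe
    exact ⟨π₀, u, h₀.mem_nonunits, hu, hxe⟩
  have hF : CountAbs.Family v t (fun b : Bool => bif b then w₁ else w₂)
      (fun b : Bool => bif b then e₁ else e₂) (fun _ : Bool => 1) :=
    { unif := hv
      above := fun b => by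
        cases b
        · exact habove w₂ ho₂
        · exact habove w₁ ho₁
      inj := fun a b hab => by
        cases a <;> cases b
        · rfl
        · exact absurd hab.symm hne
        · exact absurd hab hne
        · rfl
      ram := fun b => by
        cases b
        · exact hram w₂ π₂ h₂ e₂ he₂
        · exact hram w₁ π₁ h₁ e₁ he₁
      res := fun b => by
        cases b
        · exact CountAbs.res_of_isAbove (habove w₂ ho₂)
        · exact CountAbs.res_of_isAbove (habove w₁ ho₁)
      deg := by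
        rw [Fintype.sum_bool]
        simpa using hsum }
  refine ⟨fun g hg => ?_, fun g hg => ?_⟩
  · exact hF.exists_sub_algebraMap_mem_nonunits true rfl (x := g) hg
  · exact hF.exists_sub_algebraMap_mem_nonunits false rfl (x := g) hg

/-- **A valuation subring `w` above the discrete valuation subring `v` with at least `[E : K]`
elements independent over `v` modulo its maximal ideal is the only valuation subring above
`v`.** -/
theorem all_of_single (φ : K →+* E) (hfin : letI := φ.toAlgebra; FiniteDimensional K E)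
    (hsep : letI := φ.toAlgebra; Algebra.IsSeparable K E)
    {v : ValuationSubring K} {t : K} (hv : IsUnif v t) {w : ValuationSubring E}
    (ho : w.comap φ = v) (n : ℕ) (b : Fin n → E) (hb : ∀ j, b j ∈ w)
    (hind : ∀ c : Fin n → K, (∀ j, c j ∈ v) → ∑ j, φ (c j) * b j ∈ w.nonunits →
      ∀ j, c j ∈ v.nonunits)
    (hdeg : (letI := φ.toAlgebra; finrank K E) ≤ n) :
    ∀ w' : ValuationSubring E, w'.comap φ = v → w' = w := by
  letI := φ.toAlgebra
  haveI : FiniteDimensional K E := hfin
  haveI : Algebra.IsSeparable K E := hsep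
  have habove : ∀ w : ValuationSubring E, w.comap φ = v → CountAbs.IsAbove v w := by
    intro w hw x
    rw [← hw]
    exact Iff.rfl
  have hF : CountAbs.Family v t (fun _ : Unit => w) (fun _ : Unit => 1) (fun _ : Unit => n) :=
    { unif := hv
      above := fun _ => habove w ho
      inj := fun _ _ _ => rfl
      ram := fun _ => CountAbs.ram_of_isAbove hv (habove w ho)
      res := fun _ => ⟨b, hb, hind⟩
      deg := by simpa using hdeg }
  intro w' hw'
  obtain ⟨-, hi⟩ := hF.eq_of_isAbove w' (habove w' hw')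
  exact hi

end generic

/-! ### The two elementary counts at level `M' q²` over `M' q` -/

open HahnSeries ModularCurve AlgebraicCurve Fermat.Agent.Lib.Red Fermat.Agent.S28
open Fermat.Agent.BAD.TwoVal Fermat.Agent.CAR.V3.Restrict Fermat.Agent.ESJ.Cong.LevelGen

noncomputable section

section Bad

variable {L : Type} [Field L] [Algebra ℚ L] {A : ValuationSubring L} {k : Type} [Field k]
  {π : A →+* k} {M' q : ℕ} [NeZero M'] [NeZero q]

/-- **`allβA`**: `O_∞³` is the only valuation subring of `F_{M'q²}` above `O_∞` along `β^*`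
(`e = 1`, `f = q`: the residues of `1, J, …, J^(q-1)` are independent over the image of
`q ↦ q^q`). -/
theorem allβA (h : BadSetup A π M' q) (hAq : IsUnif A ((q : ℕ) : L)) :
    ∀ v : ValuationSubring ↥(laurentBaseChange L (modularFunctionFieldFull (M' * q * q))),
      v.comap (heckeBetaBar L (M' * q) q).toRingHom = OInf h → v = OInf3 h := by
  have hq : q.Prime := h.hℓ
  have hfβ := finiteAlong_betaStar L M' q hq
  have hsβ := NormInst.isSeparable_along _ _ _ hfβ
  have hJmem : piStar0 L M' q (jLevel L M') ∈ OInf3 h :=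
    (piStar0_mem_OInf3_iff h _).mpr (jLevel_mem_Ow h)
  have hJred : ((redInf3 h ⟨piStar0 L M' q (jLevel L M'), hJmem⟩ :
      modularFunctionFieldFullC k M') : LaurentSeries k) = jqModC k := by
    rw [redInf3_piStar0 h _ (jLevel_mem_Ow h) hJmem, coe_redF_jLevel h, TD.Jd_one]
  refine all_of_single (heckeBetaBar L (M' * q) q).toRingHom hfβ hsβ
    (isUnif_OInf_natCast h q hAq) (comap_beta_OInf3 h) q
    (fun j => piStar0 L M' q (jLevel L M') ^ (j : ℕ)) (fun j => pow_mem hJmem _) ?_ ?_
  · intro c hc hsum j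
    have hβc : ∀ j, heckeBetaBar L (M' * q) q (c j) ∈ OInf3 h :=
      fun j => (heckeBetaBar_mem_OInf3_iff h _).mpr (hc j)
    -- the sum as an element of `O_∞³`
    set S : OInf3 h := ∑ j, (⟨_, hβc j⟩ : OInf3 h) * ⟨_, hJmem⟩ ^ (j : ℕ) with hS
    have hSval : ((S : OInf3 h) : ↥(laurentBaseChange L (modularFunctionFieldFull (M' * q * q))))
        = ∑ j, (heckeBetaBar L (M' * q) q).toRingHom (c j)
          * piStar0 L M' q (jLevel L M') ^ (j : ℕ) := by
      rw [hS]
      exact map_sum (OInf3 h).subtype _ _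
    have hS0 : redInf3 h S = 0 := by
      rw [redInf3_eq_zero_iff]
      have h1 : ((S : OInf3 h) : ↥(laurentBaseChange L (modularFunctionFieldFull (M' * q * q))))
          ∈ (OInf3 h).nonunits := by
        rw [hSval]
        exact hsum
      exact (IsLocalRing.mem_maximalIdeal S).mp (ValuationSubring.coe_mem_nonunits_iff.mp h1)
    -- the reduction in `k((q))`
    have hL : ∑ j, qExpand k q ((redInf h ⟨c j, hc j⟩ : modularFunctionFieldFullC k M') :
        LaurentSeries k) * jqModC k ^ (j : ℕ) = 0 := by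
      have h2 : ((redInf3 h S : modularFunctionFieldFullC k M') : LaurentSeries k) = 0 := by
        rw [hS0]
        rfl
      rw [hS, map_sum] at h2
      have h3 : (((∑ j, redInf3 h ((⟨_, hβc j⟩ : OInf3 h) * ⟨_, hJmem⟩ ^ (j : ℕ))) :
          modularFunctionFieldFullC k M') : LaurentSeries k)
          = ∑ j, qExpand k q ((redInf h ⟨c j, hc j⟩ : modularFunctionFieldFullC k M') :
            LaurentSeries k) * jqModC k ^ (j : ℕ) := by
        rw [← IntermediateField.coe_val, map_sum]
        refine Finset.sum_congr rfl (fun j _ => ?_)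
        rw [IntermediateField.coe_val, map_mul, map_pow, MulMemClass.coe_mul,
          SubmonoidClass.coe_pow, hJred, coe_redInf3_heckeBetaBar h (c j) (hc j) (hβc j)]
      rw [← h3]
      exact h2
    have hz := ChainCount.eq_zero_of_sum_mul_pow_eq_zero q (jqModC_ne_zero_of_nontrivial k)
      (Fermat.Agent.ESJ.Cong.order_jqModC k)
      (fun j => qExpand k q ((redInf h ⟨c j, hc j⟩ : modularFunctionFieldFullC k M') :
        LaurentSeries k)) (fun j => ⟨_, rfl⟩) hL j
    have hz' : redInf h ⟨c j, hc j⟩ = 0 := by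
      apply Subtype.ext
      have := (map_eq_zero (qExpand k q)).mp hz
      rw [this]
      rfl
    exact NormInst.coe_mem_nonunits_of_not_isUnit (OInf h) ⟨c j, hc j⟩
      ((redInf_eq_zero_iff h _).mp hz')
  · have := finrank_betaStar L M' q hq
    unfold finrankAlong at this
    omega

variable {W : laurentBaseChange L (modularFunctionFieldFull (M' * q)) ≃ₐ[L]
    laurentBaseChange L (modularFunctionFieldFull (M' * q))}
  {w : laurentBaseChange L (modularFunctionFieldFull (M' * q * q)) ≃ₐ[L]
    laurentBaseChange L (modularFunctionFieldFull (M' * q * q))}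

/-- **`allαC`**: `w⁻¹(O_∞³)` is the only valuation subring of `F_{M'q²}` above `O_0` along
`α^*` (the Atkin–Lehner transport of `allβA`). -/
theorem allαC (h : BadSetup A π M' q) (hAq : IsUnif A ((q : ℕ) : L)) (hW : IsAL M' q W)
    (h0 : ∀ y, w (piStar0 L M' q y) = piStar2 L M' q y)
    (h1 : ∀ y, w (piStar1 L M' q y) = piStar1 L M' q y) :
    ∀ v : ValuationSubring ↥(laurentBaseChange L (modularFunctionFieldFull (M' * q * q))),
      v.comap (heckeAlphaBar L (M' * q) q).toRingHom = OZero h W →
        v = (OInf3 h).comap w.toRingEquiv.toRingHom := by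
  intro v hv
  have hq : q.Prime := h.hℓ
  have h1' : (v.comap w.symm.toRingEquiv.toRingHom).comap
      (heckeBetaBar L (M' * q) q).toRingHom = OInf h := by
    ext x
    have e1 : w.symm.toRingEquiv.toRingHom ((heckeBetaBar L (M' * q) q).toRingHom x) =
        (heckeAlphaBar L (M' * q) q).toRingHom (W.symm x) := by
      have e2 : w (heckeAlphaBar L (M' * q) q (W.symm x)) = heckeBetaBar L (M' * q) q x := by
        rw [w_alpha hW h0 h1 hq h.not_dvd (W.symm x), W.apply_symm_apply]
      show w.symm (heckeBetaBar L (M' * q) q x) = heckeAlphaBar L (M' * q) q (W.symm x)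
      rw [← e2, w.symm_apply_apply]
    have e3 : W.symm x ∈ OZero h W ↔ x ∈ OInf h := by
      rw [mem_OZero_iff, W.apply_symm_apply]
    rw [ValuationSubring.mem_comap, ValuationSubring.mem_comap, e1, ← e3, ← hv,
      ValuationSubring.mem_comap]
  have h2' := allβA h hAq _ h1'
  ext x
  have e4 : x ∈ v ↔ w x ∈ v.comap w.symm.toRingEquiv.toRingHom := by
    have : w.symm.toRingEquiv.toRingHom (w x) = x := w.symm_apply_apply x
    rw [ValuationSubring.mem_comap, this]
  have e5 : x ∈ (OInf3 h).comap w.toRingEquiv.toRingHom ↔ w x ∈ OInf3 h := by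
    rw [ValuationSubring.mem_comap]
    rfl
  rw [e4, e5, h2']

variable [Fact q.Prime] [CharP k q] [PerfectRing k q]

/-- **The instance of `NF.Data` from the middle valuation ring alone**: no count hypothesis and
no residue-degree hypothesis. -/
theorem nfData_free (h : BadSetup A π M' q) (hsurj : Function.Surjective π)
    (hAq : IsUnif A ((q : ℕ) : L)) (hW : IsAL M' q W)
    (h0 : ∀ y, w (piStar0 L M' q y) = piStar2 L M' q y)
    (h1 : ∀ y, w (piStar1 L M' q y) = piStar1 L M' q y)
    (h2 : ∀ y, w (piStar2 L M' q y) = piStar0 L M' q y)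
    {Ob : ValuationSubring ↥(laurentBaseChange L (modularFunctionFieldFull (M' * q * q)))}
    {d : ↥(laurentBaseChange L (modularFunctionFieldFull (M' * q * q)))}
    (hb : IsUnif Ob d)
    (hdq : ∃ c, c ∈ Ob ∧ c⁻¹ ∈ Ob ∧
      ((q : ℕ) : ↥(laurentBaseChange L (modularFunctionFieldFull (M' * q * q)))) =
        d ^ (q - 1) * c)
    (hbα : Ob.comap (heckeAlphaBar L (M' * q) q).toRingHom = OInf h)
    (hbβ : Ob.comap (heckeBetaBar L (M' * q) q).toRingHom = OZero h W) :
    NF.Data (heckeAlphaBar L (M' * q) q).toRingHom (heckeBetaBar L (M' * q) q).toRingHom q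
      (OInf h) (OZero h W) (OInf3 h) Ob ((OInf3 h).comap w.toRingEquiv.toRingHom)
      ((q : ℕ) : ↥(laurentBaseChange L (modularFunctionFieldFull (M' * q))))
      ((q : ℕ) : ↥(laurentBaseChange L (modularFunctionFieldFull (M' * q * q)))) d := by
  have hq : q.Prime := h.hℓ
  have hq1 := hq.one_lt
  have hqF : ((q : ℕ) : ↥(laurentBaseChange L (modularFunctionFieldFull (M' * q * q)))) ≠ 0 := by
    haveI : CharZero L := algebraRat.charZero L
    haveI : CharZero ↥(laurentBaseChange L (modularFunctionFieldFull (M' * q * q))) :=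
      charZero_of_injective_algebraMap
        (algebraMap L ↥(laurentBaseChange L (modularFunctionFieldFull (M' * q * q)))).injective
    exact Nat.cast_ne_zero.mpr hq.ne_zero
  obtain ⟨c, hc, hc', hqd⟩ := hdq
  have hbq : hb.ord ((q : ℕ) : ↥(laurentBaseChange L (modularFunctionFieldFull (M' * q * q)))) =
      (q : ℤ) - 1 := by
    rw [NF.ord_of_eq_pow_mul hb hc hc' hqF hqd, Nat.cast_sub hq1.le, Nat.cast_one]
  have hA' := isUnif_OInf_natCast h q hAq
  have hC' := isUnif_OZero_natCast h W q hAq
  have ha' := isUnif_OInf3_natCast h q hAq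
  have hc3 := isUnif_comap_OInf3_natCast h w q hAq
  have hAC : OInf h ≠ OZero h W := OInf_ne_OZero h hW
  have hfα := finiteAlong_alphaStar L M' q hq
  have hfβ := finiteAlong_betaStar L M' q hq
  have hsα := NormInst.isSeparable_along _ _ _ hfα
  have hsβ := NormInst.isSeparable_along _ _ _ hfβ
  have hαa := comap_alpha_OInf3 h
  have hβa := comap_beta_OInf3 h
  have hαc := comap_alpha_comap_OInf3 h hW h0 h1
  have hβc := comap_beta_comap_OInf3 h hW h1 h2
  have hab : OInf3 h ≠ Ob := fun e => hAC (by rw [← hβa, ← hbβ, e])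
  have hbc : Ob ≠ (OInf3 h).comap w.toRingEquiv.toRingHom := fun e => hAC (by rw [← hbα, ← hαc, e])
  have hαq : (heckeAlphaBar L (M' * q) q).toRingHom
      ((q : ℕ) : ↥(laurentBaseChange L (modularFunctionFieldFull (M' * q)))) =
      ((q : ℕ) : ↥(laurentBaseChange L (modularFunctionFieldFull (M' * q * q)))) :=
    map_natCast _ q
  have hβq : (heckeBetaBar L (M' * q) q).toRingHom
      ((q : ℕ) : ↥(laurentBaseChange L (modularFunctionFieldFull (M' * q)))) =
      ((q : ℕ) : ↥(laurentBaseChange L (modularFunctionFieldFull (M' * q * q)))) :=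
    map_natCast _ q
  have hresα := res_of_pair (heckeAlphaBar L (M' * q) q).toRingHom hfα hsα hA' ha' hb hab
    hαa hbα 1 (q - 1) (by rw [hαq, ha'.ord_self, Nat.cast_one])
    (by rw [hαq, hbq, Nat.cast_sub hq1.le, Nat.cast_one])
    (by
      have := finrank_alphaStar L M' q hq
      unfold finrankAlong at this
      omega)
  have hresβ := res_of_pair (heckeBetaBar L (M' * q) q).toRingHom hfβ hsβ hC' hb hc3 hbc
    hbβ hβc (q - 1) 1 (by rw [hβq, hbq, Nat.cast_sub hq1.le, Nat.cast_one])
    (by rw [hβq, hc3.ord_self, Nat.cast_one])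
    (by
      have := finrank_betaStar L M' q hq
      unfold finrankAlong at this
      omega)
  exact NormInst.nfData_of_mid h hsurj hAq hW h0 h1 h2 hb ⟨c, hc, hc', hqd⟩ hbα hbβ
    hresα.2 hresβ.1 (allαC h hAq hW h0 h1)

end Bad

/-! ### The instance `(L, A, π) = (K0, W0, resW0)` with `Ob = O_mid`, `d = dMid` -/

section K0Inst

open Fermat.Agent.CAR.K0 Fermat.Agent.CAR.V3.MidRing Fermat.Agent.CAR.V3.MidRestrict
  Fermat.Agent.CAR.V3.MidOrd Fermat.Agent.CAR.V3.RestrictNF Fermat.Agent.S24
  Fermat.Agent.S28.Chain Fermat.Agent.CAR.V3.GaussDVR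

local notation "Qb" => AlgebraicClosure ℚ

variable {q : ℕ} (hq : q.Prime) (A : ValuationSubring Qb) (hA : A.LiesOverPrime q)
  {ζ : Qb} (hζ : IsPrimitiveRoot ζ q) (M' : ℕ) [NeZero M'] [NeZero q] (hqM : ¬ q ∣ M')

/-- `O_∞³ ≠ O_mid`: `dMid` is a unit of the first and a non-unit of the second. -/
theorem OInf3_ne_OMid :
    OInf3 (badSetup_W0 hq hA M' hqM) ≠ OMid hq A hA hζ M' hqM (IsLocalRing.residue A) := by
  intro e
  have h1 : (dMid A M' q)⁻¹ ∈ OMid hq A hA hζ M' hqM (IsLocalRing.residue A) := by
    rw [← e]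
    exact inv_dMid_mem_OInf3 A M' (badSetup_W0 hq hA M' hqM)
  have h2 := dMid_mem_nonunits_OMid hq A hA hζ M' hqM (IsLocalRing.residue A)
    (residue_eq_zero_of_not_isUnit A)
  rw [ValuationSubring.mem_nonunits_iff_or] at h2
  rcases h2 with h2 | h2
  · exact dMid_ne_zero hq A hA hζ M' hqM (IsLocalRing.residue A)
      (residue_eq_zero_of_not_isUnit A) h2
  · exact h2 h1

/-- **`resαb` with no hypothesis**: the residue extension of `O_mid` over `O_∞` along `α^*` is
trivial (`e_∞ + e_mid = 1 + (q - 1) = q = [F : α^* F_N]`). -/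
theorem resαb_K0 : ∀ g ∈ OMid hq A hA hζ M' hqM (IsLocalRing.residue A),
    ∃ c ∈ OInf (badSetup_W0 hq hA M' hqM),
      g - alphaStar (inertiaField A) M' q c
        ∈ (OMid hq A hA hζ M' hqM (IsLocalRing.residue A)).nonunits := by
  have hq1 := hq.one_lt
  have ha' := RestrictNF.ha (badSetup_W0 hq hA M' hqM) (isUnif_W0 hq hA)
  exact (res_of_pair (alphaStar (inertiaField A) M' q) (finα hq) (sepα hq)
    (RestrictNF.hA (badSetup_W0 hq hA M' hqM) (isUnif_W0 hq hA)) ha'
    (isUnif_dMid_residue hq A hA hζ M' hqM) (OInf3_ne_OMid hq A hA hζ M' hqM)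
    (αa (badSetup_W0 hq hA M' hqM))
    (OMid_comap_alpha hq A hA hζ M' hqM (badSetup_W0 hq hA M' hqM)) 1 (q - 1)
    (by rw [αϖ, ha'.ord_self, Nat.cast_one])
    (by rw [αϖ, ord_natCast_isUnif_dMid hq A hA hζ M' hqM, Nat.cast_sub hq1.le, Nat.cast_one])
    (by
      have := degα (L := inertiaField A) (M' := M') hq
      omega)).2

/-- **`red_mid` takes its values in `κ`** (residue degree one of the middle component), with no
hypothesis: a corollary of `resαb_K0` and `ρ_mid ∘ α^* = r_∞`. -/
theorem redMid_mem_kappa (f : OMid hq A hA hζ M' hqM (IsLocalRing.residue A)) :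
    redMid hq A hA hζ M' hqM (IsLocalRing.residue A) f
      ∈ modularFunctionFieldFullC (IsLocalRing.ResidueField A) M' := by
  obtain ⟨c, hc, hmem⟩ := resαb_K0 hq A hA hζ M' hqM f f.2
  have hαc : heckeAlphaBar (inertiaField A) (M' * q) q c
      ∈ OMid hq A hA hζ M' hqM (IsLocalRing.residue A) :=
    (alpha_mem_OMid_iff hq A hA hζ M' hqM (badSetup_W0 hq hA M' hqM) c).mpr hc
  have hsub : redMid hq A hA hζ M' hqM (IsLocalRing.residue A) (f - ⟨_, hαc⟩) = 0 := by
    rw [redMid_eq_zero_iff]
    have h1 : ((f - ⟨_, hαc⟩ : OMid hq A hA hζ M' hqM (IsLocalRing.residue A)) :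
        FK (inertiaField A) (M' * q * q))
        ∈ (OMid hq A hA hζ M' hqM (IsLocalRing.residue A)).nonunits := hmem
    exact (IsLocalRing.mem_maximalIdeal _).mp (ValuationSubring.coe_mem_nonunits_iff.mp h1)
  rw [RingHom.map_sub, sub_eq_zero] at hsub
  rw [hsub, redMid_alpha hq A hA hζ M' hqM (badSetup_W0 hq hA M' hqM) c hc hαc]
  exact SetLike.coe_mem _

variable {W : ALAut (inertiaField A) M' q}

/-- **`NF.Data` over the inertia field, with no hypothesis left** besides the two Atkin–Lehner
involutions: `Ob = O_mid`, `d = dMid`. -/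
theorem nfData_K0 {w : ALAut (inertiaField A) (M' * q) q} (hW : IsAL M' q W)
    (h0 : ∀ y, w (piStar0 (inertiaField A) M' q y) = piStar2 (inertiaField A) M' q y)
    (h1 : ∀ y, w (piStar1 (inertiaField A) M' q y) = piStar1 (inertiaField A) M' q y)
    (h2 : ∀ y, w (piStar2 (inertiaField A) M' q y) = piStar0 (inertiaField A) M' q y) :
    NF.Data (alphaStar (inertiaField A) M' q) (betaStar (inertiaField A) M' q) q
      (OInf (badSetup_W0 hq hA M' hqM)) (OZero (badSetup_W0 hq hA M' hqM) W)
      (OInf3 (badSetup_W0 hq hA M' hqM)) (OMid hq A hA hζ M' hqM (IsLocalRing.residue A))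
      (OZ3 (badSetup_W0 hq hA M' hqM) w)
      ((q : ℕ) : FK (inertiaField A) (M' * q))
      ((q : ℕ) : FK (inertiaField A) (M' * q * q)) (dMid A M' q) := by
  haveI : Fact q.Prime := ⟨hq⟩
  haveI : CharP (IsLocalRing.ResidueField A) q := (badSetup_W0 hq hA M' hqM).charP
  haveI : PerfectRing (IsLocalRing.ResidueField A) q :=
    PerfectRing.ofSurjective _ q (hperf_residueField A q hq.ne_zero)
  exact nfData_free (badSetup_W0 hq hA M' hqM) (resW0_surjective hq hA) (isUnif_W0 hq hA) hW
    h0 h1 h2 (isUnif_dMid_residue hq A hA hζ M' hqM)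
    (exists_natCast_eq_dMid_pow_mul hq A hA hζ M' hqM (IsLocalRing.residue A)
      (residue_eq_zero_of_not_isUnit A))
    (OMid_comap_alpha hq A hA hζ M' hqM (badSetup_W0 hq hA M' hqM))
    (OMid_comap_beta hq A hA hζ M' hqM (badSetup_W0 hq hA M' hqM) hW)

end K0Inst

end

end Fermat.Agent.CAR.Formal.NormFree
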