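/-
CAR row 386 (NormInstK0): **the record `NF.Data` over the inertia field `K0 = ℚ̄^I`, plugged into
the front end `CAR.Core.newInertiaK0At_W0_of_points`** (seam test of the rows 386 / 399 / 400).

`A` a valuation subring of `ℚ̄` over `q`, `K0 = inertiaField A`, `W0 = A ∩ K0`, `M'` prime to `q`,
`FN = K0 · F_{M' q}`, `F = K0 · F_{M' q²}`, `α^* = alphaStar K0 M' q`, `β^* = betaStar K0 M' q`,
`hB = badSetup_W0 hq hA M' hqM`, `W` / `w` the Atkin–Lehner involutions of the levels `M' q` and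
`M' q²` (`IsAL`, `IsAL3`).

* `exists_isAL_pair` : `W` and `w` exist over every field of characteristic zero;
* `nfData_fin3` : the record `NF.Data α^* β^* q (OInf hB) (OZero hB W) (O 0) (O 1) (O 2) q q dMid`
  (unconditional: `V3/MidAll.nfDataK0`) for a family `O : Fin 3 → ValuationSubring F` with
  `O 0 = OInf3 hB`, `O 1 = OMid …`, `O 2 = OZero3 hB w` — the binder `D` of
  `Core.newInertiaK0At_W0_of_points`; `nfData_unifW` : the same with the uniformiser of level
  `M' q` written `algebraMap W0 FN q` — the binder `D` of `Core.chain`;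
  `comp3 = ![O_∞, O_mid, O_0]`, `nfData_comp3`;
* `hker_W0`, `hunit_W0`, `hK0_W0`, `algebraMap_W_mem_OInf`, `algebraMap_W_mem_OZero`,
  `coprime_pow`, `hN_alpha`, `hN_beta` : the binders `hker`, `hunit`, `hK0`, `hWA`, `hWC`, `hcop`,
  `hNα`, `hNβ` of the chain;
* `newInertiaK0At_of_charts` : `Core.newInertiaK0At_W0_of_points` with `D`, `hWA`, `hWC`
  discharged at `PA = OInf hB`, `PC = OZero hB W`: what is left are the chart function `x`, the
  two chart rings `chart W0 x`, `chart W0 x⁻¹` with `hmin`, `hmin'` and their point packages.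
-/
import Mathlib
import Fermat.Agent.CAR.V3.MidOrd
import Fermat.Agent.CAR.V3.RestrictZero
import Fermat.Agent.CAR.V3.AL3
import Fermat.Agent.CAR.V3.MidAll
import Fermat.Agent.CAR.Formal.NormBc
import Fermat.Agent.CAR.Core.FrontK0

set_option autoImplicit false
set_option linter.unusedSectionVars false
set_option linter.style.haveILetI false

noncomputable section

namespace Fermat.Agent.CAR.Formal.NormInstK0

open ModularCurve AlgebraicCurve Fermat.Agent.CAR.K0 Fermat.Agent.CAR.V3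
  Fermat.Agent.CAR.V3.MidRing Fermat.Agent.CAR.V3.MidRestrict Fermat.Agent.CAR.V3.RestrictNF
  Fermat.Agent.BAD.TwoVal Fermat.Agent.ESJ.Cong.LevelGen Fermat.Agent.CAR.Formal
  Fermat.Agent.ESJ.Jac Fermat.Agent.CAR.Core Fermat.Agent.CAR.Glob.Charts

local notation "Qb" => AlgebraicClosure ℚ

/-! ### Generic statements (any coefficient field) -/

section Generic

variable (L : Type) [Field L] [Algebra ℚ L]

/-- The two Atkin–Lehner involutions (levels `M' q` and `M' q²`) exist over every field of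
characteristic zero. -/
theorem exists_isAL_pair (M' q : ℕ) [NeZero M'] [NeZero q] (hq : q.Prime) (hqM : ¬ q ∣ M') :
    ∃ (W : ALAut L M' q) (w : ALAut L (M' * q) q), IsAL M' q W ∧ IsAL3 M' q w := by
  obtain ⟨W, hW⟩ := AL3.exists_isAL_of_charZero (L := L) M' q hq hqM
  obtain ⟨w, hw⟩ := exists_isAL3 (L := L) M' q hq hqM
  exact ⟨W, w, hW, hw⟩

/-- The binder `hNα` of `CAR.Core.chain` from the `α`-norm hypothesis of
`NormBc.NewInertiaK0At (M' * q) q p L`. -/
theorem hN_alpha (M' q m : ℕ) [NeZero M'] [NeZero q] (f : FNK L (M' * q * q))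
    (h : ∃ (a : L) (g : FNK L (M' * q)), a ≠ 0 ∧ g ≠ 0 ∧
      Descent.normAlong (heckeAlphaBar L (M' * q) q) f
        = algebraMap L (FNK L (M' * q)) a * g ^ m) :
    ∃ (a : L) (g : FNK L (M' * q)), a ≠ 0 ∧
      NF.normOf (alphaStar L M' q) f = algebraMap L (FNK L (M' * q)) a * g ^ m := by
  obtain ⟨a, g, ha, -, hN⟩ := h
  exact ⟨a, g, ha, hN⟩

/-- The binder `hNβ` of `CAR.Core.chain` from the `β`-norm hypothesis of
`NormBc.NewInertiaK0At (M' * q) q p L`. -/
theorem hN_beta (M' q m : ℕ) [NeZero M'] [NeZero q] (f : FNK L (M' * q * q))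
    (h : ∃ (a : L) (g : FNK L (M' * q)), a ≠ 0 ∧ g ≠ 0 ∧
      Descent.normAlong (heckeBetaBar L (M' * q) q) f
        = algebraMap L (FNK L (M' * q)) a * g ^ m) :
    ∃ (a : L) (g : FNK L (M' * q)), a ≠ 0 ∧
      NF.normOf (betaStar L M' q) f = algebraMap L (FNK L (M' * q)) a * g ^ m := by
  obtain ⟨a, g, ha, -, hN⟩ := h
  exact ⟨a, g, ha, hN⟩

variable {L} {V : ValuationSubring L} {k : Type} [Field k] {π : V →+* k} {M ℓ : ℕ} [NeZero M]
  [NeZero ℓ]

/-- The natural number `n` of the base valuation ring `V`, as a constant of `L · F_N`: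
`algebraMap V (L · F_N) n` (an abbreviation elaborated for a generic field `L`: the instance
`Algebra ↥(W0 A) ↥(K0 · F_N)` is slow to synthesise at the inertia field). -/
abbrev unifW (V : ValuationSubring L) (N n : ℕ) :
    ↥(laurentBaseChange L (modularFunctionFieldFull N)) :=
  algebraMap ↥V ↥(laurentBaseChange L (modularFunctionFieldFull N)) ((n : ℕ) : ↥V)

/-- The uniformiser `algebraMap V F n` (`n` a natural number) is the natural number `n` of `F`. -/
theorem unifW_eq (V : ValuationSubring L) (N n : ℕ) :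
    unifW V N n = ((n : ℕ) : ↥(laurentBaseChange L (modularFunctionFieldFull N))) :=
  map_natCast _ n

/-- The binder `hWA` of `CAR.Core.chain`: the constants of the base valuation ring lie in
`O_∞`. -/
theorem algebraMap_W_mem_OInf (h : BadSetup V π M ℓ) (x : ↥V) :
    algebraMap ↥V ↥(laurentBaseChange L (modularFunctionFieldFull (M * ℓ))) x ∈ OInf h :=
  (algebraMap_mem_OInf_iff h (x : L)).mpr x.2

/-- The binder `hWC` of `CAR.Core.chain`: the constants of the base valuation ring lie in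
`O_0`. -/
theorem algebraMap_W_mem_OZero (h : BadSetup V π M ℓ)
    (W : laurentBaseChange L (modularFunctionFieldFull (M * ℓ)) ≃ₐ[L]
      laurentBaseChange L (modularFunctionFieldFull (M * ℓ))) (x : ↥V) :
    algebraMap ↥V ↥(laurentBaseChange L (modularFunctionFieldFull (M * ℓ))) x ∈ OZero h W :=
  (algebraMap_mem_OZero_iff h (x : L)).mpr x.2

/-- Transport of `NF.Data` along equalities of the three valuation rings of the upper level and of
the uniformiser of the lower level. -/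
theorem nfData_congr {FN F : Type*} [Field FN] [Field F] {α β : FN →+* F} {q : ℕ}
    {PA PC : ValuationSubring FN} {Oa Ob Oc Oa' Ob' Oc' : ValuationSubring F} {ϖN ϖN' : FN}
    {ϖ d : F} (D : NF.Data α β q PA PC Oa Ob Oc ϖN ϖ d) (ha : Oa' = Oa) (hb : Ob' = Ob)
    (hc : Oc' = Oc) (hϖ : ϖN' = ϖN) : NF.Data α β q PA PC Oa' Ob' Oc' ϖN' ϖ d := by
  subst ha hb hc hϖ
  exact D

end Generic

/-- The binder `hcop` of `CAR.Core.chain` for `m = p ^ n`, `p ≠ q` primes. -/
theorem coprime_pow {p q : ℕ} (hp : p.Prime) (hq : q.Prime) (hqp : q ≠ p) (n : ℕ) :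
    Nat.Coprime (p ^ n) q :=
  Nat.Coprime.pow_left n ((Nat.coprime_primes hp hq).mpr (Ne.symm hqp))

/-! ### The base `(W0, resW0, q)` -/

section Base

variable {q : ℕ} (hq : q.Prime) {A : ValuationSubring Qb} (hA : A.LiesOverPrime q)

include hq hA in
/-- The binder `hker` of `CAR.Core.chain`: the kernel of `resW0` is generated by `q`. -/
theorem hker_W0 : ∀ x : ↥(W0 A), resW0 A x = 0 → ((q : ℕ) : ↥(W0 A)) ∣ x := by
  intro x hx
  have h1 : x ∈ IsLocalRing.maximalIdeal ↥(W0 A) := by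
    rw [IsLocalRing.mem_maximalIdeal, mem_nonunits_iff]
    exact (resW0_eq_zero_iff A x).mp hx
  rw [maximalIdeal_W0_eq_span hq hA] at h1
  exact Ideal.mem_span_singleton.mp h1

/-- The binder `hunit` of `CAR.Core.chain`. -/
theorem hunit_W0 (A : ValuationSubring Qb) : ∀ x : ↥(W0 A), resW0 A x ≠ 0 → IsUnit x := by
  intro x hx
  by_contra hu
  exact hx ((resW0_eq_zero_iff A x).mpr hu)

include hq hA in
/-- The binder `hK0` of `CAR.Core.chain`: `K0` is unramified over `q`. -/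
theorem hK0_W0 : ∀ a : ↥(K0 A), a ≠ 0 → ∃ (n : ℤ) (x : ↥(W0 A)), IsUnit x ∧
    a = algebraMap ↥(W0 A) ↥(K0 A) ((q : ℕ) : ↥(W0 A)) ^ n * algebraMap ↥(W0 A) ↥(K0 A) x := by
  intro a ha
  obtain ⟨n, u, hu, hu', he⟩ := exists_pow_mul_unit hq hA a ha
  have hu0 : u ≠ 0 := by
    rintro rfl
    rw [mul_zero] at he
    exact ha he
  refine ⟨n, ⟨u, hu⟩, ?_, ?_⟩
  · refine IsUnit.of_mul_eq_one (⟨u⁻¹, hu'⟩ : ↥(W0 A)) ?_
    apply Subtype.ext
    show u * u⁻¹ = 1
    exact mul_inv_cancel₀ hu0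
  · rw [map_natCast]
    exact he

end Base

/-! ### The record over the inertia field -/

section Inst

variable {q : ℕ} (hq : q.Prime) (A : ValuationSubring Qb) (hA : A.LiesOverPrime q)
  {ζ : Qb} (hζ : IsPrimitiveRoot ζ q) (M' : ℕ) [NeZero M'] [NeZero q] (hqM : ¬ q ∣ M')
  (W : ALAut (inertiaField A) M' q) (w : ALAut (inertiaField A) (M' * q) q)

/-- The family of the three vertical valuation rings of `K0 · F_{M' q²}`:
`![O_∞, O_mid, O_0]`. -/
def comp3 : Fin 3 → ValuationSubring ↥(FK (inertiaField A) (M' * q * q)) :=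
  ![OInf3 (badSetup_W0 hq hA M' hqM), OMid hq A hA hζ M' hqM (IsLocalRing.residue A),
    OZero3 (badSetup_W0 hq hA M' hqM) w]

theorem comp3_zero : comp3 hq A hA hζ M' hqM w 0 = OInf3 (badSetup_W0 hq hA M' hqM) := rfl

theorem comp3_one :
    comp3 hq A hA hζ M' hqM w 1 = OMid hq A hA hζ M' hqM (IsLocalRing.residue A) := rfl

theorem comp3_two : comp3 hq A hA hζ M' hqM w 2 = OZero3 (badSetup_W0 hq hA M' hqM) w := rfl

variable {W w}

/-- **`NF.Data` over the inertia field for a family `O : Fin 3 → ValuationSubring F`** of the three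
vertical valuation rings (`O 0 = O_∞`, `O 1 = O_mid`, `O 2 = O_0`): the binder `D` of
`CAR.Core.newInertiaK0At_W0_of_points` at `PA = OInf hB`, `PC = OZero hB W`, `ϖ = q`,
`d = dMid`.  Unconditional (`V3/MidAll.nfDataK0`). -/
theorem nfData_fin3 (hW : IsAL M' q W) (hw : IsAL3 M' q w)
    (O : Fin 3 → ValuationSubring ↥(FK (inertiaField A) (M' * q * q)))
    (hO0 : O 0 = OInf3 (badSetup_W0 hq hA M' hqM))
    (hO1 : O 1 = OMid hq A hA hζ M' hqM (IsLocalRing.residue A))
    (hO2 : O 2 = OZero3 (badSetup_W0 hq hA M' hqM) w) :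
    NF.Data (alphaStar (inertiaField A) M' q) (betaStar (inertiaField A) M' q) q
      (OInf (badSetup_W0 hq hA M' hqM)) (OZero (badSetup_W0 hq hA M' hqM) W)
      (O 0) (O 1) (O 2)
      ((q : ℕ) : FK (inertiaField A) (M' * q))
      ((q : ℕ) : FK (inertiaField A) (M' * q * q)) (dMid A M' q) :=
  nfData_congr (MidAll.nfDataK0 hq A hA hζ M' hqM hW hw) hO0 hO1 hO2 rfl

/-- The same record with the uniformiser of level `M' q` written `algebraMap W0 FN q`: the binder
`D` of `CAR.Core.chain` and of `CAR.Core.newInertiaK0At_of_chain` at `(W, q₀) = (W0 A, q)`. -/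
theorem nfData_unifW (hW : IsAL M' q W) (hw : IsAL3 M' q w)
    (O : Fin 3 → ValuationSubring ↥(FK (inertiaField A) (M' * q * q)))
    (hO0 : O 0 = OInf3 (badSetup_W0 hq hA M' hqM))
    (hO1 : O 1 = OMid hq A hA hζ M' hqM (IsLocalRing.residue A))
    (hO2 : O 2 = OZero3 (badSetup_W0 hq hA M' hqM) w) :
    NF.Data (alphaStar (inertiaField A) M' q) (betaStar (inertiaField A) M' q) q
      (OInf (badSetup_W0 hq hA M' hqM)) (OZero (badSetup_W0 hq hA M' hqM) W)
      (O 0) (O 1) (O 2)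
      (unifW (W0 A) (M' * q) q)
      ((q : ℕ) : FK (inertiaField A) (M' * q * q)) (dMid A M' q) :=
  nfData_congr (MidAll.nfDataK0 hq A hA hζ M' hqM hW hw) hO0 hO1 hO2
    (unifW_eq (W0 A) (M' * q) q)

/-- **The record for `O := comp3 = ![O_∞, O_mid, O_0]`.** -/
theorem nfData_comp3 (hW : IsAL M' q W) (hw : IsAL3 M' q w) :
    NF.Data (alphaStar (inertiaField A) M' q) (betaStar (inertiaField A) M' q) q
      (OInf (badSetup_W0 hq hA M' hqM)) (OZero (badSetup_W0 hq hA M' hqM) W)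
      (comp3 hq A hA hζ M' hqM w 0) (comp3 hq A hA hζ M' hqM w 1)
      (comp3 hq A hA hζ M' hqM w 2)
      ((q : ℕ) : FK (inertiaField A) (M' * q))
      ((q : ℕ) : FK (inertiaField A) (M' * q * q)) (dMid A M' q) :=
  nfData_fin3 hq A hA hζ M' hqM hW hw _ (comp3_zero hq A hA hζ M' hqM w)
    (comp3_one hq A hA hζ M' hqM w) (comp3_two hq A hA hζ M' hqM w)

set_option maxHeartbeats 2000000 in
set_option synthInstance.maxHeartbeats 400000 in
/-- **`NewInertiaK0At` at the inertia field from the two charts**: the front end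
`Core.newInertiaK0At_W0_of_points` with the record `NF.Data` (`nfData_fin3`) and the binders
`hWA`, `hWC` discharged at `PA = OInf hB`, `PC = OZero hB W`, `ϖ = q`, `d = dMid`.  What is left:
the chart function `x`, the two chart rings with `hmin`, `hmin'`, and the point packages. -/
theorem newInertiaK0At_of_charts {p : ℕ} (hp : p.Prime) (hqp : q ≠ p)
    (hW : IsAL M' q W) (hw : IsAL3 M' q w)
    (O : Fin 3 → ValuationSubring (FNK ↥(K0 A) (M' * q * q)))
    (hO0 : O 0 = OInf3 (badSetup_W0 hq hA M' hqM))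
    (hO1 : O 1 = OMid hq A hA hζ M' hqM (IsLocalRing.residue A))
    (hO2 : O 2 = OZero3 (badSetup_W0 hq hA M' hqM) w)
    (x : FNK ↥(K0 A) (M' * q * q)) (hx : (x : LaurentSeries ↥(K0 A)).order ≠ 0)
    (hRV : ∀ i, ∀ r ∈ chart ↥(W0 A) x, r ∈ O i)
    (hR'V : ∀ i, ∀ r ∈ chart ↥(W0 A) x⁻¹, r ∈ O i)
    (hmin : ∀ 𝔮 ∈ (Ideal.span {algebraMap (W0 A) (chart ↥(W0 A) x)
        ((q : ℕ) : W0 A)}).minimalPrimes,
      ∃ i, 𝔮 = Local.centre (O i) (fun a : chart ↥(W0 A) x => hRV i a a.2))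
    (hmin' : ∀ 𝔮 ∈ (Ideal.span {algebraMap (W0 A) (chart ↥(W0 A) x⁻¹)
        ((q : ℕ) : W0 A)}).minimalPrimes,
      ∃ i, 𝔮 = Local.centre (O i) (fun a : chart ↥(W0 A) x⁻¹ => hR'V i a a.2))
    (hptR : ∀ (n : ℕ) (Q : Ideal (chart ↥(W0 A) x)), Q.IsMaximal →
      algebraMap (W0 A) (chart ↥(W0 A) x) ((q : ℕ) : W0 A) ∈ Q →
      PointPkg ↥(K0 A) (resW0 A) (p ^ n) q (alphaStar ↥(K0 A) M' q) (betaStar ↥(K0 A) M' q)
        (OInf (badSetup_W0 hq hA M' hqM)) (OZero (badSetup_W0 hq hA M' hqM) W) O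
        (LocalPair O (chart ↥(W0 A) x) Q (p ^ n)))
    (hptR' : ∀ (n : ℕ) (Q : Ideal (chart ↥(W0 A) x⁻¹)), Q.IsMaximal →
      algebraMap (W0 A) (chart ↥(W0 A) x⁻¹) ((q : ℕ) : W0 A) ∈ Q →
      (⟨x⁻¹, self_mem_chart x⁻¹⟩ : chart ↥(W0 A) x⁻¹) ∈ Q →
      PointPkg ↥(K0 A) (resW0 A) (p ^ n) q (alphaStar ↥(K0 A) M' q) (betaStar ↥(K0 A) M' q)
        (OInf (badSetup_W0 hq hA M' hqM)) (OZero (badSetup_W0 hq hA M' hqM) W) O
        (LocalPair O (chart ↥(W0 A) x⁻¹) Q (p ^ n))) :
    NormBc.NewInertiaK0At (M' * q) q p (inertiaField A) :=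
  newInertiaK0At_W0_of_points hq A hA M' p hp hqp
    (OInf (badSetup_W0 hq hA M' hqM)) (OZero (badSetup_W0 hq hA M' hqM) W) O
    ((q : ℕ) : FK (inertiaField A) (M' * q * q)) (dMid A M' q)
    (nfData_fin3 hq A hA hζ M' hqM hW hw O hO0 hO1 hO2)
    (algebraMap_W_mem_OInf (badSetup_W0 hq hA M' hqM))
    (algebraMap_W_mem_OZero (badSetup_W0 hq hA M' hqM) W) x hx hRV hR'V hmin hmin' hptR hptR'

end Inst

end Fermat.Agent.CAR.Formal.NormInstK0

end
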