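/-
CAR (F-bc), brick 3: the NORMAL FORM, abstract additive form (pure `ℤ`-linear algebra).

`G` = (additively written) multiplicative group of the level-`M` field, with three order
functions `a, b, c` (`inf`, `mid`, `0`) and three reductions `ρa, ρb, ρc` into `R` (additive on
tri-units); `GN` the same at level `N` with orders `A, C` and reductions `rA, rC`;
`Nα, Nβ : G →+ GN` the two norms; `𝒦 ≤ GN` = constants times `m`-th powers.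
From the norm–valuation relations (N-1), the norm–reduction relations (N-2), the valuation
vectors of `ϖ, u₁, u₂` and joint surjectivity of the reductions:

  `Nα f, Nβ f ∈ 𝒦  ⟹  (144 e² (e+2)) • f = j • ϖ + m • Gm + f₃`,
  `f₃` a tri-unit with all three reductions trivial     (`e = q - 1`).
-/
import Mathlib

set_option autoImplicit false

namespace Fermat.Agent.CAR.Formal

theorem normalForm_add {G GN R : Type*} [AddCommGroup G] [AddCommGroup GN] [AddCommGroup R]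
    (m e : ℕ) (hcop : Nat.Coprime m (e + 1))
    (a b c : G →+ ℤ) (ρa ρb ρc : G → R)
    (hρa : ∀ x y, (a x = 0 ∧ b x = 0 ∧ c x = 0) → (a y = 0 ∧ b y = 0 ∧ c y = 0) →
      ρa (x + y) = ρa x + ρa y)
    (hρb : ∀ x y, (a x = 0 ∧ b x = 0 ∧ c x = 0) → (a y = 0 ∧ b y = 0 ∧ c y = 0) →
      ρb (x + y) = ρb x + ρb y)
    (hρc : ∀ x y, (a x = 0 ∧ b x = 0 ∧ c x = 0) → (a y = 0 ∧ b y = 0 ∧ c y = 0) →
      ρc (x + y) = ρc x + ρc y)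
    (A C : GN →+ ℤ) (rA rC : GN → R)
    (Nα Nβ : G →+ GN) (ψ₁ ψ₂ : R →+ R)
    (𝒦 : AddSubgroup GN)
    (hK1 : ∀ x : GN, m • x ∈ 𝒦)
    (hK2 : ∀ x ∈ 𝒦, A x = 0 → C x = 0 → (∃ s, rA x = m • s) ∧ (∃ s, rC x = m • s))
    (hK3 : ∀ x ∈ 𝒦, (m : ℤ) ∣ A x - C x)
    (ϖ u₁ u₂ : G)
    (hϖ : a ϖ = 1 ∧ b ϖ = e ∧ c ϖ = 1) (hu₁ : a u₁ = 0 ∧ b u₁ = 0 ∧ c u₁ = 12)
    (hu₂ : a u₂ = 0 ∧ b u₂ = 12 * e ∧ c u₂ = 12)
    (hK4 : Nα ϖ ∈ 𝒦 ∧ Nβ ϖ ∈ 𝒦)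
    (hN1α : ∀ f, A (Nα f) = a f + b f ∧ C (Nα f) = (e + 1) * c f)
    (hN1β : ∀ f, A (Nβ f) = (e + 1) * a f ∧ C (Nβ f) = b f + c f)
    (hN2α : ∀ g, a g = 0 → b g = 0 → c g = 0 →
      rA (Nα g) = ρa g + e • ρb g ∧ ψ₁ (rC (Nα g)) = (e + 1) • ρc g)
    (hN2β : ∀ g, a g = 0 → b g = 0 → c g = 0 →
      ψ₂ (rA (Nβ g)) = (e + 1) • ρa g ∧ rC (Nβ g) = e • ρb g + ρc g)
    (hJS : ∀ s₁ s₂ s₃ : R, ∃ H : G, a H = 0 ∧ b H = 0 ∧ c H = 0 ∧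
      ρa H = s₁ ∧ ρb H = s₂ ∧ ρc H = s₃)
    (f : G) (hfα : Nα f ∈ 𝒦) (hfβ : Nβ f ∈ 𝒦) :
    ∃ (j : ℤ) (Gm f₃ : G), (144 * e ^ 2 * (e + 2)) • f = j • ϖ + m • Gm + f₃ ∧
      a f₃ = 0 ∧ b f₃ = 0 ∧ c f₃ = 0 ∧ ρa f₃ = 0 ∧ ρb f₃ = 0 ∧ ρc f₃ = 0 := by
  -- the subgroup of tri-units and the reductions as homomorphisms on it
  let U : AddSubgroup G := a.ker ⊓ b.ker ⊓ c.ker
  have hU : ∀ x : G, x ∈ U ↔ a x = 0 ∧ b x = 0 ∧ c x = 0 := by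
    intro x
    simp only [U, AddSubgroup.mem_inf, AddMonoidHom.mem_ker, and_assoc]
  have hom : ∀ ρ : G → R, (∀ x y, (a x = 0 ∧ b x = 0 ∧ c x = 0) →
      (a y = 0 ∧ b y = 0 ∧ c y = 0) → ρ (x + y) = ρ x + ρ y) →
      ∃ ρ' : U →+ R, ∀ x : U, ρ' x = ρ x := fun ρ hρ =>
    ⟨AddMonoidHom.mk' (fun x : U => ρ x) fun x y => hρ x y ((hU x).mp x.2) ((hU y).mp y.2),
      fun _ => rfl⟩
  obtain ⟨ρa', hρa'⟩ := hom ρa hρa
  obtain ⟨ρb', hρb'⟩ := hom ρb hρb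
  obtain ⟨ρc', hρc'⟩ := hom ρc hρc
  -- the congruences
  set a₀ := a f with ha₀
  set b₀ := b f with hb₀
  set c₀ := c f with hc₀
  have hP : (m : ℤ) ∣ (a₀ + b₀) - (e + 1) * c₀ := by
    have := hK3 _ hfα
    rwa [(hN1α f).1, (hN1α f).2] at this
  have hR : (m : ℤ) ∣ (e + 1) * a₀ - (b₀ + c₀) := by
    have := hK3 _ hfβ
    rwa [(hN1β f).1, (hN1β f).2] at this
  obtain ⟨Y', hY'⟩ : (m : ℤ) ∣ (e + 2) * (e * c₀ - b₀) := by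
    have h1 : ((e : ℤ) + 2) * (e * c₀ - b₀) =
        ((e + 1) * a₀ - (b₀ + c₀)) - (e + 1) * ((a₀ + b₀) - (e + 1) * c₀) := by ring
    rw [h1]
    exact dvd_sub hR (Dvd.dvd.mul_left hP _)
  obtain ⟨Z', hZ'⟩ : (m : ℤ) ∣ (e + 2) * (b₀ - e * a₀) := by
    have h1 : ((e : ℤ) + 2) * (b₀ - e * a₀) =
        ((a₀ + b₀) - (e + 1) * c₀) - (e + 1) * ((e + 1) * a₀ - (b₀ + c₀)) := by ring
    rw [h1]
    exact dvd_sub hP (Dvd.dvd.mul_left hR _)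
  -- the tri-unit `g`
  set g : G := (144 * e : ℤ) • f - (144 * e * a₀) • ϖ - (12 * (e * c₀ - b₀)) • u₁ -
    (12 * (b₀ - e * a₀)) • u₂ with hg
  have hga : a g = 0 := by
    rw [hg]
    simp only [map_sub, map_zsmul, smul_eq_mul, hϖ.1, hu₁.1, hu₂.1, ← ha₀]
    ring
  have hgb : b g = 0 := by
    rw [hg]
    simp only [map_sub, map_zsmul, smul_eq_mul, hϖ.2.1, hu₁.2.1, hu₂.2.1, ← hb₀]
    ring
  have hgc : c g = 0 := by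
    rw [hg]
    simp only [map_sub, map_zsmul, smul_eq_mul, hϖ.2.2, hu₁.2.2, hu₂.2.2, ← hc₀]
    ring
  set g₂ : G := ((e : ℤ) + 2) • g with hg₂
  have hg₂a : a g₂ = 0 := by rw [hg₂, map_zsmul, hga, smul_zero]
  have hg₂b : b g₂ = 0 := by rw [hg₂, map_zsmul, hgb, smul_zero]
  have hg₂c : c g₂ = 0 := by rw [hg₂, map_zsmul, hgc, smul_zero]
  set G₁ : G := (12 * Y') • u₁ + (12 * Z') • u₂ with hG₁
  have key1 : g₂ = (144 * e * (e + 2) : ℤ) • f - (144 * e * a₀ * (e + 2)) • ϖ -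
      (m : ℤ) • G₁ := by
    have e1 : ((e : ℤ) + 2) * (12 * (e * c₀ - b₀)) = m * (12 * Y') := by
      linear_combination 12 * hY'
    have e2 : ((e : ℤ) + 2) * (12 * (b₀ - e * a₀)) = m * (12 * Z') := by
      linear_combination 12 * hZ'
    have e1' : ((e : ℤ) + 2) • (12 * (e * c₀ - b₀)) • u₁ = (m : ℤ) • (12 * Y') • u₁ := by
      rw [smul_smul, smul_smul, e1]
    have e2' : ((e : ℤ) + 2) • (12 * (b₀ - e * a₀)) • u₂ = (m : ℤ) • (12 * Z') • u₂ := by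
      rw [smul_smul, smul_smul, e2]
    rw [hg₂, hg, hG₁, smul_sub, smul_sub, smul_sub, e1', e2']
    module
  -- the norms of `g₂` are in `𝒦` and bi-units
  have hK : ∀ (N : G →+ GN), N f ∈ 𝒦 → N ϖ ∈ 𝒦 → N g₂ ∈ 𝒦 := by
    intro N h1 h2
    rw [key1, map_sub, map_sub, map_zsmul, map_zsmul, map_zsmul]
    refine 𝒦.sub_mem (𝒦.sub_mem (𝒦.zsmul_mem h1 _) (𝒦.zsmul_mem h2 _)) ?_
    rw [natCast_zsmul]
    exact hK1 _
  have hα𝒦 := hK Nα hfα hK4.1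
  have hβ𝒦 := hK Nβ hfβ hK4.2
  have hαA : A (Nα g₂) = 0 := by rw [(hN1α g₂).1, hg₂a, hg₂b, add_zero]
  have hαC : C (Nα g₂) = 0 := by rw [(hN1α g₂).2, hg₂c, mul_zero]
  have hβA : A (Nβ g₂) = 0 := by rw [(hN1β g₂).1, hg₂a, mul_zero]
  have hβC : C (Nβ g₂) = 0 := by rw [(hN1β g₂).2, hg₂b, hg₂c, add_zero]
  obtain ⟨⟨s₁, hs₁⟩, ⟨s₂, hs₂⟩⟩ := hK2 _ hα𝒦 hαA hαC
  obtain ⟨⟨s₃, hs₃⟩, ⟨s₄, hs₄⟩⟩ := hK2 _ hβ𝒦 hβA hβC
  obtain ⟨hx1, hz1⟩ := hN2α g₂ hg₂a hg₂b hg₂c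
  obtain ⟨hx2, hz2⟩ := hN2β g₂ hg₂a hg₂b hg₂c
  set x := ρa g₂ with hx
  set y := ρb g₂ with hy
  set z := ρc g₂ with hz
  rw [hs₁] at hx1
  rw [hs₂, map_nsmul] at hz1
  rw [hs₃, map_nsmul] at hx2
  rw [hs₄] at hz2
  -- Bezout
  obtain ⟨α, β, hαβ⟩ : ∃ α β : ℤ, α * m + β * (e + 1) = 1 := by
    have h1 : IsCoprime (m : ℤ) ((e + 1 : ℕ) : ℤ) := Nat.isCoprime_iff_coprime.mpr hcop
    obtain ⟨α, β, h⟩ := h1
    exact ⟨α, β, by push_cast at h; exact h⟩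
  have hdiv : ∀ (t s : R), (e + 1) • t = m • s → t = m • (α • t + β • s) := by
    intro t s hts
    have h1 : t = (α * m + β * (e + 1)) • t := by rw [hαβ, one_smul]
    have h2 : (((e + 1 : ℕ) : ℤ)) • t = (m : ℤ) • s := by
      rw [natCast_zsmul, natCast_zsmul]
      exact hts
    push_cast at h2
    calc t = (α * m + β * (e + 1)) • t := h1
      _ = (m : ℤ) • (α • t) + β • (((e : ℤ) + 1) • t) := by module
      _ = (m : ℤ) • (α • t) + β • ((m : ℤ) • s) := by rw [h2]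
      _ = (m : ℤ) • (α • t + β • s) := by module
      _ = m • (α • t + β • s) := natCast_zsmul _ _
  have hzm := hdiv z (ψ₁ s₂) hz1.symm
  have hxm := hdiv x (ψ₂ s₃) hx2.symm
  set z₁ := α • z + β • ψ₁ s₂ with hz₁
  set x₁ := α • x + β • ψ₂ s₃ with hx₁
  have hym : e • y = m • (s₄ - z₁) := by
    have h1 : e • y = m • s₄ - z := by rw [hz2]; abel
    rw [h1, smul_sub, ← hzm]
  -- the element `g₃ = e • g₂` and the correction `H`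
  obtain ⟨H, hHa, hHb, hHc, hH1, hH2, hH3⟩ := hJS (e • x₁) (s₄ - z₁) (e • z₁)
  have hg₂U : g₂ ∈ U := (hU g₂).mpr ⟨hg₂a, hg₂b, hg₂c⟩
  have hHU : H ∈ U := (hU H).mpr ⟨hHa, hHb, hHc⟩
  set f₃ : G := e • g₂ - m • H with hf₃
  have hf₃U : f₃ ∈ U := U.sub_mem (U.nsmul_mem hg₂U _) (U.nsmul_mem hHU _)
  have hred : ∀ (ρ : G → R) (ρ' : U →+ R), (∀ x : U, ρ' x = ρ x) →
      ρ f₃ = e • ρ g₂ - m • ρ H := by
    intro ρ ρ' h
    have h1 : ρ f₃ = ρ' (e • ⟨g₂, hg₂U⟩ - m • ⟨H, hHU⟩) := by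
      rw [h]
      rfl
    rw [h1, map_sub, map_nsmul, map_nsmul, h, h]
  refine ⟨144 * e * a₀ * (e + 2) * e, e • G₁ + H, f₃, ?_, ((hU f₃).mp hf₃U).1,
    ((hU f₃).mp hf₃U).2.1, ((hU f₃).mp hf₃U).2.2, ?_, ?_, ?_⟩
  · have h1 : (e : ℤ) • g₂ = e • g₂ := natCast_zsmul _ _
    have h2 : ((144 * e ^ 2 * (e + 2) : ℕ) : ℤ) • f = (144 * e ^ 2 * (e + 2)) • f :=
      natCast_zsmul _ _
    have h3 : (m : ℤ) • (e • G₁ + H) = m • (e • G₁ + H) := natCast_zsmul _ _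
    have h4 : (m : ℤ) • H = m • H := natCast_zsmul _ _
    have h5 : (e : ℤ) • G₁ = e • G₁ := natCast_zsmul _ _
    rw [← h2, ← h3, hf₃, ← h1, ← h4, ← h5, key1]
    push_cast
    simp only [smul_sub, smul_add, smul_smul]
    have e3 : (e : ℤ) * (144 * e * (e + 2)) = 144 * e ^ 2 * (e + 2) := by ring
    have e4 : (e : ℤ) * (144 * e * a₀ * (e + 2)) = 144 * e * a₀ * (e + 2) * e := by ring
    have e5 : (e : ℤ) * m = m * e := by ring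
    rw [e3, e4, e5]
    abel
  · rw [hred ρa ρa' hρa', ← hx, hxm, hH1, smul_comm e m x₁, sub_self]
  · rw [hred ρb ρb' hρb', ← hy, hym, hH2, sub_self]
  · rw [hred ρc ρc' hρc', ← hz, hzm, hH3, smul_comm e m z₁, sub_self]

end Fermat.Agent.CAR.Formal
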